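import Mathlib
import Fermat.Prelude.Def_CuspForm_HeckeAlgebra
import Fermat.Prelude.Def_CuspForm_IntegralStructure
import Fermat.Prelude.Thm_CuspForm_intLattice_fg
import Fermat.Agent.Lib.DeligneSerre
import Fermat.Agent.S23.Main
import Fermat.Agent.S23.HeckeFinite

/-!
# S30 preparation, leaf EIGSYS: eigensystems with a prescribed kernel

* `egs_abstract`: a commutative ring `H`, integral over `ℤ`, acting faithfully on a
  finite-dimensional vector space over an algebraically closed field of characteristic zero, and a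
  ring hom `χ : H → O` to a domain of characteristic zero: there is a common eigenvector whose
  eigencharacter `lam` has the same kernel as `χ`.
* `egs_main`: the same for the Hecke algebra acting on cusp forms.
* `egs_semilinear`: if `ker lam = ker χ` (`lam : T → C`, `χ : T → K`, fields), there is an additive
  map `π : C → K` with `π (lam t * z) = χ t * π z` and `π z₀ = 1`.
* `egs_transfer`: a nonzero additive map `per : Γ → C` on a finitely generated group is
  transported to a nonzero additive map `ψ : Γ → O` such that every relation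
  `∑ per (c i) = lam t * per γ` becomes `∑ ψ (c i) = χ t * ψ γ`.
-/

set_option autoImplicit false

namespace Fermat.Agent.S30

open CongruenceSubgroup

/-- If `ker lam ≤ ker χ`, the residue characteristics are zero and `t` is integral over `ℤ`,
then `χ t = 0` implies `lam t = 0`. -/
theorem egs_ker_le {H : Type*} [CommRing H] {K O : Type*} [Field K] [CommRing O] [CharZero O]
    (lam : H →+* K) (χ : H →+* O) (hle : RingHom.ker lam ≤ RingHom.ker χ) (t : H)
    (ht : IsIntegral ℤ t) (hχ : χ t = 0) : lam t = 0 := by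
  have hz : IsIntegral ℤ (lam t) := map_isIntegral_int lam ht
  have h1 : Polynomial.aeval (lam t) (minpoly ℤ (lam t)) = 0 := minpoly.aeval ℤ (lam t)
  have h2 : lam (Polynomial.aeval t (minpoly ℤ (lam t))) = 0 := by
    have := Polynomial.aeval_algHom_apply lam.toIntAlgHom t (minpoly ℤ (lam t))
    rw [← h1]
    exact this.symm
  have h3 : χ (Polynomial.aeval t (minpoly ℤ (lam t))) = 0 := hle h2
  have h4 : ((minpoly ℤ (lam t)).coeff 0 : O) = 0 := by
    have h6 : Polynomial.aeval (χ t) (minpoly ℤ (lam t))
        = χ (Polynomial.aeval t (minpoly ℤ (lam t))) :=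
      Polynomial.aeval_algHom_apply χ.toIntAlgHom t (minpoly ℤ (lam t))
    have h5 : Polynomial.aeval (χ t) (minpoly ℤ (lam t)) = 0 := by
      rw [h6]; exact h3
    rw [hχ, ← Polynomial.coeff_zero_eq_aeval_zero'] at h5
    simpa using h5
  have h5 : (minpoly ℤ (lam t)).coeff 0 = 0 := by exact_mod_cast h4
  obtain ⟨q, hq⟩ := Polynomial.X_dvd_iff.mpr h5
  have hirr : Irreducible (minpoly ℤ (lam t)) := minpoly.irreducible hz
  have hu : IsUnit q := (hirr.isUnit_or_isUnit hq).resolve_left Polynomial.not_isUnit_X
  rw [hq, map_mul, Polynomial.aeval_X] at h1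
  exact (hu.map (Polynomial.aeval (lam t))).mul_left_eq_zero.mp h1

/-- A commutative ring `H`, integral over `ℤ`, acting faithfully on a finite-dimensional space
over an algebraically closed field of characteristic zero; `χ : H → O` a ring hom to a domain of
characteristic zero.  There is a common eigenvector whose eigencharacter has kernel `ker χ`. -/
theorem egs_abstract {K : Type*} [Field K] [IsAlgClosed K] {H : Type*} [CommRing H]
    (hint : ∀ t : H, IsIntegral ℤ t)
    {V : Type*} [AddCommGroup V] [Module K V] [FiniteDimensional K V]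
    (ρ : H →+* Module.End K V) (hρ : Function.Injective ρ)
    {O : Type*} [CommRing O] [IsDomain O] [CharZero O] (χ : H →+* O) :
    ∃ (v : V) (lam : H →+* K), v ≠ 0 ∧ (∀ t, ρ t v = lam t • v) ∧
      RingHom.ker lam = RingHom.ker χ := by
  have : (RingHom.ker χ).IsPrime := RingHom.ker_isPrime χ
  obtain ⟨v, -, hv0, heig, hann⟩ :=
    Fermat.Agent.Lib.DeligneSerre.exists_eigenvector_aux ρ (RingHom.ker χ) _ ⊤ rfl
      (fun _ _ _ => Submodule.mem_top)
      (fun t ht => by
        have h1 : ρ t = 0 := LinearMap.ext fun w => ht w Submodule.mem_top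
        have h2 : t = 0 := hρ (by rw [h1, map_zero])
        rw [h2]; exact Ideal.zero_mem _)
  choose c hc using heig
  have hsm : ∀ a b : K, a • v = b • v → a = b := fun a b h => smul_left_injective K hv0 h
  let lam : H →+* K :=
    { toFun := c
      map_one' := hsm _ _ (by rw [← hc, map_one, one_smul]; rfl)
      map_mul' := fun s t => hsm _ _ (by
        rw [← hc, map_mul, Module.End.mul_apply, hc t, map_smul, hc s, smul_smul, mul_comm])
      map_zero' := hsm _ _ (by rw [← hc, map_zero, zero_smul]; rfl)
      map_add' := fun s t => hsm _ _ (by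
        rw [← hc, map_add, LinearMap.add_apply, hc, hc, add_smul]) }
  have hlam : ∀ t, lam t = c t := fun _ => rfl
  refine ⟨v, lam, hv0, hc, le_antisymm ?_ ?_⟩
  · intro t ht
    apply hann
    rw [RingHom.mem_ker, hlam] at ht
    rw [hc t, ht, zero_smul]
  · intro t ht
    rw [RingHom.mem_ker] at ht ⊢
    have hle : RingHom.ker lam ≤ RingHom.ker χ := by
      intro s hs
      apply hann
      rw [RingHom.mem_ker, hlam] at hs
      rw [hc s, hs, zero_smul]
    exact egs_ker_le lam χ hle t (hint t) ht

/-- The space of cusp forms of level `Γ₀(N)` is finite-dimensional. -/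
theorem egs_finiteDimensional (N : ℕ) [NeZero N] (k : ℤ) :
    FiniteDimensional ℂ (CuspForm (Gamma0 N) k) := by
  obtain ⟨G, hG⟩ := CuspForm.intLattice_fg N k
  have hspan : Submodule.span ℂ
      ((CuspForm.intLattice N k : Submodule ℤ (CuspForm (Gamma0 N) k)) :
        Set (CuspForm (Gamma0 N) k)) = ⊤ := Fermat.Agent.S23.hasIntegralStructure N k
  refine Module.finite_def.mpr ⟨G, ?_⟩
  rw [← Submodule.span_span_of_tower ℤ ℂ (G : Set (CuspForm (Gamma0 N) k)), hG]
  exact hspan

/-- **EIGSYS.**  A ring hom `χ` from the Hecke algebra to a domain of characteristic zero has the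
same kernel as the eigencharacter of some nonzero Hecke eigenform. -/
theorem egs_main (N : ℕ) [NeZero N] (k : ℤ) (S : Set ℕ) {O : Type*} [CommRing O] [IsDomain O]
    [CharZero O] (χ : CuspForm.heckeAlgebra N k S →+* O) :
    ∃ (f : CuspForm (Gamma0 N) k) (lam : CuspForm.heckeAlgebra N k S →+* ℂ), f ≠ 0 ∧
      (∀ t : CuspForm.heckeAlgebra N k S,
        (t : Module.End ℂ (CuspForm (Gamma0 N) k)) f = lam t • f) ∧
      RingHom.ker lam = RingHom.ker χ := by
  have := egs_finiteDimensional N k
  have : Module.Finite ℤ (CuspForm.heckeAlgebra N k S) :=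
    Fermat.Agent.S23.moduleFinite_heckeAlgebra_of_hasIntegralStructure N k S
      (fun _ => Fermat.Agent.S23.hasIntegralStructure N k)
  exact egs_abstract (fun t => IsIntegral.of_finite ℤ t)
    (CuspForm.heckeAlgebra N k S).val.toRingHom Subtype.val_injective χ

/-- If `ker lam = ker χ` for ring homs to fields `C` and `K`, there is an additive map
`π : C → K`, semilinear along `lam t ↦ χ t`, with `π z₀ = 1`. -/
theorem egs_semilinear {T : Type*} [CommRing T] {C K : Type*} [Field C] [Field K]
    (lam : T →+* C) (χ : T →+* K) (hker : RingHom.ker lam = RingHom.ker χ)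
    (z₀ : C) (hz₀ : z₀ ≠ 0) :
    ∃ π : C →+ K, π z₀ = 1 ∧ ∀ (t : T) (z : C), π (lam t * z) = χ t * π z := by
  have hprime : (RingHom.ker lam).IsPrime := RingHom.ker_isPrime lam
  have hdom : IsDomain (T ⧸ RingHom.ker lam) := Ideal.Quotient.isDomain (RingHom.ker lam)
  -- the two embeddings of the quotient
  let f₁ : T ⧸ RingHom.ker lam →+* C := RingHom.kerLift lam
  have hf₁ : Function.Injective f₁ := RingHom.kerLift_injective lam
  let f₂ : T ⧸ RingHom.ker lam →+* K :=
    Ideal.Quotient.lift (RingHom.ker lam) χ (fun a ha => by rw [hker] at ha; exact ha)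
  have hf₂ : Function.Injective f₂ := by
    rw [injective_iff_map_eq_zero]
    intro a ha
    obtain ⟨a, rfl⟩ := Ideal.Quotient.mk_surjective a
    have ha' : χ a = 0 := ha
    rw [Ideal.Quotient.eq_zero_iff_mem, hker]
    exact ha'
  -- extension to the fraction field
  let g₁ : FractionRing (T ⧸ RingHom.ker lam) →+* C := IsFractionRing.lift hf₁
  let g₂ : FractionRing (T ⧸ RingHom.ker lam) →+* K := IsFractionRing.lift hf₂
  have hg₁ : ∀ t : T, g₁ (algebraMap (T ⧸ RingHom.ker lam) _ (Ideal.Quotient.mk _ t)) = lam t :=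
    fun t => by
      rw [IsFractionRing.lift_algebraMap]
      rfl
  have hg₂ : ∀ t : T, g₂ (algebraMap (T ⧸ RingHom.ker lam) _ (Ideal.Quotient.mk _ t)) = χ t :=
    fun t => by
      rw [IsFractionRing.lift_algebraMap]
      exact Ideal.Quotient.lift_mk _ _ _
  let _ : Algebra (FractionRing (T ⧸ RingHom.ker lam)) C := g₁.toAlgebra
  -- a linear functional with value one at `z₀`
  obtain ⟨φ, hφ⟩ := LinearMap.exists_leftInverse_of_injective
    (LinearMap.toSpanSingleton (FractionRing (T ⧸ RingHom.ker lam)) C z₀)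
    (LinearMap.ker_eq_bot.mpr (fun a b hab => by
      simp only [LinearMap.toSpanSingleton_apply] at hab
      exact smul_left_injective _ hz₀ hab))
  have hφ1 : φ z₀ = 1 := by
    have := LinearMap.congr_fun hφ 1
    simpa using this
  refine ⟨(g₂ : FractionRing (T ⧸ RingHom.ker lam) →+ K).comp φ.toAddMonoidHom, ?_, ?_⟩
  · show g₂ (φ z₀) = 1
    rw [hφ1, map_one]
  · intro t z
    show g₂ (φ (lam t * z)) = χ t * g₂ (φ z)
    have h1 : lam t * z
        = (algebraMap (T ⧸ RingHom.ker lam) (FractionRing (T ⧸ RingHom.ker lam))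
            (Ideal.Quotient.mk _ t)) • z := by
      rw [Algebra.smul_def, ← hg₁ t]
      rfl
    rw [h1, map_smul, smul_eq_mul, map_mul, hg₂]

/-- **Transfer of eigen-relations.**  `lam : T → ℂ` and `χ : T → O` (a domain) with the same
kernel, `per : Γ → ℂ` a nonzero additive map on a finitely generated group.  There is a nonzero
additive map `ψ : Γ → O`, vanishing where `per` vanishes, such that every relation
`∑ per (c i) = lam t * per γ` becomes `∑ ψ (c i) = χ t * ψ γ`. -/
theorem egs_transfer {T : Type*} [CommRing T] {C : Type*} [Field C] {O : Type*} [CommRing O]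
    [IsDomain O] (lam : T →+* C) (χ : T →+* O) (hker : RingHom.ker lam = RingHom.ker χ)
    {Γ : Type*} [Group Γ] [Group.FG Γ] (per : Additive Γ →+ C) (hper : per ≠ 0) :
    ∃ ψ : Additive Γ →+ O, ψ ≠ 0 ∧ (∀ γ, per γ = 0 → ψ γ = 0) ∧
      ∀ (t : T) {ι : Type} (s : Finset ι) (c : ι → Additive Γ) (γ : Additive Γ),
        ∑ i ∈ s, per (c i) = lam t * per γ → ∑ i ∈ s, ψ (c i) = χ t * ψ γ := by
  classical
  have hj : Function.Injective (algebraMap O (FractionRing O)) :=
    IsFractionRing.injective O (FractionRing O)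
  have hker' : RingHom.ker lam = RingHom.ker ((algebraMap O (FractionRing O)).comp χ) := by
    rw [hker]
    ext t
    simp only [RingHom.mem_ker, RingHom.comp_apply]
    exact ⟨fun h => by rw [h, map_zero], fun h => hj (by rw [h, map_zero])⟩
  obtain ⟨γ₀, hγ₀⟩ : ∃ γ₀, per γ₀ ≠ 0 := by
    by_contra h
    push Not at h
    exact hper (AddMonoidHom.ext h)
  obtain ⟨π, hπ1, hπ⟩ := egs_semilinear lam ((algebraMap O (FractionRing O)).comp χ) hker'
    (per γ₀) hγ₀
  obtain ⟨G0, hG0⟩ := (Group.FG.out : (⊤ : Subgroup Γ).FG)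
  obtain ⟨d, hd⟩ := IsLocalization.exist_integer_multiples_of_finset (nonZeroDivisors O)
    (G0.image (fun g => π (per (Additive.ofMul g))))
  have hd0 : algebraMap O (FractionRing O) (d : O) ≠ 0 := by
    intro h
    exact nonZeroDivisors.coe_ne_zero d (hj (by rw [h, map_zero]))
  have hint : ∀ g : Γ, ∃ y : O, algebraMap O (FractionRing O) y
      = algebraMap O (FractionRing O) (d : O) * π (per (Additive.ofMul g)) := by
    intro g
    have hg : g ∈ Subgroup.closure (G0 : Set Γ) := by rw [hG0]; exact Subgroup.mem_top g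
    induction hg using Subgroup.closure_induction with
    | mem x hx =>
      obtain ⟨y, hy⟩ := hd _ (Finset.mem_image_of_mem _ hx)
      exact ⟨y, by rw [hy, Algebra.smul_def]⟩
    | one => exact ⟨0, by simp⟩
    | mul x y _ _ hx hy =>
      obtain ⟨a, ha⟩ := hx
      obtain ⟨b, hb⟩ := hy
      exact ⟨a + b, by rw [map_add, ha, hb, ofMul_mul, map_add, map_add, mul_add]⟩
    | inv x _ hx =>
      obtain ⟨a, ha⟩ := hx
      exact ⟨-a, by rw [map_neg, ha, ofMul_inv, map_neg, map_neg, mul_neg]⟩
  have hint' : ∀ γ : Additive Γ, ∃ y : O, algebraMap O (FractionRing O) y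
      = algebraMap O (FractionRing O) (d : O) * π (per γ) := fun γ => hint (Additive.toMul γ)
  choose y hy using hint'
  let ψ : Additive Γ →+ O :=
    { toFun := y
      map_zero' := hj (by rw [hy, map_zero, map_zero, mul_zero, map_zero])
      map_add' := fun a b => hj (by rw [hy, map_add, map_add, mul_add, map_add, hy, hy]) }
  have hψ : ∀ γ, algebraMap O (FractionRing O) (ψ γ)
      = algebraMap O (FractionRing O) (d : O) * π (per γ) := hy
  refine ⟨ψ, ?_, ?_, ?_⟩
  · intro h
    have h1 := hψ γ₀
    rw [h, AddMonoidHom.zero_apply, map_zero, hπ1, mul_one] at h1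
    exact hd0 h1.symm
  · intro γ hγ
    apply hj
    rw [hψ, hγ, map_zero, mul_zero, map_zero]
  · intro t ι s c γ hrel
    apply hj
    rw [map_sum, map_mul, hψ]
    have h1 : ∑ i ∈ s, algebraMap O (FractionRing O) (ψ (c i))
        = algebraMap O (FractionRing O) (d : O) * π (∑ i ∈ s, per (c i)) := by
      rw [map_sum, Finset.mul_sum]
      exact Finset.sum_congr rfl (fun i _ => hψ (c i))
    rw [h1, hrel, hπ]
    simp only [RingHom.comp_apply]
    ring

open scoped MatrixGroups in
/-- `Γ₀(N)` is a finitely generated group (Schreier). -/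
theorem egs_Gamma0_fg (N : ℕ) [NeZero N] : Group.FG (Gamma0 N) := by
  have h1 : Group.FG SL(2, ℤ) := by
    rw [Group.fg_iff]
    exact ⟨{ModularGroup.S, ModularGroup.T}, SpecialLinearGroup.SL2Z_generators, by simp⟩
  exact inferInstance

/-- **EIGSYS, packaged.**  For `χ` from the Hecke algebra to a domain of characteristic zero:
a nonzero eigenform `f` with eigencharacter `lam`, `ker lam = ker χ`, and the transfer of every
nonzero additive map `per : Γ₀(N) → ℂ` to a nonzero additive map `ψ : Γ₀(N) → O` turning relations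
`∑ per (c i) = lam t * per γ` into `∑ ψ (c i) = χ t * ψ γ`. -/
theorem egs_hecke (N : ℕ) [NeZero N] (k : ℤ) (S : Set ℕ) {O : Type*} [CommRing O] [IsDomain O]
    [CharZero O] (χ : CuspForm.heckeAlgebra N k S →+* O) :
    ∃ (f : CuspForm (Gamma0 N) k) (lam : CuspForm.heckeAlgebra N k S →+* ℂ), f ≠ 0 ∧
      (∀ t : CuspForm.heckeAlgebra N k S,
        (t : Module.End ℂ (CuspForm (Gamma0 N) k)) f = lam t • f) ∧
      RingHom.ker lam = RingHom.ker χ ∧
      ∀ per : Additive (Gamma0 N) →+ ℂ, per ≠ 0 →
        ∃ ψ : Additive (Gamma0 N) →+ O, ψ ≠ 0 ∧ (∀ γ, per γ = 0 → ψ γ = 0) ∧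
          ∀ (t : CuspForm.heckeAlgebra N k S) {ι : Type} (s : Finset ι)
            (c : ι → Additive (Gamma0 N)) (γ : Additive (Gamma0 N)),
            ∑ i ∈ s, per (c i) = lam t * per γ → ∑ i ∈ s, ψ (c i) = χ t * ψ γ := by
  obtain ⟨f, lam, hf, heig, hker⟩ := egs_main N k S χ
  have := egs_Gamma0_fg N
  exact ⟨f, lam, hf, heig, hker, fun per hper => egs_transfer lam χ hker per hper⟩

end Fermat.Agent.S30
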