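import Mathlib
import Fermat.Agent.S30.EigSys
import Fermat.Agent.S29.PeriodGen
import Fermat.Agent.S29.Reduce

/-!
# S30 preparation, leaf EIG-S30 / EIGHOM: the Eichler–Shimura eigen-class with values in `𝒪'`

For every ring hom `χ` from the weight-two Hecke algebra of level `Γ₀(N)` to a domain `O` of
characteristic zero there is a nonzero additive map `v : Γ₀(N) → O`, vanishing on the elements
with `|trace| ≤ 2`, which is an eigenvector of every transfer Hecke operator (`l ∤ N` prime,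
`l ∉ S`) with eigenvalue `χ (T_l)`.

* `egx_s30`: the transfer-sum form (contract S30-C1 (c)): `S : Finset ℕ`, vanishing on
  `S29.redS N`, `∑ᵢ v (γᵢ) = χ (T_l) * v γ` with `γᵢ = heckeTrCoc hl hlN γ i`.
* `egx_s30_heckeTr`: the operator form `heckeTr N l O v = χ (T_l) • v` (`S : Set ℕ`).

The proof combines `egs_hecke` (an eigenform whose eigencharacter has kernel `ker χ`, and the
transfer of eigen-relations), the period map (`per_heckeTr_periodMap`, nonvanishing, vanishing on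
`|trace| ≤ 2`) and the explicit formula `heckeTr_apply`.
-/

set_option autoImplicit false

namespace Fermat.Agent.S30

open CongruenceSubgroup ModularCurve ModularCurve.Period Fermat.Agent.S29 Fermat.Agent.S20
open scoped MatrixGroups

/-- The period map of an eigenvector `f` of the Hecke algebra, `t f = lam t • f`, satisfies the
explicit eigen-relation `∑ᵢ per (γᵢ) = lam (T_l) * per γ`. -/
theorem egx_period_rel (N : ℕ) [NeZero N] (S : Set ℕ) (f : CuspForm (Gamma0 N) 2)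
    (lam : CuspForm.heckeAlgebra N 2 S →+* ℂ)
    (heig : ∀ t : CuspForm.heckeAlgebra N 2 S,
      (t : Module.End ℂ (CuspForm (Gamma0 N) 2)) f = lam t • f)
    {l : ℕ} (hl : l.Prime) (hlN : ¬ l ∣ N) (hlS : l ∉ S) (γ : Gamma0 N) :
    ∑ i : Option (Fin l), periodMap N f (Additive.ofMul (heckeTrCoc hl hlN γ i))
      = lam (CuspForm.heckeAlgebra.T hl hlN hlS) * periodMap N f (Additive.ofMul γ) := by
  rw [← heckeTr_apply hl hlN (periodMap N f) γ, per_heckeTr_periodMap hl hlN f]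
  have h1 : CuspForm.heckeTLin 2 hl hlN f
      = lam (CuspForm.heckeAlgebra.T hl hlN hlS) • f := by
    rw [← heig (CuspForm.heckeAlgebra.T hl hlN hlS), CuspForm.heckeAlgebra.coe_T]
  rw [h1, period_periodMap_smul]
  rfl

/-- **EIG-S30, transfer-sum form, any set `S`.** -/
theorem egx_s30_sum (N : ℕ) [NeZero N] (S : Set ℕ) {O : Type*} [CommRing O] [IsDomain O]
    [CharZero O] (χ : CuspForm.heckeAlgebra N 2 S →+* O) :
    ∃ v : Additive (Gamma0 N) →+ O, v ≠ 0 ∧ (∀ s ∈ redS N, v s = 0) ∧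
      ∀ (l : ℕ) (hl : l.Prime) (hlN : ¬ l ∣ N) (hlS : l ∉ S) (γ : Gamma0 N),
        ∑ i : Option (Fin l), v (Additive.ofMul (heckeTrCoc hl hlN γ i))
          = χ (CuspForm.heckeAlgebra.T hl hlN hlS) * v (Additive.ofMul γ) := by
  obtain ⟨f, lam, hf, heig, -, htr⟩ := egs_hecke N 2 S χ
  obtain ⟨ψ, hψ0, hvan, hrel⟩ := htr (periodMap N f) (per_periodMap_ne_zero_of_ne_zero hf)
  refine ⟨ψ, hψ0, fun s hs => hvan _ (per_trace_le_two f (Additive.toMul s) hs), ?_⟩
  intro l hl hlN hlS γ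
  exact hrel (CuspForm.heckeAlgebra.T hl hlN hlS) Finset.univ
    (fun i => Additive.ofMul (heckeTrCoc hl hlN γ i)) (Additive.ofMul γ)
    (egx_period_rel N S f lam heig hl hlN hlS γ)

/-- **EIG-S30 / EIGHOM** (contract S30-C1 (c)).  A ring hom `χ` from the weight-two Hecke algebra
away from the finite set `S` to a domain `O` of characteristic zero is the system of eigenvalues
of a nonzero additive map `v : Γ₀(N) → O` killing the elements with `|trace| ≤ 2`, in the
transfer-sum form. -/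
theorem egx_s30 (N : ℕ) [NeZero N] (S : Finset ℕ) {O : Type} [CommRing O] [IsDomain O]
    [CharZero O] (χ : CuspForm.heckeAlgebra N 2 (↑S : Set ℕ) →+* O) :
    ∃ v : Additive (Gamma0 N) →+ O, v ≠ 0 ∧ (∀ s ∈ Fermat.Agent.S29.redS N, v s = 0) ∧
      ∀ (ℓ : ℕ) (hℓ : ℓ.Prime) (hℓN : ¬ ℓ ∣ N) (hℓS : ℓ ∉ (↑S : Set ℕ)) (γ : Gamma0 N),
        ∑ i : Option (Fin ℓ), v (Additive.ofMul (Fermat.Agent.S29.heckeTrCoc hℓ hℓN γ i))
          = χ (CuspForm.heckeAlgebra.T hℓ hℓN hℓS) * v (Additive.ofMul γ) :=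
  egx_s30_sum N (↑S : Set ℕ) χ

/-- **EIG-S30, operator form.**  The same eigen-class as an eigenvector of the transfer Hecke
operators `heckeTr N l O`. -/
theorem egx_s30_heckeTr (N : ℕ) [NeZero N] (S : Set ℕ) {O : Type*} [CommRing O] [IsDomain O]
    [CharZero O] (χ : CuspForm.heckeAlgebra N 2 S →+* O) :
    ∃ ψ : Additive (Gamma0 N) →+ O, ψ ≠ 0 ∧
      (∀ γ : Gamma0 N, |((γ : SL(2, ℤ)) : Matrix (Fin 2) (Fin 2) ℤ).trace| ≤ 2 →
        ψ (Additive.ofMul γ) = 0) ∧
      ∀ (l : ℕ) (hl : l.Prime) (hlN : ¬ l ∣ N) (hlS : l ∉ S),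
        heckeTr N l O ψ = χ (CuspForm.heckeAlgebra.T hl hlN hlS) • ψ := by
  obtain ⟨ψ, hψ0, hvan, hrel⟩ := egx_s30_sum N S χ
  refine ⟨ψ, hψ0, fun γ ht => hvan _ ((red_mem_S γ).mpr ht), ?_⟩
  intro l hl hlN hlS
  refine AddMonoidHom.ext fun γ' => ?_
  obtain ⟨γ, rfl⟩ : ∃ γ : Gamma0 N, Additive.ofMul γ = γ' := ⟨Additive.toMul γ', rfl⟩
  rw [heckeTr_apply hl hlN ψ γ, AddMonoidHom.smul_apply, smul_eq_mul]
  exact hrel l hl hlN hlS γ

end Fermat.Agent.S30
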