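import Mathlib

/-!
# S30 front end, abstract part B: the joint eigenspace

General part: `M` a module over a commutative ring `O` with a representation `ρ'` of a group `G`
and a family of endomorphisms `T' i` commuting with `ρ'`.  For scalars `a i : O` the joint
eigenspace `freEig T' a ⊆ M` is a `G`-stable submodule, `freRep` is the representation of `G` on
it, and

* `fre_one`: `ρ' g = 1 → freRep g = 1`;
* `fre_quad`: `ρ' g ^ 2 - T' i * ρ' g + ℓ = 0` gives `freRep g ^ 2 - a i • freRep g + ℓ = 0`;
* `fre_saturated`, `fre_free`, `fre_finite` (`O` a principal ideal domain, `M` finite and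
  torsion free);
* `fre_congr`: `(ρ' g - 1) M ⊆ c M` with `0 ≠ c ∈ J` gives `(freRep g - 1) V ⊆ J V`.

Base change part: `R → O`, `Λ` a finite free `R`-module with a representation `ρ` and
endomorphisms `T i` commuting with it; `fre_main` packages the joint eigenspace of the
`(T i).baseChange O` in `O ⊗[R] Λ` (nonzero as soon as one nonzero joint eigenvector `w₀` is
given) with the three transfer statements, hypotheses on `Λ`, conclusions on the eigenspace.
-/

set_option autoImplicit false

namespace Fermat.Agent.S30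

open TensorProduct

section general

variable {O : Type*} [CommRing O] {M : Type*} [AddCommGroup M] [Module O M]
  {G : Type*} [Group G] (ρ' : G →* Module.End O M) {I : Type*} (T' : I → Module.End O M)
  (a : I → O)

/-- the joint eigenspace of the operators `T' i` with eigenvalues `a i` -/
def freEig : Submodule O M where
  carrier := {x | ∀ i, T' i x = a i • x}
  add_mem' := by
    intro x y hx hy i
    rw [map_add, hx i, hy i, smul_add]
  zero_mem' := by
    intro i
    rw [map_zero, smul_zero]
  smul_mem' := by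
    intro c x hx i
    rw [map_smul, hx i, smul_comm]

theorem fre_mem (x : M) : x ∈ freEig T' a ↔ ∀ i, T' i x = a i • x :=
  Iff.rfl

/-- the eigenspace is stable under the representation -/
theorem fre_stable (hcomm : ∀ i g, T' i * ρ' g = ρ' g * T' i) (g : G) (x : M)
    (hx : x ∈ freEig T' a) : ρ' g x ∈ freEig T' a := by
  intro i
  have h1 : T' i (ρ' g x) = ρ' g (T' i x) := by
    rw [← Module.End.mul_apply, ← Module.End.mul_apply, hcomm]
  rw [h1, hx i, map_smul]

/-- the representation of `G` on the joint eigenspace -/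
def freRep (hcomm : ∀ i g, T' i * ρ' g = ρ' g * T' i) :
    G →* Module.End O (freEig T' a) where
  toFun g := (ρ' g).restrict (fre_stable ρ' T' a hcomm g)
  map_one' := by
    refine LinearMap.ext fun x => Subtype.ext ?_
    rw [LinearMap.coe_restrict_apply, map_one]
    rfl
  map_mul' := by
    intro g h
    refine LinearMap.ext fun x => Subtype.ext ?_
    rw [LinearMap.coe_restrict_apply, map_mul]
    rfl

theorem freRep_coe (hcomm : ∀ i g, T' i * ρ' g = ρ' g * T' i) (g : G) (x : freEig T' a) :
    ((freRep ρ' T' a hcomm g x : freEig T' a) : M) = ρ' g (x : M) :=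
  rfl

/-- a nonzero joint eigenvector makes the eigenspace nontrivial -/
theorem fre_nontrivial (w₀ : M) (hw₀ : w₀ ≠ 0) (hw : ∀ i, T' i w₀ = a i • w₀) :
    Nontrivial (freEig T' a) :=
  ⟨⟨⟨w₀, hw⟩, 0, fun h => hw₀ (congrArg Subtype.val h)⟩⟩

/-- **Inertia.** -/
theorem fre_one (hcomm : ∀ i g, T' i * ρ' g = ρ' g * T' i) (g : G) (hg : ρ' g = 1) :
    freRep ρ' T' a hcomm g = 1 := by
  refine LinearMap.ext fun x => Subtype.ext ?_
  rw [freRep_coe, hg]
  rfl

/-- **Eichler–Shimura.** -/
theorem fre_quad (hcomm : ∀ i g, T' i * ρ' g = ρ' g * T' i) (g : G) (i : I) (e : O)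
    (h : ρ' g * ρ' g - T' i * ρ' g + e • (1 : Module.End O M) = 0) :
    freRep ρ' T' a hcomm g * freRep ρ' T' a hcomm g - a i • freRep ρ' T' a hcomm g
      + e • (1 : Module.End O (freEig T' a)) = 0 := by
  refine LinearMap.ext fun x => Subtype.ext ?_
  have h4 := LinearMap.congr_fun h (x : M)
  simp only [LinearMap.add_apply, LinearMap.sub_apply, Module.End.mul_apply,
    LinearMap.smul_apply, Module.End.one_apply, LinearMap.zero_apply] at h4
  have h5 := (freRep ρ' T' a hcomm g x).2 i
  rw [freRep_coe] at h5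
  rw [h5] at h4
  simp only [LinearMap.add_apply, LinearMap.sub_apply, Module.End.mul_apply,
    LinearMap.smul_apply, Module.End.one_apply, LinearMap.zero_apply, Submodule.coe_add,
    Submodule.coe_sub, Submodule.coe_smul, freRep_coe, Submodule.coe_zero]
  exact h4

/-- the eigenspace is saturated -/
theorem fre_saturated [IsDomain O] [Module.IsTorsionFree O M] (c : O) (hc : c ≠ 0) (y : M)
    (hy : c • y ∈ freEig T' a) : y ∈ freEig T' a := by
  intro i
  have h1 := hy i
  rw [map_smul, smul_comm] at h1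
  exact Module.IsTorsionFree.isSMulRegular (M := M) (IsRegular.of_ne_zero hc) h1

theorem fre_finite [IsDomain O] [IsPrincipalIdealRing O] [Module.Finite O M] :
    Module.Finite O (freEig T' a) := inferInstance

theorem fre_free [IsDomain O] [IsPrincipalIdealRing O] [Module.Finite O M]
    [Module.IsTorsionFree O M] : Module.Free O (freEig T' a) :=
  Module.free_of_finite_type_torsion_free' (R := O) (M := freEig T' a)

/-- **Continuity.** If `(ρ' g - 1) M ⊆ c M` for a nonzero element `c` of the ideal `J`, then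
`(freRep g - 1) V ⊆ J V`. -/
theorem fre_congr [IsDomain O] [Module.IsTorsionFree O M]
    (hcomm : ∀ i g, T' i * ρ' g = ρ' g * T' i) (g : G) (J : Ideal O) (c : O)
    (hc : c ∈ J) (hc0 : c ≠ 0) (h : ∀ z : M, ∃ z' : M, ρ' g z - z = c • z')
    (x : freEig T' a) :
    freRep ρ' T' a hcomm g x - x ∈ J • (⊤ : Submodule O (freEig T' a)) := by
  obtain ⟨z', hz'⟩ := h (x : M)
  have h2 : c • z' ∈ freEig T' a := by
    rw [← hz']
    exact Submodule.sub_mem _ (freRep ρ' T' a hcomm g x).2 x.2
  have h3 : z' ∈ freEig T' a := fre_saturated T' a c hc0 z' h2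
  have h4 : freRep ρ' T' a hcomm g x - x = c • (⟨z', h3⟩ : freEig T' a) :=
    Subtype.ext hz'
  rw [h4]
  exact Submodule.smul_mem_smul hc Submodule.mem_top

end general

section baseChange

variable {R O : Type*} [CommRing R] [CommRing O] [Algebra R O]
  {Λ : Type*} [AddCommGroup Λ] [Module R Λ]
  {G : Type*} [Group G] (ρ : G →* Module.End R Λ)

/-- the base change of a representation -/
noncomputable def freBC : G →* Module.End O (O ⊗[R] Λ) where
  toFun g := (ρ g).baseChange O
  map_one' := by rw [map_one, LinearMap.baseChange_one]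
  map_mul' := fun g h => by rw [map_mul, LinearMap.baseChange_mul]

theorem freBC_apply (g : G) : freBC (O := O) ρ g = (ρ g).baseChange O := rfl

theorem fre_bc_comm (T : Module.End R Λ) (g : G) (h : T * ρ g = ρ g * T) :
    T.baseChange O * freBC (O := O) ρ g = freBC (O := O) ρ g * T.baseChange O := by
  rw [freBC_apply, ← LinearMap.baseChange_mul, ← LinearMap.baseChange_mul, h]

theorem fre_bc_one (g : G) (h : ρ g = 1) : freBC (O := O) ρ g = 1 := by
  rw [freBC_apply, h, LinearMap.baseChange_one]

theorem fre_bc_congr (g : G) (r : R) (h : ∀ x : Λ, ∃ y : Λ, ρ g x - x = r • y)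
    (z : O ⊗[R] Λ) : ∃ z' : O ⊗[R] Λ, freBC (O := O) ρ g z - z = algebraMap R O r • z' := by
  rw [freBC_apply]
  induction z using TensorProduct.induction_on with
  | zero => exact ⟨0, by rw [map_zero, sub_zero, smul_zero]⟩
  | tmul o x =>
    obtain ⟨y, hy⟩ := h x
    refine ⟨o ⊗ₜ[R] y, ?_⟩
    rw [LinearMap.baseChange_tmul, ← TensorProduct.tmul_sub, hy, TensorProduct.tmul_smul,
      algebraMap_smul]
  | add z₁ z₂ h₁ h₂ =>
    obtain ⟨z₁', e₁⟩ := h₁
    obtain ⟨z₂', e₂⟩ := h₂
    refine ⟨z₁' + z₂', ?_⟩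
    rw [map_add, add_sub_add_comm, e₁, e₂, smul_add]

theorem fre_bc_quad (T : Module.End R Λ) (g : G) (ℓ : ℕ)
    (h : ∀ x : Λ, ρ g (ρ g x) - T (ρ g x) + ℓ • x = 0) :
    freBC (O := O) ρ g * freBC (O := O) ρ g - T.baseChange O * freBC (O := O) ρ g
      + (ℓ : O) • (1 : Module.End O (O ⊗[R] Λ)) = 0 := by
  have h1 : ρ g * ρ g - T * ρ g + (ℓ : R) • (1 : Module.End R Λ) = 0 := by
    refine LinearMap.ext fun x => ?_
    simp only [LinearMap.add_apply, LinearMap.sub_apply, Module.End.mul_apply,
      LinearMap.smul_apply, Module.End.one_apply, LinearMap.zero_apply]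
    rw [Nat.cast_smul_eq_nsmul]
    exact h x
  have h3 := congrArg (fun f : Module.End R Λ => f.baseChange O) h1
  simp only [LinearMap.baseChange_add, LinearMap.baseChange_sub, LinearMap.baseChange_mul,
    LinearMap.baseChange_smul, LinearMap.baseChange_one, LinearMap.baseChange_zero] at h3
  rw [freBC_apply, ← h3]
  congr 1
  refine LinearMap.ext fun y => ?_
  rw [LinearMap.smul_apply, LinearMap.smul_apply, Module.End.one_apply,
    ← algebraMap_smul O (ℓ : R) y, map_natCast]

end baseChange

/-- **The joint eigenspace in a base change, packaged.** -/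
theorem fre_main.{u, v, w, x, y} {R : Type w} {O : Type u} [CommRing R] [CommRing O] [IsDomain O]
    [IsPrincipalIdealRing O]
    [Algebra R O] {Λ : Type v} [AddCommGroup Λ] [Module R Λ] [Module.Free R Λ]
    [Module.Finite R Λ] {G : Type x} [Group G] (ρ : G →* Module.End R Λ) {I : Type y}
    (T : I → Module.End R Λ) (a : I → O) (hcomm : ∀ i g, T i * ρ g = ρ g * T i)
    (w₀ : O ⊗[R] Λ) (hw₀ : w₀ ≠ 0) (hw : ∀ i, (T i).baseChange O w₀ = a i • w₀) :
    ∃ (V : Type (max u v)) (_ : AddCommGroup V) (_ : Module O V) (_ : Module.Free O V)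
      (_ : Module.Finite O V) (_ : Nontrivial V) (ρV : G →* Module.End O V),
      (∀ g, ρ g = 1 → ρV g = 1) ∧
      (∀ g (J : Ideal O) (r : R), algebraMap R O r ∈ J → algebraMap R O r ≠ 0 →
        (∀ x : Λ, ∃ y : Λ, ρ g x - x = r • y) →
          ∀ x : V, ρV g x - x ∈ J • (⊤ : Submodule O V)) ∧
      (∀ g i (ℓ : ℕ), (∀ x : Λ, ρ g (ρ g x) - T i (ρ g x) + ℓ • x = 0) →
        ρV g * ρV g - a i • ρV g + (ℓ : O) • (1 : Module.End O V) = 0) := by
  have hc : ∀ i g, (fun i => (T i).baseChange O) i * freBC (O := O) ρ g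
      = freBC (O := O) ρ g * (fun i => (T i).baseChange O) i :=
    fun i g => fre_bc_comm ρ (T i) g (hcomm i g)
  refine ⟨↥(freEig (fun i => (T i).baseChange O) a), inferInstance, inferInstance,
    fre_free _ a, fre_finite _ a, fre_nontrivial _ a w₀ hw₀ hw,
    freRep (freBC (O := O) ρ) _ a hc, ?_, ?_, ?_⟩
  · intro g hg
    exact fre_one _ _ a hc g (fre_bc_one ρ g hg)
  · intro g J r hr hr0 h x
    exact fre_congr _ _ a hc g J _ hr hr0 (fre_bc_congr ρ g r h) x
  · intro g i ℓ h
    exact fre_quad _ _ a hc g i _ (fre_bc_quad ρ (T i) g ℓ h)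

end Fermat.Agent.S30
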