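import Mathlib

/-!
# S30 preparation, leaf REDUCE-ADIC

Pure algebra over `ℤ_[p]`.  Let `X` be a finitely generated additive group, `Λ` a
`ℤ_[p]`-submodule of `Hom(X, ℤ_[p])` containing every homomorphism which kills a set `S ⊆ X`,
and `𝒪` a domain which is a torsion-free `ℤ_[p]`-algebra.  A nonzero homomorphism `v : X → 𝒪`
killing `S` which is an eigenvector for operators of transfer shape
`(T ψ) x = ∑ k, ψ (s k x)` gives a nonzero eigenvector, with the same eigenvalues, in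
`𝒪 ⊗[ℤ_[p]] Λ`.
-/

set_option autoImplicit false

open TensorProduct

namespace Fermat.Agent.S30

section

variable {p : ℕ} [Fact p.Prime] {X : Type*} [AddGroup X]
  {𝒪 : Type*} [CommRing 𝒪] [Algebra ℤ_[p] 𝒪]

/-- the `ℤ_[p]`-linear map `Λ → (X → 𝒪)`, `ψ ↦ (x ↦ ψ x)` -/
noncomputable def rdaFun (𝒪 : Type*) [CommRing 𝒪] [Algebra ℤ_[p] 𝒪]
    (Λ : Submodule ℤ_[p] (X →+ ℤ_[p])) : Λ →ₗ[ℤ_[p]] (X → 𝒪) where
  toFun ψ x := algebraMap ℤ_[p] 𝒪 ((ψ : X →+ ℤ_[p]) x)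
  map_add' ψ φ := by
    funext x
    simp
  map_smul' r ψ := by
    funext x
    simp [Algebra.smul_def]

theorem rdaFun_apply (Λ : Submodule ℤ_[p] (X →+ ℤ_[p])) (ψ : Λ) (x : X) :
    rdaFun 𝒪 Λ ψ x = algebraMap ℤ_[p] 𝒪 ((ψ : X →+ ℤ_[p]) x) := rfl

/-- the `𝒪`-linear map `𝒪 ⊗ Λ → (X → 𝒪)`, `c ⊗ ψ ↦ (x ↦ c * ψ x)` -/
noncomputable def rdaXi (𝒪 : Type*) [CommRing 𝒪] [Algebra ℤ_[p] 𝒪]
    (Λ : Submodule ℤ_[p] (X →+ ℤ_[p])) : 𝒪 ⊗[ℤ_[p]] Λ →ₗ[𝒪] (X → 𝒪) :=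
  (rdaFun 𝒪 Λ).liftBaseChange 𝒪

theorem rdaXi_tmul (Λ : Submodule ℤ_[p] (X →+ ℤ_[p])) (c : 𝒪) (ψ : Λ) (x : X) :
    rdaXi 𝒪 Λ (c ⊗ₜ[ℤ_[p]] ψ) x = c * algebraMap ℤ_[p] 𝒪 ((ψ : X →+ ℤ_[p]) x) := by
  rw [rdaXi, LinearMap.liftBaseChange_tmul, Pi.smul_apply, rdaFun_apply, smul_eq_mul]

/-- evaluation at the points of a finite set, as a linear map on `Λ` -/
noncomputable def rdaEval (Λ : Submodule ℤ_[p] (X →+ ℤ_[p])) (t : Finset X) :
    Λ →ₗ[ℤ_[p]] (t → ℤ_[p]) where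
  toFun ψ x := (ψ : X →+ ℤ_[p]) x
  map_add' ψ φ := by
    funext x
    simp
  map_smul' r ψ := by
    funext x
    simp

theorem rdaEval_injective (Λ : Submodule ℤ_[p] (X →+ ℤ_[p])) (t : Finset X)
    (ht : AddSubgroup.closure (t : Set X) = ⊤) : Function.Injective (rdaEval Λ t) := by
  rw [injective_iff_map_eq_zero]
  intro ψ hψ
  apply Subtype.ext
  refine AddMonoidHom.ext fun x => ?_
  have hx : x ∈ AddSubgroup.closure (t : Set X) := by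
    rw [ht]
    exact AddSubgroup.mem_top x
  rw [Submodule.coe_zero, AddMonoidHom.zero_apply]
  induction hx using AddSubgroup.closure_induction with
  | mem y hy => exact congrFun hψ ⟨y, hy⟩
  | zero => exact map_zero _
  | add y z _ _ hy hz => rw [map_add, hy, hz, add_zero]
  | neg y _ hy => rw [map_neg, hy, neg_zero]

theorem rdaXi_injective [IsDomain 𝒪] [AddGroup.FG X]
    (hinj : Function.Injective (algebraMap ℤ_[p] 𝒪))
    (Λ : Submodule ℤ_[p] (X →+ ℤ_[p])) : Function.Injective (rdaXi 𝒪 Λ) := by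
  classical
  have : FaithfulSMul ℤ_[p] 𝒪 := (faithfulSMul_iff_algebraMap_injective _ _).2 hinj
  have hflat : Module.Flat ℤ_[p] 𝒪 := inferInstance
  obtain ⟨t0, ht0, ht0fin⟩ := AddGroup.fg_iff.mp (inferInstance : AddGroup.FG X)
  obtain ⟨t, rfl⟩ : ∃ t : Finset X, (t : Set X) = t0 := ⟨ht0fin.toFinset, by simp⟩
  have h1 := Module.Flat.lTensor_preserves_injective_linearMap (M := 𝒪) (rdaEval Λ t)
    (rdaEval_injective Λ t ht0)
  let e := TensorProduct.piScalarRight ℤ_[p] 𝒪 𝒪 t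
  have key : ∀ w : 𝒪 ⊗[ℤ_[p]] Λ, ∀ x : t,
      e ((rdaEval Λ t).lTensor 𝒪 w) x = rdaXi 𝒪 Λ w (x : X) := by
    intro w x
    induction w using TensorProduct.induction_on with
    | zero => simp
    | tmul c ψ =>
      rw [LinearMap.lTensor_tmul, rdaXi_tmul]
      simp only [e, TensorProduct.piScalarRight_apply, TensorProduct.piScalarRightHom_tmul]
      rw [Algebra.smul_def, mul_comm]
      rfl
    | add w₁ w₂ h₁ h₂ =>
      rw [map_add, map_add, Pi.add_apply, h₁, h₂, map_add, Pi.add_apply]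
  rw [injective_iff_map_eq_zero]
  intro w hw
  apply h1
  rw [map_zero]
  apply e.injective
  rw [map_zero]
  funext x
  rw [key, hw]
  rfl

end

/-- **REDUCE-ADIC.** -/
theorem rda_main (p : ℕ) [Fact p.Prime] {X : Type*} [AddGroup X] [AddGroup.FG X] (S : Set X)
    (Λ : Submodule ℤ_[p] (X →+ ℤ_[p]))
    (hΛ : ∀ ψ : X →+ ℤ_[p], (∀ s ∈ S, ψ s = 0) → ψ ∈ Λ)
    {𝒪 : Type*} [CommRing 𝒪] [IsDomain 𝒪] [Algebra ℤ_[p] 𝒪]
    (hinj : Function.Injective (algebraMap ℤ_[p] 𝒪))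
    {ι : Type*} {K : ι → Type*} [∀ i, Fintype (K i)] (s : ∀ i, K i → X → X)
    (T : ι → Module.End ℤ_[p] Λ)
    (hT : ∀ i (ψ : Λ) (x : X), ((T i ψ : Λ) : X →+ ℤ_[p]) x = ∑ k, (ψ : X →+ ℤ_[p]) (s i k x))
    (a : ι → 𝒪) (v : X →+ 𝒪) (hv : v ≠ 0) (hvS : ∀ x ∈ S, v x = 0)
    (hTv : ∀ i x, ∑ k, v (s i k x) = a i * v x) :
    ∃ w : 𝒪 ⊗[ℤ_[p]] Λ, w ≠ 0 ∧ ∀ i, (T i).baseChange 𝒪 w = a i • w := by
  classical
  have : FaithfulSMul ℤ_[p] 𝒪 := (faithfulSMul_iff_algebraMap_injective _ _).2 hinj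
  obtain ⟨t0, ht0, ht0fin⟩ := AddGroup.fg_iff.mp (inferInstance : AddGroup.FG X)
  -- the `ℤ_[p]`-span of the values of `v`
  let U : Submodule ℤ_[p] 𝒪 := Submodule.span ℤ_[p] (v '' t0)
  have hvU : ∀ x, v x ∈ U := by
    intro x
    have hx : x ∈ AddSubgroup.closure t0 := by
      rw [ht0]
      exact AddSubgroup.mem_top x
    induction hx using AddSubgroup.closure_induction with
    | mem y hy => exact Submodule.subset_span ⟨y, hy, rfl⟩
    | zero => rw [map_zero]; exact U.zero_mem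
    | add y z _ _ hy hz => rw [map_add]; exact U.add_mem hy hz
    | neg y _ hy => rw [map_neg]; exact U.neg_mem hy
  have : Module.Finite ℤ_[p] U := Module.Finite.span_of_finite _ (ht0fin.image _)
  have : Module.Free ℤ_[p] U := Module.free_of_finite_type_torsion_free'
  let b := Module.finBasis ℤ_[p] U
  let vU : X →+ U := v.codRestrict U.toAddSubgroup hvU
  let ψ : Fin (Module.finrank ℤ_[p] U) → (X →+ ℤ_[p]) := fun j =>
    (b.coord j).toAddMonoidHom.comp vU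
  have hψ : ∀ j x, ψ j x = b.repr (vU x) j := fun j x => rfl
  have key : ∀ x, v x = ∑ j, (b j : 𝒪) * algebraMap ℤ_[p] 𝒪 (ψ j x) := by
    intro x
    have h1 := congrArg (Subtype.val) (b.sum_repr (vU x))
    rw [Submodule.coe_sum] at h1
    have h2 : ((vU x : U) : 𝒪) = v x := rfl
    rw [h2] at h1
    rw [← h1]
    refine Finset.sum_congr rfl fun j _ => ?_
    rw [Submodule.coe_smul, Algebra.smul_def, hψ, mul_comm]
  have hψS : ∀ j, ∀ x ∈ S, ψ j x = 0 := by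
    intro j x hx
    have h0 : vU x = 0 := Subtype.ext (hvS x hx)
    rw [hψ, h0, map_zero, Finsupp.zero_apply]
  let ψΛ : Fin (Module.finrank ℤ_[p] U) → Λ := fun j => ⟨ψ j, hΛ (ψ j) (hψS j)⟩
  let w : 𝒪 ⊗[ℤ_[p]] Λ := ∑ j, (b j : 𝒪) ⊗ₜ[ℤ_[p]] ψΛ j
  have hXi : ∀ x, rdaXi 𝒪 Λ w x = v x := by
    intro x
    show rdaXi 𝒪 Λ (∑ j, (b j : 𝒪) ⊗ₜ[ℤ_[p]] ψΛ j) x = v x
    rw [map_sum, Finset.sum_apply, key]
    refine Finset.sum_congr rfl fun j _ => ?_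
    rw [rdaXi_tmul]
  refine ⟨w, ?_, fun i => ?_⟩
  · intro hw
    apply hv
    refine AddMonoidHom.ext fun x => ?_
    rw [← hXi x, hw, map_zero]
    rfl
  · apply rdaXi_injective hinj Λ
    funext x
    rw [map_smul, Pi.smul_apply, hXi, smul_eq_mul, ← hTv i x]
    show rdaXi 𝒪 Λ ((T i).baseChange 𝒪 (∑ j, (b j : 𝒪) ⊗ₜ[ℤ_[p]] ψΛ j)) x = _
    rw [map_sum, map_sum, Finset.sum_apply]
    have h3 : ∀ k, v (s i k x) = ∑ j, (b j : 𝒪) * algebraMap ℤ_[p] 𝒪 (ψ j (s i k x)) :=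
      fun k => key _
    rw [Finset.sum_congr rfl fun k _ => h3 k, Finset.sum_comm]
    refine Finset.sum_congr rfl fun j _ => ?_
    rw [LinearMap.baseChange_tmul, rdaXi_tmul, hT, map_sum, Finset.mul_sum]

end Fermat.Agent.S30
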