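/-
S30 project, package TATE (helper16): the abstract Tate module.

`X` an additive group (not necessarily commutative), `S ⊆ X`, `J` an abelian group with an action
of a group `G`, `Jn n = J[p^n]`, and comparison maps `Φ n : J[p^n] →+ Hom(X, ℤ/p^n)` which are
injective, with range the homs killing `S`, compatible with the transition maps
(`Φ n (p • c) = Φ (n+1) c mod p^n`).  Then the `ℤ_p`-module `Λ = Hom_S(X, ℤ_p)` carries a
`ℤ_p`-linear action `ρ` of `G` characterised by `ρ g ψ mod p^n = Φ n (g • (Φ n)⁻¹ (ψ mod p^n))`.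
-/
import Mathlib

set_option autoImplicit false
set_option linter.unusedSectionVars false

namespace Fermat.Agent.S30

open PadicInt

section Limit

variable (p : ℕ) [hp : Fact p.Prime]

/-- the ring of compatible sequences in `∏ ℤ/p^k` -/
def tateSeq : Subring (∀ k : ℕ, ZMod (p ^ k)) where
  carrier := {a | ∀ k, ZMod.castHom (pow_dvd_pow p k.le_succ) (ZMod (p ^ k)) (a (k + 1)) = a k}
  mul_mem' := by
    intro a b ha hb k
    simp only [Pi.mul_apply, map_mul]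
    rw [ha k, hb k]
  one_mem' := by
    intro k
    exact map_one _
  add_mem' := by
    intro a b ha hb k
    simp only [Pi.add_apply, map_add]
    rw [ha k, hb k]
  zero_mem' := by
    intro k
    exact map_zero _
  neg_mem' := by
    intro a ha k
    simp only [Pi.neg_apply, map_neg]
    rw [ha k]

/-- the projections of the ring of compatible sequences -/
def tateProj (k : ℕ) : tateSeq p →+* ZMod (p ^ k) :=
  (Pi.evalRingHom (fun k : ℕ => ZMod (p ^ k)) k).comp (tateSeq p).subtype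

theorem tateProj_compat (k1 k2 : ℕ) (hk : k1 ≤ k2) :
    (ZMod.castHom (pow_dvd_pow p hk) (ZMod (p ^ k1))).comp (tateProj p k2) = tateProj p k1 := by
  induction k2, hk using Nat.le_induction with
  | base =>
    ext a
    simp
  | succ k2 hk ih =>
    rw [← ih]
    ext a
    have h1 := a.2 k2
    simp only [RingHom.coe_comp, Function.comp_apply, tateProj, Subring.coe_subtype,
      Pi.evalRingHom_apply]
    rw [← h1]
    rw [← RingHom.comp_apply]
    congr 1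
    exact Subsingleton.elim _ _

/-- the limit of a compatible sequence -/
noncomputable def tateLim : tateSeq p →+* ℤ_[p] :=
  PadicInt.lift (tateProj_compat p)

theorem tateLim_spec (n : ℕ) (a : tateSeq p) : toZModPow n (tateLim p a) = a.1 n := by
  have := PadicInt.lift_spec (tateProj_compat p) n
  exact DFunLike.congr_fun this a

end Limit

section Lam

variable (p : ℕ) [hp : Fact p.Prime] {X : Type*} [AddGroup X]

/-- a compatible family of homs to the `ℤ/p^n` is the family of reductions of a hom to `ℤ_p` -/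
theorem tate_exists_lim (θ : ∀ n, X →+ ZMod (p ^ n))
    (hθ : ∀ n x, ZMod.castHom (pow_dvd_pow p n.le_succ) (ZMod (p ^ n)) (θ (n + 1) x) = θ n x) :
    ∃ ψ : X →+ ℤ_[p], ∀ n x, toZModPow n (ψ x) = θ n x := by
  let a : X → tateSeq p := fun x => ⟨fun n => θ n x, fun n => hθ n x⟩
  have ha0 : a 0 = 0 := by
    apply Subtype.ext
    funext n
    exact map_zero (θ n)
  have haadd : ∀ x y, a (x + y) = a x + a y := by
    intro x y
    apply Subtype.ext
    funext n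
    exact map_add (θ n) x y
  refine ⟨⟨⟨fun x => tateLim p (a x), ?_⟩, ?_⟩, fun n x => tateLim_spec p n (a x)⟩
  · show tateLim p (a 0) = 0
    rw [ha0, map_zero]
  · intro x y
    show tateLim p (a (x + y)) = tateLim p (a x) + tateLim p (a y)
    rw [haadd, map_add]

/-- homs to `ℤ_p` are determined by their reductions -/
theorem tate_ext {ψ ψ' : X →+ ℤ_[p]} (h : ∀ n x, toZModPow n (ψ x) = toZModPow n (ψ' x)) :
    ψ = ψ' := by
  ext x
  exact ext_of_toZModPow.mp (fun n => h n x)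

/-- the module `Λ = Hom_S(X, ℤ_p)` of homs killing `S` -/
def tateLam (S : Set X) : Submodule ℤ_[p] (X →+ ℤ_[p]) where
  carrier := {ψ | ∀ s ∈ S, ψ s = 0}
  add_mem' := by
    intro a b ha hb s hs
    rw [AddMonoidHom.add_apply, ha s hs, hb s hs, add_zero]
  zero_mem' := by
    intro s _
    rfl
  smul_mem' := by
    intro c a ha s hs
    rw [AddMonoidHom.smul_apply, ha s hs, smul_zero]

theorem mem_tateLam (S : Set X) (ψ : X →+ ℤ_[p]) : ψ ∈ tateLam p S ↔ ∀ s ∈ S, ψ s = 0 :=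
  Iff.rfl

/-- an element of `Λ` whose reduction modulo `p^n` vanishes is divisible by `p^n` in `Λ` -/
theorem tate_dvd_of_red_eq_zero (S : Set X) (n : ℕ) (ψ : tateLam p S)
    (h : ∀ x, toZModPow n (ψ.1 x) = 0) :
    ∃ ψ' : tateLam p S, ψ = ((p : ℤ_[p]) ^ n) • ψ' := by
  have hp0 : ((p : ℤ_[p]) ^ n) ≠ 0 := pow_ne_zero _ (by exact_mod_cast hp.out.ne_zero)
  have hdiv : ∀ x, ∃ b : ℤ_[p], ψ.1 x = (p : ℤ_[p]) ^ n * b := by
    intro x
    have h1 : ψ.1 x ∈ RingHom.ker (toZModPow (p := p) n) := h x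
    rw [ker_toZModPow, Ideal.mem_span_singleton] at h1
    exact h1
  choose b hb using hdiv
  have hb0 : b 0 = 0 := by
    have := hb 0
    rw [map_zero] at this
    exact (mul_eq_zero.mp this.symm).resolve_left hp0
  have hbadd : ∀ x y, b (x + y) = b x + b y := by
    intro x y
    have h1 := hb (x + y)
    rw [map_add, hb x, hb y, ← mul_add] at h1
    exact (mul_left_cancel₀ hp0 h1).symm
  refine ⟨⟨⟨⟨b, hb0⟩, hbadd⟩, ?_⟩, ?_⟩
  · intro s hs
    have h1 := hb s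
    rw [ψ.2 s hs] at h1
    exact (mul_eq_zero.mp h1.symm).resolve_left hp0
  · apply Subtype.ext
    ext x
    show ψ.1 x = (p : ℤ_[p]) ^ n • b x
    rw [smul_eq_mul]
    exact hb x

end Lam

section Main

variable {p : ℕ} [hp : Fact p.Prime] {X : Type*} [AddGroup X] (S : Set X)
  {J : Type*} [AddCommGroup J] {G : Type*} [Group G] [DistribMulAction G J]
  (Jn : ℕ → AddSubgroup J)
  (Φ : ∀ n, Jn n →+ (X →+ ZMod (p ^ n)))

/-- the specification of the action on the Tate module: `ρ g ψ` reduces modulo `p^n` to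
`Φ n (g • c)` whenever `ψ` reduces to `Φ n c`. -/
def TateSpec (ρ : G → tateLam p S → tateLam p S) : Prop :=
  ∀ (g : G) (ψ : tateLam p S) (n : ℕ) (c c' : Jn n),
    (∀ x, Φ n c x = toZModPow n (ψ.1 x)) → (c' : J) = g • (c : J) →
    ∀ x, Φ n c' x = toZModPow n ((ρ g ψ).1 x)

variable (hJn : ∀ n (c : J), c ∈ Jn n ↔ (p ^ n) • c = 0)
  (hinj : ∀ n, Function.Injective (Φ n))
  (hrange : ∀ n (θ : X →+ ZMod (p ^ n)), θ ∈ Set.range (Φ n) ↔ ∀ s ∈ S, θ s = 0)
  (hcompat : ∀ n (c : Jn (n + 1)) (c' : Jn n), (c' : J) = p • (c : J) →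
    ∀ x, Φ n c' x = ZMod.castHom (pow_dvd_pow p n.le_succ) (ZMod (p ^ n)) (Φ (n + 1) c x))

include hrange in
/-- every element of `Λ` has a level-`n` representative -/
theorem tate_exists_level (ψ : tateLam p S) (n : ℕ) :
    ∃ c : Jn n, ∀ x, Φ n c x = toZModPow n (ψ.1 x) := by
  have h1 : (toZModPow (p := p) n).toAddMonoidHom.comp ψ.1 ∈ Set.range (Φ n) := by
    rw [hrange]
    intro s hs
    show toZModPow n (ψ.1 s) = 0
    rw [ψ.2 s hs, map_zero]
  obtain ⟨c, hc⟩ := h1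
  exact ⟨c, fun x => DFunLike.congr_fun hc x⟩

include hinj in
theorem tate_level_unique (ψ : tateLam p S) (n : ℕ) (c₁ c₂ : Jn n)
    (h₁ : ∀ x, Φ n c₁ x = toZModPow n (ψ.1 x)) (h₂ : ∀ x, Φ n c₂ x = toZModPow n (ψ.1 x)) :
    c₁ = c₂ := by
  apply hinj n
  ext x
  rw [h₁, h₂]

include hJn in
theorem tate_smul_mem (g : G) (n : ℕ) (c : J) (hc : c ∈ Jn n) : g • c ∈ Jn n := by
  rw [hJn] at hc ⊢
  rw [← smul_comm g (p ^ n) c, hc, smul_zero]

include hJn hinj hcompat in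
theorem tate_level_step (ψ : tateLam p S) (n : ℕ) (c : Jn (n + 1)) (c' : Jn n)
    (h : ∀ x, Φ (n + 1) c x = toZModPow (n + 1) (ψ.1 x))
    (h' : ∀ x, Φ n c' x = toZModPow n (ψ.1 x)) : (c' : J) = p • (c : J) := by
  have hmem : p • (c : J) ∈ Jn n := by
    rw [hJn, smul_smul, ← pow_succ]
    exact (hJn (n + 1) c).mp c.2
  have h1 : ∀ x, Φ n ⟨p • (c : J), hmem⟩ x = toZModPow n (ψ.1 x) := by
    intro x
    rw [hcompat n c ⟨p • (c : J), hmem⟩ rfl x, h x]
    exact cast_toZModPow n (n + 1) n.le_succ (ψ.1 x)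
  have h2 := tate_level_unique S Jn Φ hinj ψ n c' ⟨p • (c : J), hmem⟩ h' h1
  rw [h2]

include hJn hinj hrange hcompat in
theorem tate_exists_act (g : G) (ψ : tateLam p S) :
    ∃ ψ' : tateLam p S, ∀ (n : ℕ) (c c' : Jn n),
      (∀ x, Φ n c x = toZModPow n (ψ.1 x)) → (c' : J) = g • (c : J) →
      ∀ x, Φ n c' x = toZModPow n (ψ'.1 x) := by
  choose c hc using tate_exists_level S Jn Φ hrange ψ
  let c' : ∀ n, Jn n := fun n => ⟨g • (c n : J), tate_smul_mem Jn hJn g n _ (c n).2⟩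
  have hstep : ∀ n, (c' n : J) = p • (c' (n + 1) : J) := by
    intro n
    show g • (c n : J) = p • (g • (c (n + 1) : J))
    rw [tate_level_step S Jn Φ hJn hinj hcompat ψ n (c (n + 1)) (c n) (hc (n + 1)) (hc n)]
    exact smul_comm g p (c (n + 1) : J)
  obtain ⟨ψ', hψ'⟩ := tate_exists_lim p (fun n => Φ n (c' n))
    (fun n x => (hcompat n (c' (n + 1)) (c' n) (hstep n) x).symm)
  have hmem : ψ' ∈ tateLam p S := by
    intro s hs
    apply ext_of_toZModPow.mp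
    intro n
    rw [hψ' n s, map_zero]
    exact (hrange n (Φ n (c' n))).mp ⟨c' n, rfl⟩ s hs
  refine ⟨⟨ψ', hmem⟩, fun n c₀ c₀' h₀ h₀' x => ?_⟩
  have h1 : c₀ = c n := tate_level_unique S Jn Φ hinj ψ n c₀ (c n) h₀ (hc n)
  have h2 : c₀' = c' n := by
    apply Subtype.ext
    rw [h₀', h1]
  rw [h2]
  exact (hψ' n x).symm

include hJn hinj hrange hcompat in
/-- **The action on the Tate module.** -/
theorem tate_main :
    ∃ ρ : G →* Module.End ℤ_[p] (tateLam p S), TateSpec S Jn Φ (fun g ψ => ρ g ψ) := by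
  choose ρ₀ hρ₀ using tate_exists_act S Jn Φ hJn hinj hrange hcompat (G := G)
  have hne : ∀ n : ℕ, NeZero (p ^ n) := fun n => ⟨pow_ne_zero n hp.out.ne_zero⟩
  -- equality of elements of `Λ` can be tested levelwise
  have hext : ∀ ψ₁ ψ₂ : tateLam p S,
      (∀ n x, toZModPow n (ψ₁.1 x) = toZModPow n (ψ₂.1 x)) → ψ₁ = ψ₂ :=
    fun ψ₁ ψ₂ h => Subtype.ext (tate_ext p h)
  have hadd : ∀ g (ψ₁ ψ₂ : tateLam p S), ρ₀ g (ψ₁ + ψ₂) = ρ₀ g ψ₁ + ρ₀ g ψ₂ := by
    intro g ψ₁ ψ₂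
    apply hext
    intro n x
    obtain ⟨c₁, hc₁⟩ := tate_exists_level S Jn Φ hrange ψ₁ n
    obtain ⟨c₂, hc₂⟩ := tate_exists_level S Jn Φ hrange ψ₂ n
    let c₁' : Jn n := ⟨g • (c₁ : J), tate_smul_mem Jn hJn g n _ c₁.2⟩
    let c₂' : Jn n := ⟨g • (c₂ : J), tate_smul_mem Jn hJn g n _ c₂.2⟩
    have h1 := hρ₀ g ψ₁ n c₁ c₁' hc₁ rfl x
    have h2 := hρ₀ g ψ₂ n c₂ c₂' hc₂ rfl x
    have h3 := hρ₀ g (ψ₁ + ψ₂) n (c₁ + c₂) (c₁' + c₂')
      (fun y => by
        rw [map_add, AddMonoidHom.add_apply, hc₁, hc₂]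
        show _ = toZModPow n (ψ₁.1 y + ψ₂.1 y)
        rw [map_add])
      (by
        show g • (c₁ : J) + g • (c₂ : J) = g • ((c₁ : J) + (c₂ : J))
        rw [smul_add]) x
    rw [← h3, map_add, AddMonoidHom.add_apply, h1, h2]
    show _ = toZModPow n ((ρ₀ g ψ₁).1 x + (ρ₀ g ψ₂).1 x)
    rw [map_add]
  have hsmul : ∀ g (a : ℤ_[p]) (ψ : tateLam p S), ρ₀ g (a • ψ) = a • ρ₀ g ψ := by
    intro g a ψ
    apply hext
    intro n x
    obtain ⟨c, hc⟩ := tate_exists_level S Jn Φ hrange ψ n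
    let c' : Jn n := ⟨g • (c : J), tate_smul_mem Jn hJn g n _ c.2⟩
    have h1 := hρ₀ g ψ n c c' hc rfl x
    set k : ℕ := (toZModPow n a).val with hk
    have hkcast : ((k : ℕ) : ZMod (p ^ n)) = toZModPow n a := ZMod.natCast_zmod_val _
    have h3 := hρ₀ g (a • ψ) n (k • c) (k • c')
      (fun y => by
        rw [map_nsmul, AddMonoidHom.nsmul_apply, hc, nsmul_eq_mul, hkcast]
        show _ = toZModPow n (a • ψ.1 y)
        rw [smul_eq_mul, map_mul])
      (by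
        show k • (g • (c : J)) = g • (k • (c : J))
        rw [smul_comm]) x
    rw [← h3, map_nsmul, AddMonoidHom.nsmul_apply, h1, nsmul_eq_mul, hkcast]
    show _ = toZModPow n (a • (ρ₀ g ψ).1 x)
    rw [smul_eq_mul, map_mul]
  have hone : ∀ ψ : tateLam p S, ρ₀ 1 ψ = ψ := by
    intro ψ
    apply hext
    intro n x
    obtain ⟨c, hc⟩ := tate_exists_level S Jn Φ hrange ψ n
    have h1 := hρ₀ 1 ψ n c c hc (by rw [one_smul]) x
    rw [← h1, hc]
  have hmul : ∀ g h (ψ : tateLam p S), ρ₀ (g * h) ψ = ρ₀ g (ρ₀ h ψ) := by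
    intro g h ψ
    apply hext
    intro n x
    obtain ⟨c, hc⟩ := tate_exists_level S Jn Φ hrange ψ n
    let c₁ : Jn n := ⟨h • (c : J), tate_smul_mem Jn hJn h n _ c.2⟩
    let c₂ : Jn n := ⟨g • (c₁ : J), tate_smul_mem Jn hJn g n _ c₁.2⟩
    have h1 := hρ₀ h ψ n c c₁ hc rfl
    have h2 := hρ₀ g (ρ₀ h ψ) n c₁ c₂ h1 rfl x
    have h3 := hρ₀ (g * h) ψ n c c₂ hc (by
      show g • (h • (c : J)) = (g * h) • (c : J)
      rw [mul_smul]) x
    rw [← h3, h2]
  let ρ₁ : G → Module.End ℤ_[p] (tateLam p S) := fun g =>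
    { toFun := ρ₀ g
      map_add' := hadd g
      map_smul' := hsmul g }
  refine ⟨⟨⟨ρ₁, ?_⟩, ?_⟩, ?_⟩
  · apply LinearMap.ext
    intro ψ
    exact hone ψ
  · intro g h
    apply LinearMap.ext
    intro ψ
    exact hmul g h ψ
  · intro g ψ n c c' hc hc' x
    exact hρ₀ g ψ n c c' hc hc' x

end Main

section Consequences

variable {p : ℕ} [hp : Fact p.Prime] {X : Type*} [AddGroup X] (S : Set X)
  {J : Type*} [AddCommGroup J] {G : Type*} [Group G] [DistribMulAction G J]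
  (Jn : ℕ → AddSubgroup J)
  (Φ : ∀ n, Jn n →+ (X →+ ZMod (p ^ n)))
  (hJn : ∀ n (c : J), c ∈ Jn n ↔ (p ^ n) • c = 0)
  (hinj : ∀ n, Function.Injective (Φ n))
  (hrange : ∀ n (θ : X →+ ZMod (p ^ n)), θ ∈ Set.range (Φ n) ↔ ∀ s ∈ S, θ s = 0)
  (ρ : G →* Module.End ℤ_[p] (tateLam p S))
  (hρ : TateSpec S Jn Φ (fun g ψ => ρ g ψ))

include hrange hρ in
/-- an element acting trivially on `J[p^n]` acts trivially on `Λ` modulo `p^n` -/
theorem tate_congr (g : G) (n : ℕ) (hg : ∀ c : J, c ∈ Jn n → g • c = c) (ψ : tateLam p S)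
    (x : X) : toZModPow n ((ρ g ψ).1 x) = toZModPow n (ψ.1 x) := by
  obtain ⟨c, hc⟩ := tate_exists_level S Jn Φ hrange ψ n
  have h1 := hρ g ψ n c c hc (hg c c.2).symm x
  rw [← h1, hc]

include hrange hρ in
/-- an element acting trivially on `J[p^n]` acts trivially on `Λ / p^n Λ` -/
theorem tate_congr_dvd (g : G) (n : ℕ) (hg : ∀ c : J, c ∈ Jn n → g • c = c) (ψ : tateLam p S) :
    ∃ ψ' : tateLam p S, ρ g ψ - ψ = ((p : ℤ_[p]) ^ n) • ψ' := by
  apply tate_dvd_of_red_eq_zero p S n (ρ g ψ - ψ)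
  intro x
  show toZModPow n ((ρ g ψ).1 x - ψ.1 x) = 0
  rw [map_sub, tate_congr S Jn Φ hrange ρ hρ g n hg ψ x, sub_self]

include hrange hρ in
/-- an element acting trivially on all the `J[p^n]` acts trivially on `Λ` -/
theorem tate_eq_one (g : G) (hg : ∀ n (c : J), c ∈ Jn n → g • c = c) : ρ g = 1 := by
  apply LinearMap.ext
  intro ψ
  apply Subtype.ext
  apply tate_ext p
  intro n x
  exact tate_congr S Jn Φ hrange ρ hρ g n (hg n) ψ x

section Hecke

variable (TrZ : (X →+ ℤ_[p]) →+ (X →+ ℤ_[p]))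
  (Trn : ∀ n, (X →+ ZMod (p ^ n)) →+ (X →+ ZMod (p ^ n)))
  (hnat : ∀ n (ψ : X →+ ℤ_[p]) (x : X),
    Trn n ((toZModPow (p := p) n).toAddMonoidHom.comp ψ) x = toZModPow n (TrZ ψ x))
  (T : J →+ J)
  (hT : ∀ n (c c' : Jn n), (c' : J) = T c → ∀ x, Φ n c' x = Trn n (Φ n c) x)

include hJn in
theorem tate_T_mem (n : ℕ) (c : J) (hc : c ∈ Jn n) : T c ∈ Jn n := by
  rw [hJn] at hc ⊢
  rw [← map_nsmul, hc, map_zero]

include hJn hnat hT in
/-- the level-`n` representative of `TrZ ψ` is `T c` -/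
theorem tate_hecke_level (ψ : X →+ ℤ_[p]) (n : ℕ) (c : Jn n)
    (hc : ∀ x, Φ n c x = toZModPow n (ψ x)) (x : X) :
    Φ n ⟨T c, tate_T_mem Jn hJn T n c c.2⟩ x = toZModPow n (TrZ ψ x) := by
  rw [hT n c ⟨T c, tate_T_mem Jn hJn T n c c.2⟩ rfl x, ← hnat n ψ x]
  congr 2
  ext y
  exact hc y

include hJn hrange hnat hT in
/-- the transfer operator preserves `Λ` -/
theorem tate_hecke_mem (ψ : X →+ ℤ_[p]) (hψ : ψ ∈ tateLam p S) : TrZ ψ ∈ tateLam p S := by
  intro s hs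
  apply ext_of_toZModPow.mp
  intro n
  obtain ⟨c, hc⟩ := tate_exists_level S Jn Φ hrange ⟨ψ, hψ⟩ n
  rw [← tate_hecke_level Jn Φ hJn TrZ Trn hnat T hT ψ n c hc s, map_zero]
  exact (hrange n _).mp ⟨_, rfl⟩ s hs

include hJn hrange hρ hnat hT in
/-- the action commutes with the transfer operator if it commutes with `T` on `J` -/
theorem tate_hecke_comm (g : G) (hTg : ∀ c : J, g • T c = T (g • c)) (ψ : tateLam p S)
    (hmem : TrZ ψ.1 ∈ tateLam p S) :
    TrZ (ρ g ψ).1 = (ρ g ⟨TrZ ψ.1, hmem⟩).1 := by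
  apply tate_ext p
  intro n x
  obtain ⟨c, hc⟩ := tate_exists_level S Jn Φ hrange ψ n
  let cg : Jn n := ⟨g • (c : J), tate_smul_mem Jn hJn g n _ c.2⟩
  have h1 : ∀ y, Φ n cg y = toZModPow n ((ρ g ψ).1 y) := hρ g ψ n c cg hc rfl
  have h2 := tate_hecke_level Jn Φ hJn TrZ Trn hnat T hT (ρ g ψ).1 n cg h1 x
  have h3 : ∀ y, Φ n ⟨T c, tate_T_mem Jn hJn T n c c.2⟩ y = toZModPow n (TrZ ψ.1 y) :=
    tate_hecke_level Jn Φ hJn TrZ Trn hnat T hT ψ.1 n c hc
  have h4 := hρ g ⟨TrZ ψ.1, hmem⟩ n ⟨T c, tate_T_mem Jn hJn T n c c.2⟩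
    ⟨T cg, tate_T_mem Jn hJn T n cg cg.2⟩ h3 (by
      show T (g • (c : J)) = g • T (c : J)
      rw [hTg]) x
  rw [← h2, ← h4]

include hJn hrange hρ hnat hT in
/-- **Eichler–Shimura on the Tate module**: if `σ² - T σ + ℓ = 0` on every `J[p^n]`, then
`ρ σ (ρ σ ψ) - TrZ (ρ σ ψ) + ℓ • ψ = 0` on `Λ`. -/
theorem tate_eichlerShimura (σ : G) (ℓ : ℕ)
    (hES : ∀ n (c : J), c ∈ Jn n → σ • σ • c - T (σ • c) + ℓ • c = 0) (ψ : tateLam p S) :
    (ρ σ (ρ σ ψ)).1 - TrZ (ρ σ ψ).1 + ℓ • ψ.1 = 0 := by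
  apply tate_ext p
  intro n x
  obtain ⟨c, hc⟩ := tate_exists_level S Jn Φ hrange ψ n
  let c₁ : Jn n := ⟨σ • (c : J), tate_smul_mem Jn hJn σ n _ c.2⟩
  let c₂ : Jn n := ⟨σ • (c₁ : J), tate_smul_mem Jn hJn σ n _ c₁.2⟩
  let c₃ : Jn n := ⟨T c₁, tate_T_mem Jn hJn T n c₁ c₁.2⟩
  have h1 : ∀ y, Φ n c₁ y = toZModPow n ((ρ σ ψ).1 y) := hρ σ ψ n c c₁ hc rfl
  have h2 := hρ σ (ρ σ ψ) n c₁ c₂ h1 rfl x
  have h3 := tate_hecke_level Jn Φ hJn TrZ Trn hnat T hT (ρ σ ψ).1 n c₁ h1 x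
  have h4 : c₂ - c₃ + ℓ • c = 0 := by
    apply Subtype.ext
    exact hES n c c.2
  have h5 : Φ n c₂ x - Φ n c₃ x + ℓ • Φ n c x = 0 := by
    have := congrArg (fun d => Φ n d x) h4
    simpa using this
  show toZModPow n ((ρ σ (ρ σ ψ)).1 x - TrZ (ρ σ ψ).1 x + ℓ • ψ.1 x) = toZModPow n 0
  rw [map_add, map_sub, map_nsmul, ← h2, ← h3, ← hc, h5, map_zero]

end Hecke

end Consequences

end Fermat.Agent.S30
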