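/-
S30 project, package TATE, range version (helper16): the abstract Tate module defined by the
ranges of the comparison maps.

`X` an additive group (not necessarily commutative), `J` an abelian group with an action of a
group `G`, `Jn n = J[p^n]`, and comparison maps `Φ n : J[p^n] →+ Hom(X, ℤ/p^n)` which are
injective and compatible with the transition maps (`Φ n (p • c) = Φ (n+1) c mod p^n`).
No hypothesis on the ranges of the `Φ n` is needed: the `ℤ_p`-module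
`Λ' = {ψ : X →+ ℤ_p | ∀ n, ψ mod p^n ∈ range (Φ n)}` carries level maps `c_n : Λ' →+ J[p^n]`
with `Φ n (c_n ψ) = ψ mod p^n` and a `ℤ_p`-linear action `ρ` of `G` with
`c_n (ρ g ψ) = g • c_n ψ`.
-/
import Mathlib
import Fermat.Agent.S30.Tate

set_option autoImplicit false
set_option linter.unusedSectionVars false

namespace Fermat.Agent.S30

open PadicInt

section Main

variable {p : ℕ} [hp : Fact p.Prime] {X : Type*} [AddGroup X]
  {J : Type*} [AddCommGroup J] {G : Type*} [Group G] [DistribMulAction G J]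
  (Jn : ℕ → AddSubgroup J)
  (Φ : ∀ n, Jn n →+ (X →+ ZMod (p ^ n)))

/-- `Λ'`: the homs `X → ℤ_p` all of whose reductions lie in the ranges of the comparison maps -/
def taterLam : Submodule ℤ_[p] (X →+ ℤ_[p]) where
  carrier := {ψ | ∀ n, ∃ c : Jn n, ∀ x, Φ n c x = toZModPow n (ψ x)}
  add_mem' := by
    intro a b ha hb n
    obtain ⟨c₁, hc₁⟩ := ha n
    obtain ⟨c₂, hc₂⟩ := hb n
    refine ⟨c₁ + c₂, fun x => ?_⟩
    rw [map_add, AddMonoidHom.add_apply, hc₁, hc₂, AddMonoidHom.add_apply, map_add]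
  zero_mem' := by
    intro n
    refine ⟨0, fun x => ?_⟩
    rw [map_zero, AddMonoidHom.zero_apply, AddMonoidHom.zero_apply, map_zero]
  smul_mem' := by
    intro a ψ hψ n
    obtain ⟨c, hc⟩ := hψ n
    have hne : NeZero (p ^ n) := ⟨pow_ne_zero n hp.out.ne_zero⟩
    refine ⟨(toZModPow n a).val • c, fun x => ?_⟩
    rw [map_nsmul, AddMonoidHom.nsmul_apply, hc, nsmul_eq_mul, ZMod.natCast_zmod_val,
      AddMonoidHom.smul_apply, smul_eq_mul, map_mul]

theorem mem_taterLam (ψ : X →+ ℤ_[p]) :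
    ψ ∈ taterLam Jn Φ ↔ ∀ n, ∃ c : Jn n, ∀ x, Φ n c x = toZModPow n (ψ x) :=
  Iff.rfl

theorem mem_taterLam_iff_range (ψ : X →+ ℤ_[p]) :
    ψ ∈ taterLam Jn Φ ↔
      ∀ n, (toZModPow (p := p) n).toAddMonoidHom.comp ψ ∈ Set.range (Φ n) := by
  rw [mem_taterLam]
  refine forall_congr' fun n => ?_
  constructor
  · rintro ⟨c, hc⟩
    exact ⟨c, AddMonoidHom.ext fun x => hc x⟩
  · rintro ⟨c, hc⟩
    exact ⟨c, fun x => DFunLike.congr_fun hc x⟩

/-- if every hom killing `S` is in the range of the comparison maps, `Λ'` contains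
`Hom_S(X, ℤ_p)` -/
theorem tateLam_le_taterLam (S : Set X)
    (hsurj : ∀ n (θ : X →+ ZMod (p ^ n)), (∀ s ∈ S, θ s = 0) → θ ∈ Set.range (Φ n)) :
    tateLam p S ≤ taterLam Jn Φ := by
  intro ψ hψ
  rw [mem_taterLam_iff_range]
  intro n
  apply hsurj
  intro s hs
  show toZModPow n (ψ s) = 0
  rw [hψ s hs, map_zero]

/-- if the ranges of the comparison maps kill `S`, so does `Λ'` -/
theorem taterLam_le_tateLam (S : Set X)
    (hkill : ∀ n (c : Jn n), ∀ s ∈ S, Φ n c s = 0) :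
    taterLam Jn Φ ≤ tateLam p S := by
  intro ψ hψ s hs
  apply ext_of_toZModPow.mp
  intro n
  obtain ⟨c, hc⟩ := hψ n
  rw [← hc s, hkill n c s hs, map_zero]

/-- the specification of the action on `Λ'`: `ρ g ψ` reduces modulo `p^n` to
`Φ n (g • c)` whenever `ψ` reduces to `Φ n c`. -/
def TaterSpec (ρ : G → taterLam Jn Φ → taterLam Jn Φ) : Prop :=
  ∀ (g : G) (ψ : taterLam Jn Φ) (n : ℕ) (c c' : Jn n),
    (∀ x, Φ n c x = toZModPow n (ψ.1 x)) → (c' : J) = g • (c : J) →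
    ∀ x, Φ n c' x = toZModPow n ((ρ g ψ).1 x)

variable (hJn : ∀ n (c : J), c ∈ Jn n ↔ (p ^ n) • c = 0)
  (hinj : ∀ n, Function.Injective (Φ n))
  (hcompat : ∀ n (c : Jn (n + 1)) (c' : Jn n), (c' : J) = p • (c : J) →
    ∀ x, Φ n c' x = ZMod.castHom (pow_dvd_pow p n.le_succ) (ZMod (p ^ n)) (Φ (n + 1) c x))

include hinj in
theorem tater_level_unique (ψ : X →+ ℤ_[p]) (n : ℕ) (c₁ c₂ : Jn n)
    (h₁ : ∀ x, Φ n c₁ x = toZModPow n (ψ x)) (h₂ : ∀ x, Φ n c₂ x = toZModPow n (ψ x)) :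
    c₁ = c₂ := by
  apply hinj n
  ext x
  rw [h₁, h₂]

/-- the level maps `c_n : Λ' →+ J[p^n]` -/
noncomputable def taterLevel (n : ℕ) : taterLam Jn Φ →+ Jn n where
  toFun ψ := Classical.choose (ψ.2 n)
  map_zero' := by
    apply tater_level_unique Jn Φ hinj 0 n
    · exact Classical.choose_spec ((0 : taterLam Jn Φ).2 n)
    · intro x
      rw [map_zero, AddMonoidHom.zero_apply, AddMonoidHom.zero_apply, map_zero]
  map_add' := by
    intro ψ₁ ψ₂
    apply tater_level_unique Jn Φ hinj (ψ₁.1 + ψ₂.1) n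
    · exact Classical.choose_spec ((ψ₁ + ψ₂).2 n)
    · intro x
      rw [map_add, AddMonoidHom.add_apply, Classical.choose_spec (ψ₁.2 n) x,
        Classical.choose_spec (ψ₂.2 n) x, AddMonoidHom.add_apply, map_add]

theorem taterLevel_spec (n : ℕ) (ψ : taterLam Jn Φ) (x : X) :
    Φ n (taterLevel Jn Φ hinj n ψ) x = toZModPow n (ψ.1 x) :=
  Classical.choose_spec (ψ.2 n) x

theorem taterLevel_eq (n : ℕ) (ψ : taterLam Jn Φ) (c : Jn n)
    (hc : ∀ x, Φ n c x = toZModPow n (ψ.1 x)) : taterLevel Jn Φ hinj n ψ = c :=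
  tater_level_unique Jn Φ hinj ψ.1 n _ _ (taterLevel_spec Jn Φ hinj n ψ) hc

/-- the level maps are semilinear for `ℤ_p → ℤ/p^n` -/
theorem taterLevel_smul (n : ℕ) (a : ℤ_[p]) (ψ : taterLam Jn Φ) :
    taterLevel Jn Φ hinj n (a • ψ) = (toZModPow n a).val • taterLevel Jn Φ hinj n ψ := by
  have hne : NeZero (p ^ n) := ⟨pow_ne_zero n hp.out.ne_zero⟩
  apply taterLevel_eq
  intro x
  rw [map_nsmul, AddMonoidHom.nsmul_apply, taterLevel_spec, nsmul_eq_mul, ZMod.natCast_zmod_val]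
  show _ = toZModPow n (a • ψ.1 x)
  rw [smul_eq_mul, map_mul]

/-- the kernel of the level-`n` map: the elements of `Λ'` vanishing modulo `p^n` -/
theorem taterLevel_eq_zero_iff (n : ℕ) (ψ : taterLam Jn Φ) :
    taterLevel Jn Φ hinj n ψ = 0 ↔ ∀ x, toZModPow n (ψ.1 x) = 0 := by
  constructor
  · intro h x
    rw [← taterLevel_spec Jn Φ hinj n ψ x, h, map_zero, AddMonoidHom.zero_apply]
  · intro h
    apply taterLevel_eq
    intro x
    rw [map_zero, AddMonoidHom.zero_apply, h x]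

/-- the level maps are jointly injective -/
theorem tater_ext (ψ₁ ψ₂ : taterLam Jn Φ)
    (h : ∀ n, taterLevel Jn Φ hinj n ψ₁ = taterLevel Jn Φ hinj n ψ₂) : ψ₁ = ψ₂ := by
  apply Subtype.ext
  apply tate_ext p
  intro n x
  rw [← taterLevel_spec Jn Φ hinj n ψ₁ x, ← taterLevel_spec Jn Φ hinj n ψ₂ x, h n]

include hJn in
theorem tater_smul_mem (g : G) (n : ℕ) (c : J) (hc : c ∈ Jn n) : g • c ∈ Jn n := by
  rw [hJn] at hc ⊢
  rw [← smul_comm g (p ^ n) c, hc, smul_zero]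

include hJn in
theorem tater_p_smul_mem (n : ℕ) (c : J) (hc : c ∈ Jn (n + 1)) : p • c ∈ Jn n := by
  rw [hJn] at hc ⊢
  rw [smul_smul, ← pow_succ]
  exact hc

include hJn hcompat in
/-- the level maps are compatible with multiplication by `p` -/
theorem taterLevel_step (n : ℕ) (ψ : taterLam Jn Φ) :
    ((taterLevel Jn Φ hinj n ψ : Jn n) : J) =
      p • ((taterLevel Jn Φ hinj (n + 1) ψ : Jn (n + 1)) : J) := by
  set c := taterLevel Jn Φ hinj (n + 1) ψ with hc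
  have hmem : p • (c : J) ∈ Jn n := tater_p_smul_mem Jn hJn n _ c.2
  have h1 : taterLevel Jn Φ hinj n ψ = ⟨p • (c : J), hmem⟩ := by
    apply taterLevel_eq
    intro x
    rw [hcompat n c ⟨p • (c : J), hmem⟩ rfl x, hc, taterLevel_spec]
    exact cast_toZModPow n (n + 1) n.le_succ (ψ.1 x)
  rw [h1]

include hJn hcompat in
/-- a compatible system of torsion points defines an element of `Λ'` -/
theorem tater_exists_of_system (c : ∀ n, Jn n)
    (hc : ∀ n, (c n : J) = p • (c (n + 1) : J)) :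
    ∃ ψ : taterLam Jn Φ, ∀ n, taterLevel Jn Φ hinj n ψ = c n := by
  obtain ⟨ψ', hψ'⟩ := tate_exists_lim p (fun n => Φ n (c n))
    (fun n x => (hcompat n (c (n + 1)) (c n) (hc n) x).symm)
  have hmem : ψ' ∈ taterLam Jn Φ := fun n => ⟨c n, fun x => (hψ' n x).symm⟩
  refine ⟨⟨ψ', hmem⟩, fun n => ?_⟩
  apply taterLevel_eq
  intro x
  exact (hψ' n x).symm

include hJn hinj hcompat in
theorem tater_exists_act (g : G) (ψ : taterLam Jn Φ) :
    ∃ ψ' : taterLam Jn Φ, ∀ (n : ℕ) (c c' : Jn n),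
      (∀ x, Φ n c x = toZModPow n (ψ.1 x)) → (c' : J) = g • (c : J) →
      ∀ x, Φ n c' x = toZModPow n (ψ'.1 x) := by
  let c : ∀ n, Jn n := fun n => taterLevel Jn Φ hinj n ψ
  let c' : ∀ n, Jn n := fun n => ⟨g • (c n : J), tater_smul_mem Jn hJn g n _ (c n).2⟩
  have hstep : ∀ n, (c' n : J) = p • (c' (n + 1) : J) := by
    intro n
    show g • (c n : J) = p • (g • (c (n + 1) : J))
    rw [show (c n : J) = p • (c (n + 1) : J) from taterLevel_step Jn Φ hJn hinj hcompat n ψ]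
    exact smul_comm g p (c (n + 1) : J)
  obtain ⟨ψ', hψ'⟩ := tater_exists_of_system Jn Φ hJn hinj hcompat c' hstep
  refine ⟨ψ', fun n c₀ c₀' h₀ h₀' x => ?_⟩
  have h1 : c₀ = c n := (taterLevel_eq Jn Φ hinj n ψ c₀ h₀).symm
  have h2 : c₀' = c' n := by
    apply Subtype.ext
    rw [h₀', h1]
  rw [h2, ← hψ' n]
  exact taterLevel_spec Jn Φ hinj n ψ' x

include hJn hinj hcompat in
/-- **The action on the Tate module `Λ'`.** -/
theorem tater_main :
    ∃ ρ : G →* Module.End ℤ_[p] (taterLam Jn Φ), TaterSpec Jn Φ (fun g ψ => ρ g ψ) := by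
  choose ρ₀ hρ₀ using tater_exists_act Jn Φ hJn hinj hcompat (G := G)
  -- the level of `ρ₀ g ψ`
  have hlev : ∀ g (ψ : taterLam Jn Φ) n,
      ((taterLevel Jn Φ hinj n (ρ₀ g ψ) : Jn n) : J) =
        g • ((taterLevel Jn Φ hinj n ψ : Jn n) : J) := by
    intro g ψ n
    have h1 := hρ₀ g ψ n (taterLevel Jn Φ hinj n ψ)
      ⟨g • ((taterLevel Jn Φ hinj n ψ : Jn n) : J), tater_smul_mem Jn hJn g n _ (Subtype.prop _)⟩
      (taterLevel_spec Jn Φ hinj n ψ) rfl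
    rw [taterLevel_eq Jn Φ hinj n (ρ₀ g ψ) _ h1]
  have hext : ∀ ψ₁ ψ₂ : taterLam Jn Φ,
      (∀ n, ((taterLevel Jn Φ hinj n ψ₁ : Jn n) : J) = ((taterLevel Jn Φ hinj n ψ₂ : Jn n) : J))
        → ψ₁ = ψ₂ :=
    fun ψ₁ ψ₂ h => tater_ext Jn Φ hinj ψ₁ ψ₂ (fun n => Subtype.ext (h n))
  have hadd : ∀ g (ψ₁ ψ₂ : taterLam Jn Φ), ρ₀ g (ψ₁ + ψ₂) = ρ₀ g ψ₁ + ρ₀ g ψ₂ := by
    intro g ψ₁ ψ₂
    apply hext
    intro n
    rw [hlev, map_add, map_add, AddSubgroup.coe_add, AddSubgroup.coe_add, hlev, hlev, smul_add]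
  have hsmul : ∀ g (a : ℤ_[p]) (ψ : taterLam Jn Φ), ρ₀ g (a • ψ) = a • ρ₀ g ψ := by
    intro g a ψ
    apply hext
    intro n
    rw [hlev, taterLevel_smul, taterLevel_smul, AddSubgroup.coe_nsmul, AddSubgroup.coe_nsmul,
      hlev, smul_comm]
  have hone : ∀ ψ : taterLam Jn Φ, ρ₀ 1 ψ = ψ := by
    intro ψ
    apply hext
    intro n
    rw [hlev, one_smul]
  have hmul : ∀ g h (ψ : taterLam Jn Φ), ρ₀ (g * h) ψ = ρ₀ g (ρ₀ h ψ) := by
    intro g h ψ
    apply hext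
    intro n
    rw [hlev, hlev, hlev, mul_smul]
  let ρ₁ : G → Module.End ℤ_[p] (taterLam Jn Φ) := fun g =>
    { toFun := ρ₀ g
      map_add' := hadd g
      map_smul' := hsmul g }
  refine ⟨⟨⟨ρ₁, ?_⟩, ?_⟩, ?_⟩
  · apply LinearMap.ext
    intro ψ
    exact hone ψ
  · intro g h
    apply LinearMap.ext
    intro ψ
    exact hmul g h ψ
  · intro g ψ n c c' hc hc' x
    exact hρ₀ g ψ n c c' hc hc' x

end Main

section Consequences

variable {p : ℕ} [hp : Fact p.Prime] {X : Type*} [AddGroup X]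
  {J : Type*} [AddCommGroup J] {G : Type*} [Group G] [DistribMulAction G J]
  (Jn : ℕ → AddSubgroup J)
  (Φ : ∀ n, Jn n →+ (X →+ ZMod (p ^ n)))
  (hJn : ∀ n (c : J), c ∈ Jn n ↔ (p ^ n) • c = 0)
  (hinj : ∀ n, Function.Injective (Φ n))
  (ρ : G →* Module.End ℤ_[p] (taterLam Jn Φ))
  (hρ : TaterSpec Jn Φ (fun g ψ => ρ g ψ))

include hJn hρ in
/-- **equivariance of the level maps**: `c_n (ρ g ψ) = g • c_n ψ` -/
theorem taterLevel_act (g : G) (ψ : taterLam Jn Φ) (n : ℕ) :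
    ((taterLevel Jn Φ hinj n (ρ g ψ) : Jn n) : J) =
      g • ((taterLevel Jn Φ hinj n ψ : Jn n) : J) := by
  have h1 := hρ g ψ n (taterLevel Jn Φ hinj n ψ)
    ⟨g • ((taterLevel Jn Φ hinj n ψ : Jn n) : J), tater_smul_mem Jn hJn g n _ (Subtype.prop _)⟩
    (taterLevel_spec Jn Φ hinj n ψ) rfl
  rw [taterLevel_eq Jn Φ hinj n (ρ g ψ) _ h1]

include hJn hinj hρ in
/-- an element acting trivially on `J[p^n]` acts trivially on `Λ'` modulo `p^n` -/
theorem tater_congr (g : G) (n : ℕ) (hg : ∀ c : J, c ∈ Jn n → g • c = c) (ψ : taterLam Jn Φ)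
    (x : X) : toZModPow n ((ρ g ψ).1 x) = toZModPow n (ψ.1 x) := by
  have h1 : taterLevel Jn Φ hinj n (ρ g ψ) = taterLevel Jn Φ hinj n ψ := by
    apply Subtype.ext
    rw [taterLevel_act Jn Φ hJn hinj ρ hρ g ψ n]
    exact hg _ (Subtype.prop _)
  rw [← taterLevel_spec Jn Φ hinj n (ρ g ψ) x, ← taterLevel_spec Jn Φ hinj n ψ x, h1]

include hJn hinj hρ in
/-- an element acting trivially on all the `J[p^n]` acts trivially on `Λ'` -/
theorem tater_eq_one (g : G) (hg : ∀ n (c : J), c ∈ Jn n → g • c = c) : ρ g = 1 := by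
  apply LinearMap.ext
  intro ψ
  apply Subtype.ext
  apply tate_ext p
  intro n x
  exact tater_congr Jn Φ hJn hinj ρ hρ g n (hg n) ψ x

section Hecke

variable (TrZ : (X →+ ℤ_[p]) →+ (X →+ ℤ_[p]))
  (Trn : ∀ n, (X →+ ZMod (p ^ n)) →+ (X →+ ZMod (p ^ n)))
  (hnat : ∀ n (ψ : X →+ ℤ_[p]) (x : X),
    Trn n ((toZModPow (p := p) n).toAddMonoidHom.comp ψ) x = toZModPow n (TrZ ψ x))
  (T : J →+ J)
  (hT : ∀ n (c c' : Jn n), (c' : J) = T c → ∀ x, Φ n c' x = Trn n (Φ n c) x)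

include hJn in
theorem tater_T_mem (n : ℕ) (c : J) (hc : c ∈ Jn n) : T c ∈ Jn n := by
  rw [hJn] at hc ⊢
  rw [← map_nsmul, hc, map_zero]

include hJn hnat hT in
/-- the level-`n` representative of `TrZ ψ` is `T c` -/
theorem tater_hecke_level (ψ : X →+ ℤ_[p]) (n : ℕ) (c : Jn n)
    (hc : ∀ x, Φ n c x = toZModPow n (ψ x)) (x : X) :
    Φ n ⟨T c, tater_T_mem Jn hJn T n c c.2⟩ x = toZModPow n (TrZ ψ x) := by
  rw [hT n c ⟨T c, tater_T_mem Jn hJn T n c c.2⟩ rfl x, ← hnat n ψ x]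
  congr 2
  ext y
  exact hc y

include hJn hnat hT in
/-- the transfer operator preserves `Λ'` -/
theorem tater_hecke_mem (ψ : X →+ ℤ_[p]) (hψ : ψ ∈ taterLam Jn Φ) : TrZ ψ ∈ taterLam Jn Φ := by
  intro n
  obtain ⟨c, hc⟩ := hψ n
  exact ⟨⟨T c, tater_T_mem Jn hJn T n c c.2⟩,
    tater_hecke_level Jn Φ hJn TrZ Trn hnat T hT ψ n c hc⟩

include hJn hnat hT in
/-- the level maps intertwine the transfer operator with `T` -/
theorem taterLevel_hecke (ψ : taterLam Jn Φ) (hmem : TrZ ψ.1 ∈ taterLam Jn Φ) (n : ℕ) :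
    ((taterLevel Jn Φ hinj n ⟨TrZ ψ.1, hmem⟩ : Jn n) : J) =
      T ((taterLevel Jn Φ hinj n ψ : Jn n) : J) := by
  have h1 := tater_hecke_level Jn Φ hJn TrZ Trn hnat T hT ψ.1 n (taterLevel Jn Φ hinj n ψ)
    (taterLevel_spec Jn Φ hinj n ψ)
  rw [taterLevel_eq Jn Φ hinj n ⟨TrZ ψ.1, hmem⟩ _ h1]

include hJn hinj hρ hnat hT in
/-- the action commutes with the transfer operator if it commutes with `T` on `J` -/
theorem tater_hecke_comm (g : G) (hTg : ∀ c : J, g • T c = T (g • c)) (ψ : taterLam Jn Φ)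
    (hmem : TrZ ψ.1 ∈ taterLam Jn Φ) (hmem' : TrZ (ρ g ψ).1 ∈ taterLam Jn Φ) :
    (⟨TrZ (ρ g ψ).1, hmem'⟩ : taterLam Jn Φ) = ρ g ⟨TrZ ψ.1, hmem⟩ := by
  apply tater_ext Jn Φ hinj
  intro n
  apply Subtype.ext
  rw [taterLevel_hecke Jn Φ hJn hinj TrZ Trn hnat T hT (ρ g ψ) hmem' n,
    taterLevel_act Jn Φ hJn hinj ρ hρ g ψ n,
    taterLevel_act Jn Φ hJn hinj ρ hρ g ⟨TrZ ψ.1, hmem⟩ n,
    taterLevel_hecke Jn Φ hJn hinj TrZ Trn hnat T hT ψ hmem n, hTg]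

include hJn hinj hρ hnat hT in
/-- **Eichler–Shimura on the Tate module**: if `σ² - T σ + ℓ = 0` on every `J[p^n]`, then
`ρ σ (ρ σ ψ) - TrZ (ρ σ ψ) + ℓ • ψ = 0` on `Λ'`. -/
theorem tater_eichlerShimura (σ : G) (ℓ : ℕ)
    (hES : ∀ n (c : J), c ∈ Jn n → σ • σ • c - T (σ • c) + ℓ • c = 0) (ψ : taterLam Jn Φ) :
    (ρ σ (ρ σ ψ)).1 - TrZ (ρ σ ψ).1 + ℓ • ψ.1 = 0 := by
  have hmem : TrZ (ρ σ ψ).1 ∈ taterLam Jn Φ :=
    tater_hecke_mem Jn Φ hJn TrZ Trn hnat T hT _ (Subtype.prop _)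
  have h0 : ρ σ (ρ σ ψ) - ⟨TrZ (ρ σ ψ).1, hmem⟩ + ℓ • ψ = 0 := by
    apply tater_ext Jn Φ hinj
    intro n
    apply Subtype.ext
    rw [map_add, AddMonoidHom.map_sub, map_nsmul, map_zero, AddSubgroup.coe_add,
      AddSubgroup.coe_sub, AddSubgroup.coe_nsmul, AddSubgroup.coe_zero,
      taterLevel_hecke Jn Φ hJn hinj TrZ Trn hnat T hT (ρ σ ψ) hmem n,
      taterLevel_act Jn Φ hJn hinj ρ hρ σ (ρ σ ψ) n,
      taterLevel_act Jn Φ hJn hinj ρ hρ σ ψ n]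
    exact hES n _ (Subtype.prop _)
  exact congrArg Subtype.val h0

end Hecke

end Consequences

end Fermat.Agent.S30
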