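/-
S30 project, package TATE, part 3 (helper16): the Hecke operators as `ℤ_p`-linear endomorphisms
of the Tate module `Λ' = taterLam Jn Φ`, their commutation with the Galois action, the
Eichler–Shimura relation and the congruence property in the operator shapes used by the
front-end glue.
-/
import Mathlib
import Fermat.Agent.S30.TateRange

set_option autoImplicit false
set_option linter.unusedSectionVars false

namespace Fermat.Agent.S30

open PadicInt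

section Hecke

variable {p : ℕ} [hp : Fact p.Prime] {X : Type*} [AddGroup X]
  {J : Type*} [AddCommGroup J] {G : Type*} [Group G] [DistribMulAction G J]
  (Jn : ℕ → AddSubgroup J)
  (Φ : ∀ n, Jn n →+ (X →+ ZMod (p ^ n)))
  (hJn : ∀ n (c : J), c ∈ Jn n ↔ (p ^ n) • c = 0)
  (hinj : ∀ n, Function.Injective (Φ n))
  (TrZ : (X →+ ℤ_[p]) →+ (X →+ ℤ_[p]))
  (Trn : ∀ n, (X →+ ZMod (p ^ n)) →+ (X →+ ZMod (p ^ n)))
  (hnat : ∀ n (ψ : X →+ ℤ_[p]) (x : X),
    Trn n ((toZModPow (p := p) n).toAddMonoidHom.comp ψ) x = toZModPow n (TrZ ψ x))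
  (T : J →+ J)
  (hT : ∀ n (c c' : Jn n), (c' : J) = T c → ∀ x, Φ n c' x = Trn n (Φ n c) x)

/-- the Hecke operator on `Λ'`, as a `ℤ_p`-linear endomorphism -/
noncomputable def taterHecke : Module.End ℤ_[p] (taterLam Jn Φ) where
  toFun ψ := ⟨TrZ ψ.1, tater_hecke_mem Jn Φ hJn TrZ Trn hnat T hT ψ.1 ψ.2⟩
  map_add' := by
    intro ψ₁ ψ₂
    apply Subtype.ext
    exact map_add TrZ ψ₁.1 ψ₂.1
  map_smul' := by
    intro a ψ
    apply tater_ext Jn Φ hinj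
    intro n
    apply Subtype.ext
    rw [taterLevel_hecke Jn Φ hJn hinj TrZ Trn hnat T hT (a • ψ) _ n, RingHom.id_apply,
      taterLevel_smul, taterLevel_smul, AddSubgroup.coe_nsmul, AddSubgroup.coe_nsmul,
      taterLevel_hecke Jn Φ hJn hinj TrZ Trn hnat T hT ψ _ n, map_nsmul]

theorem taterHecke_coe (ψ : taterLam Jn Φ) :
    (taterHecke Jn Φ hJn hinj TrZ Trn hnat T hT ψ : X →+ ℤ_[p]) = TrZ ψ.1 :=
  rfl

/-- the level maps intertwine the Hecke operator on `Λ'` with `T` -/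
theorem taterLevel_taterHecke (ψ : taterLam Jn Φ) (n : ℕ) :
    ((taterLevel Jn Φ hinj n (taterHecke Jn Φ hJn hinj TrZ Trn hnat T hT ψ) : Jn n) : J) =
      T ((taterLevel Jn Φ hinj n ψ : Jn n) : J) :=
  taterLevel_hecke Jn Φ hJn hinj TrZ Trn hnat T hT ψ _ n

variable (ρ : G →* Module.End ℤ_[p] (taterLam Jn Φ))
  (hρ : TaterSpec Jn Φ (fun g ψ => ρ g ψ))

include hρ in
/-- the Hecke operator commutes with the Galois action on `Λ'` if `T` commutes with the action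
on the torsion of `J` -/
theorem taterHecke_comm_act (g : G) (hTg : ∀ n (c : J), c ∈ Jn n → g • T c = T (g • c)) :
    taterHecke Jn Φ hJn hinj TrZ Trn hnat T hT * ρ g =
      ρ g * taterHecke Jn Φ hJn hinj TrZ Trn hnat T hT := by
  apply LinearMap.ext
  intro ψ
  apply tater_ext Jn Φ hinj
  intro n
  apply Subtype.ext
  rw [Module.End.mul_apply, Module.End.mul_apply, taterLevel_taterHecke,
    taterLevel_act Jn Φ hJn hinj ρ hρ g ψ n,
    taterLevel_act Jn Φ hJn hinj ρ hρ g _ n, taterLevel_taterHecke]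
  exact (hTg n _ (Subtype.prop _)).symm

include hρ in
/-- **Eichler–Shimura on `Λ'`, operator form**: if `σ² - T σ + ℓ = 0` on every `J[p^n]`, then
`ρ σ (ρ σ ψ) - T_Λ (ρ σ ψ) + ℓ • ψ = 0` on `Λ'`. -/
theorem tater_quad (σ : G) (ℓ : ℕ)
    (hES : ∀ n (c : J), c ∈ Jn n → σ • σ • c - T (σ • c) + ℓ • c = 0) (ψ : taterLam Jn Φ) :
    ρ σ (ρ σ ψ) - taterHecke Jn Φ hJn hinj TrZ Trn hnat T hT (ρ σ ψ) + ℓ • ψ = 0 := by
  apply Subtype.ext
  exact tater_eichlerShimura Jn Φ hJn hinj ρ hρ TrZ Trn hnat T hT σ ℓ hES ψ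

end Hecke

section Comm

variable {p : ℕ} [hp : Fact p.Prime] {X : Type*} [AddGroup X]
  {J : Type*} [AddCommGroup J]
  (Jn : ℕ → AddSubgroup J)
  (Φ : ∀ n, Jn n →+ (X →+ ZMod (p ^ n)))
  (hJn : ∀ n (c : J), c ∈ Jn n ↔ (p ^ n) • c = 0)
  (hinj : ∀ n, Function.Injective (Φ n))
  (TrZ TrZ' : (X →+ ℤ_[p]) →+ (X →+ ℤ_[p]))
  (Trn Trn' : ∀ n, (X →+ ZMod (p ^ n)) →+ (X →+ ZMod (p ^ n)))
  (hnat : ∀ n (ψ : X →+ ℤ_[p]) (x : X),
    Trn n ((toZModPow (p := p) n).toAddMonoidHom.comp ψ) x = toZModPow n (TrZ ψ x))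
  (hnat' : ∀ n (ψ : X →+ ℤ_[p]) (x : X),
    Trn' n ((toZModPow (p := p) n).toAddMonoidHom.comp ψ) x = toZModPow n (TrZ' ψ x))
  (T T' : J →+ J)
  (hT : ∀ n (c c' : Jn n), (c' : J) = T c → ∀ x, Φ n c' x = Trn n (Φ n c) x)
  (hT' : ∀ n (c c' : Jn n), (c' : J) = T' c → ∀ x, Φ n c' x = Trn' n (Φ n c) x)

/-- two Hecke operators commute on `Λ'` if they commute on the torsion of `J` -/
theorem taterHecke_comm (hTT : ∀ n (c : J), c ∈ Jn n → T (T' c) = T' (T c)) :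
    taterHecke Jn Φ hJn hinj TrZ Trn hnat T hT * taterHecke Jn Φ hJn hinj TrZ' Trn' hnat' T' hT' =
      taterHecke Jn Φ hJn hinj TrZ' Trn' hnat' T' hT' * taterHecke Jn Φ hJn hinj TrZ Trn hnat T hT := by
  apply LinearMap.ext
  intro ψ
  apply tater_ext Jn Φ hinj
  intro n
  apply Subtype.ext
  rw [Module.End.mul_apply, Module.End.mul_apply, taterLevel_taterHecke, taterLevel_taterHecke,
    taterLevel_taterHecke, taterLevel_taterHecke]
  exact hTT n _ (Subtype.prop _)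

end Comm

section Congr

variable {p : ℕ} [hp : Fact p.Prime] {X : Type*} [AddGroup X]
  {J : Type*} [AddCommGroup J] {G : Type*} [Group G] [DistribMulAction G J]
  (Jn : ℕ → AddSubgroup J)
  (Φ : ∀ n, Jn n →+ (X →+ ZMod (p ^ n)))
  (hJn : ∀ n (c : J), c ∈ Jn n ↔ (p ^ n) • c = 0)
  (hinj : ∀ n, Function.Injective (Φ n))
  (ρ : G →* Module.End ℤ_[p] (taterLam Jn Φ))
  (hρ : TaterSpec Jn Φ (fun g ψ => ρ g ψ))

include hJn hinj hρ in
/-- **congruence, divisibility form**: given the Artin–Rees exponent `e` of `Λ'`, an element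
acting trivially on `J[p^(n+e)]` acts trivially on `Λ' / p^n Λ'`. -/
theorem tater_congr_dvd (e : ℕ)
    (hAR : ∀ (n : ℕ) (ψ : X →+ ℤ_[p]), ψ ∈ taterLam Jn Φ →
      (∀ x, toZModPow (n + e) (ψ x) = 0) → ∃ ψ' ∈ taterLam Jn Φ, ψ = (p : ℤ_[p]) ^ n • ψ')
    (g : G) (n : ℕ) (hg : ∀ c : J, c ∈ Jn (n + e) → g • c = c) (ψ : taterLam Jn Φ) :
    ∃ ψ' : taterLam Jn Φ, ρ g ψ - ψ = ((p : ℤ_[p]) ^ n) • ψ' := by
  obtain ⟨ψ', hψ', h⟩ := hAR n (ρ g ψ - ψ).1 (Subtype.prop _) (fun x => by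
    show toZModPow (n + e) ((ρ g ψ).1 x - ψ.1 x) = 0
    rw [map_sub, tater_congr Jn Φ hJn hinj ρ hρ g (n + e) hg ψ x, sub_self])
  exact ⟨⟨ψ', hψ'⟩, Subtype.ext h⟩

end Congr

end Fermat.Agent.S30
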