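/-
S30 project, package TATE, part 5 (helper16): operators on the Tate module `Λ' = taterLam Jn Φ`
given in "transfer-sum" form, `ψ ↦ (x ↦ ∑ k, ψ (s k x))`, matching an endomorphism `TJ` of `J`
on every level.  These are the Hecke operators in the shapes used by the abstract front end
(`hT` of `rda_main`, `hcomm` of `fre_main`, the quadratic relation of `fre_quad`).
-/
import Mathlib
import Fermat.Agent.S30.TateRange

set_option autoImplicit false
set_option linter.unusedSectionVars false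
-- needed for `Ring (Module.End ℤ_[p] ↥Λ)` when `Λ` is a submodule of `X →+ ℤ_[p]`
set_option maxSynthPendingDepth 3

namespace Fermat.Agent.S30

open PadicInt

section Op

variable {p : ℕ} [hp : Fact p.Prime] {X : Type*} [AddGroup X]
  {J : Type*} [AddCommGroup J] {G : Type*} [Group G] [DistribMulAction G J]
  (Jn : ℕ → AddSubgroup J)
  (Φ : ∀ n, Jn n →+ (X →+ ZMod (p ^ n)))
  (hJn : ∀ n (c : J), c ∈ Jn n ↔ (p ^ n) • c = 0)
  (hinj : ∀ n, Function.Injective (Φ n))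
  (TrZ : (X →+ ℤ_[p]) → (X →+ ℤ_[p])) (T : J →+ J)
  (hlevT : ∀ (ψ : X →+ ℤ_[p]) (n : ℕ) (c c' : Jn n), (∀ x, Φ n c x = toZModPow n (ψ x)) →
    (c' : J) = T c → ∀ x, Φ n c' x = toZModPow n (TrZ ψ x))

include hJn hlevT in
/-- an operator on homs which matches `T` on every level preserves `Λ'` -/
theorem tater_op_mem (ψ : X →+ ℤ_[p]) (hψ : ψ ∈ taterLam Jn Φ) : TrZ ψ ∈ taterLam Jn Φ := by
  intro n
  obtain ⟨c, hc⟩ := hψ n
  exact ⟨⟨T c, tater_T_mem Jn hJn T n c c.2⟩, hlevT ψ n c _ hc rfl⟩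

include hJn hlevT in
/-- the level maps intertwine the operator with `T` -/
theorem taterLevel_op (ψ : taterLam Jn Φ) (hmem : TrZ ψ.1 ∈ taterLam Jn Φ) (n : ℕ) :
    ((taterLevel Jn Φ hinj n ⟨TrZ ψ.1, hmem⟩ : Jn n) : J) =
      T ((taterLevel Jn Φ hinj n ψ : Jn n) : J) := by
  have h1 := hlevT ψ.1 n (taterLevel Jn Φ hinj n ψ)
    ⟨T (taterLevel Jn Φ hinj n ψ : Jn n), tater_T_mem Jn hJn T n _ (Subtype.prop _)⟩
    (taterLevel_spec Jn Φ hinj n ψ) rfl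
  rw [taterLevel_eq Jn Φ hinj n ⟨TrZ ψ.1, hmem⟩ _ h1]

/-- the operator on `Λ'`, as a `ℤ_p`-linear endomorphism -/
noncomputable def taterOp : Module.End ℤ_[p] (taterLam Jn Φ) where
  toFun ψ := ⟨TrZ ψ.1, tater_op_mem Jn Φ hJn TrZ T hlevT ψ.1 ψ.2⟩
  map_add' := by
    intro ψ₁ ψ₂
    apply tater_ext Jn Φ hinj
    intro n
    apply Subtype.ext
    rw [taterLevel_op Jn Φ hJn hinj TrZ T hlevT (ψ₁ + ψ₂) _ n, map_add, map_add,
      AddSubgroup.coe_add, AddSubgroup.coe_add,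
      taterLevel_op Jn Φ hJn hinj TrZ T hlevT ψ₁ _ n,
      taterLevel_op Jn Φ hJn hinj TrZ T hlevT ψ₂ _ n, map_add]
  map_smul' := by
    intro a ψ
    apply tater_ext Jn Φ hinj
    intro n
    apply Subtype.ext
    rw [taterLevel_op Jn Φ hJn hinj TrZ T hlevT (a • ψ) _ n, RingHom.id_apply,
      taterLevel_smul, taterLevel_smul, AddSubgroup.coe_nsmul, AddSubgroup.coe_nsmul,
      taterLevel_op Jn Φ hJn hinj TrZ T hlevT ψ _ n, map_nsmul]

theorem taterOp_coe (ψ : taterLam Jn Φ) :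
    (taterOp Jn Φ hJn hinj TrZ T hlevT ψ : X →+ ℤ_[p]) = TrZ ψ.1 :=
  rfl

/-- the level maps intertwine the operator on `Λ'` with `T` -/
theorem taterLevel_taterOp (ψ : taterLam Jn Φ) (n : ℕ) :
    ((taterLevel Jn Φ hinj n (taterOp Jn Φ hJn hinj TrZ T hlevT ψ) : Jn n) : J) =
      T ((taterLevel Jn Φ hinj n ψ : Jn n) : J) :=
  taterLevel_op Jn Φ hJn hinj TrZ T hlevT ψ _ n

variable (ρ : G →* Module.End ℤ_[p] (taterLam Jn Φ))
  (hρ : TaterSpec Jn Φ (fun g ψ => ρ g ψ))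

include hρ in
/-- the operator commutes with the Galois action on `Λ'` if `T` commutes with the action on
the torsion of `J` -/
theorem taterOp_comm_act (g : G) (hTg : ∀ n (c : J), c ∈ Jn n → T (g • c) = g • T c) :
    taterOp Jn Φ hJn hinj TrZ T hlevT * ρ g = ρ g * taterOp Jn Φ hJn hinj TrZ T hlevT := by
  apply LinearMap.ext
  intro ψ
  apply tater_ext Jn Φ hinj
  intro n
  apply Subtype.ext
  rw [Module.End.mul_apply, Module.End.mul_apply, taterLevel_taterOp,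
    taterLevel_act Jn Φ hJn hinj ρ hρ g ψ n,
    taterLevel_act Jn Φ hJn hinj ρ hρ g _ n, taterLevel_taterOp]
  exact hTg n _ (Subtype.prop _)

include hρ in
/-- **Eichler–Shimura on `Λ'`**: if `g² - T g + ℓ = 0` on every `J[p^n]`, then
`ρ g (ρ g ψ) - T_Λ (ρ g ψ) + ℓ • ψ = 0` on `Λ'`. -/
theorem taterOp_quad (g : G) (ℓ : ℕ)
    (hES : ∀ n (c : J), c ∈ Jn n → g • g • c - T (g • c) + ℓ • c = 0) (ψ : taterLam Jn Φ) :
    ρ g (ρ g ψ) - taterOp Jn Φ hJn hinj TrZ T hlevT (ρ g ψ) + ℓ • ψ = 0 := by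
  apply tater_ext Jn Φ hinj
  intro n
  apply Subtype.ext
  rw [map_add, AddMonoidHom.map_sub, map_nsmul, map_zero, AddSubgroup.coe_add,
    AddSubgroup.coe_sub, AddSubgroup.coe_nsmul, AddSubgroup.coe_zero,
    taterLevel_taterOp, taterLevel_act Jn Φ hJn hinj ρ hρ g (ρ g ψ) n,
    taterLevel_act Jn Φ hJn hinj ρ hρ g ψ n]
  exact hES n _ (Subtype.prop _)

include hρ in
/-- Eichler–Shimura on `Λ'`, as an identity of endomorphisms. -/
theorem taterOp_quad_end (g : G) (ℓ : ℕ)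
    (hES : ∀ n (c : J), c ∈ Jn n → g • g • c - T (g • c) + ℓ • c = 0) :
    ρ g * ρ g - taterOp Jn Φ hJn hinj TrZ T hlevT * ρ g
      + (ℓ : ℤ_[p]) • (1 : Module.End ℤ_[p] (taterLam Jn Φ)) = 0 := by
  apply LinearMap.ext
  intro ψ
  have h := taterOp_quad Jn Φ hJn hinj TrZ T hlevT ρ hρ g ℓ hES ψ
  simp only [LinearMap.add_apply, LinearMap.sub_apply, Module.End.mul_apply,
    LinearMap.smul_apply, Module.End.one_apply, LinearMap.zero_apply]
  rw [Nat.cast_smul_eq_nsmul]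
  exact h

end Op

section Sum

variable {p : ℕ} [hp : Fact p.Prime] {X : Type*} [AddGroup X]
  {J : Type*} [AddCommGroup J] {G : Type*} [Group G] [DistribMulAction G J]
  (Jn : ℕ → AddSubgroup J)
  (Φ : ∀ n, Jn n →+ (X →+ ZMod (p ^ n)))
  (hJn : ∀ n (c : J), c ∈ Jn n ↔ (p ^ n) • c = 0)
  (hinj : ∀ n, Function.Injective (Φ n))
  {K : Type*} [Fintype K] (s : K → X → X)
  (hs : ∀ (ψ : X →+ ℤ_[p]) (x y : X),
    ∑ k, ψ (s k (x + y)) = ∑ k, ψ (s k x) + ∑ k, ψ (s k y))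
  (TJ : J →+ J)
  (hΦT : ∀ (n : ℕ) (y y' : Jn n), (y' : J) = TJ (y : J) →
    ∀ x, Φ n y' x = ∑ k, Φ n y (s k x))

/-- the transfer-sum operator on homs `X →+ ℤ_p` -/
noncomputable def taterSumHom (ψ : X →+ ℤ_[p]) : X →+ ℤ_[p] :=
  AddMonoidHom.mk' (fun x => ∑ k, ψ (s k x)) (hs ψ)

theorem taterSumHom_apply (ψ : X →+ ℤ_[p]) (x : X) :
    taterSumHom s hs ψ x = ∑ k, ψ (s k x) :=
  rfl

include hΦT in
theorem tater_sum_lev (ψ : X →+ ℤ_[p]) (n : ℕ) (c c' : Jn n)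
    (hc : ∀ x, Φ n c x = toZModPow n (ψ x)) (hc' : (c' : J) = TJ c) (x : X) :
    Φ n c' x = toZModPow n (taterSumHom s hs ψ x) := by
  rw [hΦT n c c' hc' x, taterSumHom_apply, map_sum]
  exact Finset.sum_congr rfl (fun k _ => hc (s k x))

/-- the transfer-sum operator on `Λ'`, as a `ℤ_p`-linear endomorphism -/
noncomputable def taterSum : Module.End ℤ_[p] (taterLam Jn Φ) :=
  taterOp Jn Φ hJn hinj (taterSumHom s hs) TJ (tater_sum_lev Jn Φ s hs TJ hΦT)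

/-- the defining formula (shape `hT` of `rda_main`) -/
theorem taterSum_apply (ψ : taterLam Jn Φ) (x : X) :
    ((taterSum Jn Φ hJn hinj s hs TJ hΦT ψ : taterLam Jn Φ) : X →+ ℤ_[p]) x =
      ∑ k, (ψ : X →+ ℤ_[p]) (s k x) :=
  rfl

theorem taterLevel_taterSum (ψ : taterLam Jn Φ) (n : ℕ) :
    ((taterLevel Jn Φ hinj n (taterSum Jn Φ hJn hinj s hs TJ hΦT ψ) : Jn n) : J) =
      TJ ((taterLevel Jn Φ hinj n ψ : Jn n) : J) :=
  taterLevel_taterOp Jn Φ hJn hinj _ TJ _ ψ n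

variable (ρ : G →* Module.End ℤ_[p] (taterLam Jn Φ))
  (hρ : TaterSpec Jn Φ (fun g ψ => ρ g ψ))

include hρ in
/-- commutation with the Galois action (shape `hcomm` of `fre_main`) -/
theorem taterSum_comm_act (g : G) (hTG : ∀ n (y : J), y ∈ Jn n → TJ (g • y) = g • TJ y) :
    taterSum Jn Φ hJn hinj s hs TJ hΦT * ρ g = ρ g * taterSum Jn Φ hJn hinj s hs TJ hΦT :=
  taterOp_comm_act Jn Φ hJn hinj _ TJ _ ρ hρ g hTG

include hρ in
/-- Eichler–Shimura (shape of the hypothesis of `fre_quad`) -/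
theorem taterSum_quad (g : G) (ℓ : ℕ)
    (hES : ∀ n (y : J), y ∈ Jn n → g • g • y - TJ (g • y) + ℓ • y = 0) (ψ : taterLam Jn Φ) :
    ρ g (ρ g ψ) - taterSum Jn Φ hJn hinj s hs TJ hΦT (ρ g ψ) + ℓ • ψ = 0 :=
  taterOp_quad Jn Φ hJn hinj _ TJ _ ρ hρ g ℓ hES ψ

include hρ in
/-- Eichler–Shimura as an identity of endomorphisms (shape of `frab_main`) -/
theorem taterSum_quad_end (g : G) (ℓ : ℕ)
    (hES : ∀ n (y : J), y ∈ Jn n → g • g • y - TJ (g • y) + ℓ • y = 0) :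
    ρ g * ρ g - taterSum Jn Φ hJn hinj s hs TJ hΦT * ρ g
      + (ℓ : ℤ_[p]) • (1 : Module.End ℤ_[p] (taterLam Jn Φ)) = 0 :=
  taterOp_quad_end Jn Φ hJn hinj _ TJ _ ρ hρ g ℓ hES

end Sum

end Fermat.Agent.S30
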