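/-
S30 project, package TATE, part 6 (helper16): the Tate half of the abstract front end, in the
binders of the skeleton statement `frt_abs`: the module `Λ'`, the Galois action, the
transfer-sum Hecke operators and their properties, in the literal shapes consumed by
`rda_main` (`hT`), `fre_main` (`hcomm`, quadratic relation, congruence) .
-/
import Mathlib
import Fermat.Agent.S30.TateSum
import Fermat.Agent.S30.TateHecke
import Fermat.Agent.S30.ArtinRees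

set_option autoImplicit false
set_option maxSynthPendingDepth 3

namespace Fermat.Agent.S30

/-- **The Tate half of the abstract front end.** -/
theorem tater_front (p : ℕ) [Fact p.Prime]
    {X : Type*} [AddGroup X] [AddGroup.FG X] (S : Set X)
    {J : Type*} [AddCommGroup J] {G : Type*} [Group G] [DistribMulAction G J]
    (Jn : ℕ → AddSubgroup J) (hJn : ∀ (n : ℕ) (y : J), y ∈ Jn n ↔ p ^ n • y = 0)
    (Φ : ∀ n : ℕ, ↥(Jn n) →+ (X →+ ZMod (p ^ n)))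
    (hΦ : ∀ n, Function.Injective (Φ n))
    (hΦS : ∀ (n : ℕ) (ψ : X →+ ZMod (p ^ n)), (∀ s ∈ S, ψ s = 0) → ψ ∈ Set.range (Φ n))
    (hlev : ∀ (n : ℕ) (y : Jn (n + 1)) (y' : Jn n), (y' : J) = p • (y : J) →
      ∀ x, Φ n y' x = ZMod.castHom (pow_dvd_pow p n.le_succ) (ZMod (p ^ n)) (Φ (n + 1) y x))
    {ι : Type*} {K : ι → Type*} [∀ i, Fintype (K i)] (s : ∀ i, K i → X → X)
    (hs : ∀ (i : ι) (ψ : X →+ ℤ_[p]) (x y : X),
      ∑ k, ψ (s i k (x + y)) = ∑ k, ψ (s i k x) + ∑ k, ψ (s i k y))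
    (TJ : ι → J →+ J)
    (hΦT : ∀ (i : ι) (n : ℕ) (y y' : Jn n), (y' : J) = TJ i (y : J) →
      ∀ x, Φ n y' x = ∑ k, Φ n y (s i k x))
    (hTG : ∀ (i : ι) (g : G) (n : ℕ) (y : J), y ∈ Jn n → TJ i (g • y) = g • TJ i y) :
    ∃ (Λ : Submodule ℤ_[p] (X →+ ℤ_[p])) (ρ : G →* Module.End ℤ_[p] Λ)
      (T : ι → Module.End ℤ_[p] Λ),
      (∀ ψ : X →+ ℤ_[p], (∀ s ∈ S, ψ s = 0) → ψ ∈ Λ) ∧
      (∀ i (ψ : Λ) (x : X), ((T i ψ : Λ) : X →+ ℤ_[p]) x = ∑ k, (ψ : X →+ ℤ_[p]) (s i k x)) ∧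
      (∀ i g, T i * ρ g = ρ g * T i) ∧
      (∀ g, (∀ n y, y ∈ Jn n → g • y = y) → ρ g = 1) ∧
      (∀ g i (ℓ : ℕ), (∀ n y, y ∈ Jn n → g • g • y - TJ i (g • y) + ℓ • y = 0) →
        ∀ x : Λ, ρ g (ρ g x) - T i (ρ g x) + ℓ • x = 0) ∧
      ∃ e : ℕ, ∀ n g, (∀ y, y ∈ Jn (n + e) → g • y = y) →
        ∀ x : Λ, ∃ y : Λ, ρ g x - x = (p : ℤ_[p]) ^ n • y := by
  obtain ⟨ρ, hρ⟩ := tater_main (G := G) Jn Φ hJn hΦ hlev
  obtain ⟨e, he⟩ := arr_main p (taterLam Jn Φ)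
  refine ⟨taterLam Jn Φ, ρ,
    fun i => taterSum Jn Φ hJn hΦ (s i) (hs i) (TJ i) (hΦT i), ?_, ?_, ?_, ?_, ?_, e, ?_⟩
  · intro ψ hψ
    exact tateLam_le_taterLam Jn Φ S hΦS hψ
  · intro i ψ x
    exact taterSum_apply Jn Φ hJn hΦ (s i) (hs i) (TJ i) (hΦT i) ψ x
  · intro i g
    exact taterSum_comm_act Jn Φ hJn hΦ (s i) (hs i) (TJ i) (hΦT i) ρ hρ g (hTG i g)
  · intro g hg
    exact tater_eq_one Jn Φ hJn hΦ ρ hρ g hg
  · intro g i ℓ hES x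
    exact taterSum_quad Jn Φ hJn hΦ (s i) (hs i) (TJ i) (hΦT i) ρ hρ g ℓ hES x
  · intro n g hg x
    exact tater_congr_dvd Jn Φ hJn hΦ ρ hρ e he g n hg x

end Fermat.Agent.S30
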