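import Mathlib
import Fermat.Agent.S30.TateFront
import Fermat.Agent.S30.ReduceAdic
import Fermat.Agent.S30.FrontEig

/-!
# S30, the abstract front end

`frt_abs`: from a system of levels `Jn n = J[p^n]` of an abelian group `J` with an action of a
group `G`, injective comparison maps `Φ n : Jn n → Hom(X, ℤ/p^n)` (`X` a finitely generated
group) whose ranges contain the homomorphisms killing a set `S`, compatible with multiplication
by `p`, and intertwining operators `TJ i` on `J` with transfer sums `ψ ↦ (x ↦ ∑ k, ψ (s i k x))`,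
together with a nonzero homomorphism `v : X → 𝒪` (`𝒪` a principal ideal domain containing
`ℤ_[p]`) killing `S` which is an eigenvector of the transfer sums with eigenvalues `a i`:

a nonzero finite free `𝒪`-module `V` with an action `ρ` of `G` such that

* `ρ g = 1` if `g` acts trivially on all levels;
* `ρ g ^ 2 - a i • ρ g + ℓ = 0` if `g ^ 2 - TJ i g + ℓ = 0` on all levels;
* `(ρ g - 1) V ⊆ p ^ n V` if `g` acts trivially on the level `n + e` (`e` a constant).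

It is the composition of `tater_front` (the Tate module and its operators), `rda_main` (the
eigenvector in `𝒪 ⊗ Λ`) and `fre_main` (the joint eigenspace in the base change).
-/

set_option autoImplicit false

open TensorProduct

namespace Fermat.Agent.S30

/-- **The abstract front end of S30.** -/
theorem frt_abs (p : ℕ) [Fact p.Prime]
    {X : Type} [AddGroup X] [AddGroup.FG X] (S : Set X)
    {J : Type} [AddCommGroup J] {G : Type} [Group G] [DistribMulAction G J]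
    (Jn : ℕ → AddSubgroup J) (hJn : ∀ (n : ℕ) (y : J), y ∈ Jn n ↔ p ^ n • y = 0)
    (Φ : ∀ n : ℕ, ↥(Jn n) →+ (X →+ ZMod (p ^ n)))
    (hΦ : ∀ n, Function.Injective (Φ n))
    (hΦS : ∀ (n : ℕ) (ψ : X →+ ZMod (p ^ n)), (∀ s ∈ S, ψ s = 0) → ψ ∈ Set.range (Φ n))
    (hlev : ∀ (n : ℕ) (y : Jn (n + 1)) (y' : Jn n), (y' : J) = p • (y : J) →
      ∀ x, Φ n y' x = ZMod.castHom (pow_dvd_pow p n.le_succ) (ZMod (p ^ n)) (Φ (n + 1) y x))
    {ι : Type} {K : ι → Type} [∀ i, Fintype (K i)] (s : ∀ i, K i → X → X)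
    (hs : ∀ (i : ι) (ψ : X →+ ℤ_[p]) (x y : X),
      ∑ k, ψ (s i k (x + y)) = ∑ k, ψ (s i k x) + ∑ k, ψ (s i k y))
    (TJ : ι → J →+ J)
    (hΦT : ∀ (i : ι) (n : ℕ) (y y' : Jn n), (y' : J) = TJ i (y : J) →
      ∀ x, Φ n y' x = ∑ k, Φ n y (s i k x))
    (hTG : ∀ (i : ι) (g : G) (n : ℕ) (y : J), y ∈ Jn n → TJ i (g • y) = g • TJ i y)
    {𝒪 : Type} [CommRing 𝒪] [IsDomain 𝒪] [IsPrincipalIdealRing 𝒪]
    (ζ : ℤ_[p] →+* 𝒪) (hζ : Function.Injective ζ)
    (a : ι → 𝒪) (v : X →+ 𝒪) (hv : v ≠ 0) (hvS : ∀ x ∈ S, v x = 0)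
    (hTv : ∀ i x, ∑ k, v (s i k x) = a i * v x) :
    ∃ (V : Type) (_ : AddCommGroup V) (_ : Module 𝒪 V) (_ : Module.Free 𝒪 V)
      (_ : Module.Finite 𝒪 V) (_ : Nontrivial V) (ρ : G →* Module.End 𝒪 V),
      (∀ g : G, (∀ (n : ℕ) (y : J), y ∈ Jn n → g • y = y) → ρ g = 1) ∧
      (∀ (g : G) (i : ι) (ℓ : ℕ),
        (∀ (n : ℕ) (y : J), y ∈ Jn n → g • g • y - TJ i (g • y) + ℓ • y = 0) →
          ρ g * ρ g - a i • ρ g + (ℓ : 𝒪) • (1 : Module.End 𝒪 V) = 0) ∧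
      ∃ e : ℕ, ∀ (n : ℕ) (g : G), (∀ y : J, y ∈ Jn (n + e) → g • y = y) →
        ∀ w : V, ρ g w - w ∈ (Ideal.span {(p : 𝒪)} ^ n) • (⊤ : Submodule 𝒪 V) := by
  classical
  obtain ⟨Λ, ρ, T, hΛS, hT, hcomm, hone, hquad, e, hcong⟩ :=
    tater_front p S Jn hJn Φ hΦ hΦS hlev s hs TJ hΦT hTG
  letI : Algebra ℤ_[p] 𝒪 := ζ.toAlgebra
  have hinj : Function.Injective (algebraMap ℤ_[p] 𝒪) := hζ
  obtain ⟨w₀, hw₀, hw⟩ := rda_main p S Λ hΛS hinj s T hT a v hv hvS hTv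
  have : Module.Finite ℤ_[p] Λ := arr_fg p Λ
  have : Module.Free ℤ_[p] Λ := arr_free p Λ
  obtain ⟨V, iA, iM, iFree, iFin, iNt, ρV, h1, h2, h3⟩ :=
    @fre_main ℤ_[p] 𝒪 _ _ _ _ _ Λ _ _ _ _ G _ ρ ι T a hcomm w₀ hw₀
      (by with_reducible_and_instances exact hw)
  refine ⟨V, iA, iM, iFree, iFin, iNt, ρV, ?_, ?_, e, ?_⟩
  · intro g hg
    exact h1 g (hone g hg)
  · intro g i ℓ hES
    exact h3 g i ℓ (by with_reducible_and_instances exact hquad g i ℓ hES)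
  · intro n g hg w
    have hpn : algebraMap ℤ_[p] 𝒪 ((p : ℤ_[p]) ^ n) = (p : 𝒪) ^ n := by
      rw [map_pow, map_natCast]
    refine h2 g (Ideal.span {(p : 𝒪)} ^ n) ((p : ℤ_[p]) ^ n) ?_ ?_
      (by with_reducible_and_instances exact hcong n g hg) w
    · rw [hpn]
      exact Ideal.pow_mem_pow (Ideal.mem_span_singleton_self _) n
    · intro h0
      have h4 : ((p : ℤ_[p]) ^ n) = 0 := hinj (by rw [h0, map_zero])
      exact pow_ne_zero n (Nat.cast_ne_zero.mpr (Fact.out : p.Prime).ne_zero) h4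

end Fermat.Agent.S30
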