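import Fermat.Agent.S29.TorsRep

/-!
# S30 / S31, package TORS-LEVEL

The Galois side of `J₀(N)[m]` for an arbitrary modulus `m` (in use: `m = p ^ n`):

* `tlv_open`, `tlv_level`, `tlv_level_rep`: if `J₀(N)[m]` is finite, an open subgroup
  `Gal(ℚ̄/L)`, `L` a number field, acts trivially on it;
* `tlv_frobenius`, `tlv_inertia`, `tlv_hecke_galois` (and the `Module.End` forms
  `tlv_rep_frobenius`, `tlv_rep_inertia`, `tlv_rep_hecke_galois`): the Eichler–Shimura relation,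
  the triviality of inertia and the commutation of `T_ℓ` with the Galois action on
  `J₀(N)[p ^ n]`, for primes `ℓ ∤ N`, `ℓ ≠ p`;
* `tlv_galois_nsmul`, `tlv_hecke_nsmul`, `tlv_mem_torsion`, ...: bookkeeping for the levels.
-/

set_option autoImplicit false

open ModularCurve AlgebraicCurve

namespace Fermat.Agent.S30

open Fermat.Agent.S29

local notation "Qb" => AlgebraicClosure ℚ

/-- A prime `ℓ ∤ N`, `ℓ ≠ p` does not divide `N * p ^ n`. -/
theorem tlv_not_dvd {N p ℓ : ℕ} (hp : p.Prime) (hℓ : ℓ.Prime) (hℓN : ¬ ℓ ∣ N) (hℓp : ℓ ≠ p)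
    (n : ℕ) : ¬ ℓ ∣ N * p ^ n := by
  intro h
  rcases (Nat.Prime.dvd_mul hℓ).mp h with h1 | h1
  · exact hℓN h1
  · exact hℓp ((Nat.prime_dvd_prime_iff_eq hℓ hp).mp (hℓ.dvd_of_dvd_pow h1))

/-- Membership in the `m`-torsion, with a natural number multiple. -/
theorem tlv_mem_torsion (N m : ℕ) (x : JZero N) :
    x ∈ Pic0.torsion Qb (modularFunctionFieldBar N) m ↔ m • x = 0 := by
  rw [Pic0.mem_torsion, natCast_zsmul]

/-- The Galois action commutes with multiplication by natural numbers. -/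
theorem tlv_galois_nsmul (N : ℕ) [NeZero N] (σ : Qb ≃ₐ[ℚ] Qb) (k : ℕ) (x : JZero N) :
    σ • (k • x) = k • (σ • x) :=
  map_nsmul (DistribSMul.toAddMonoidHom (JZero N) σ) k x

/-- The Hecke operators commute with multiplication by natural numbers. -/
theorem tlv_hecke_nsmul (N : ℕ) [NeZero N] (ℓ : Nat.Primes) (k : ℕ) (x : JZero N) :
    heckeOperatorBar N ℓ (k • x) = k • heckeOperatorBar N ℓ x :=
  map_nsmul (heckeOperatorBar N ℓ) k x

/-- The Galois action preserves the `m`-torsion. -/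
theorem tlv_galois_mem (N m : ℕ) [NeZero N] (σ : Qb ≃ₐ[ℚ] Qb) (x : JZero N)
    (hx : x ∈ Pic0.torsion Qb (modularFunctionFieldBar N) m) :
    σ • x ∈ Pic0.torsion Qb (modularFunctionFieldBar N) m := by
  rw [tlv_mem_torsion] at hx ⊢
  exact Fermat.Agent.S37.est_galois_torsion N m σ x hx

/-- The Hecke operators preserve the `m`-torsion. -/
theorem tlv_hecke_mem (N m : ℕ) [NeZero N] (ℓ : Nat.Primes) (x : JZero N)
    (hx : x ∈ Pic0.torsion Qb (modularFunctionFieldBar N) m) :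
    heckeOperatorBar N ℓ x ∈ Pic0.torsion Qb (modularFunctionFieldBar N) m := by
  rw [tlv_mem_torsion] at hx ⊢
  rw [← tlv_hecke_nsmul, hx, map_zero]

/-- Multiplication by `d` maps the `m * d`-torsion into the `m`-torsion. -/
theorem tlv_nsmul_mem (N m d : ℕ) (x : JZero N)
    (hx : x ∈ Pic0.torsion Qb (modularFunctionFieldBar N) (m * d)) :
    d • x ∈ Pic0.torsion Qb (modularFunctionFieldBar N) m := by
  rw [tlv_mem_torsion] at hx ⊢
  rw [← mul_nsmul, mul_comm d m]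
  exact hx

/-! ### Finite level -/

/-- **The stabiliser of a finite torsion subgroup** contains `Gal(ℚ̄/L)` for a number field `L`
(finite set form). -/
theorem tlv_open (N m : ℕ) [NeZero N]
    (hfin : Finite ↥(Pic0.torsion Qb (modularFunctionFieldBar N) m)) :
    FlOpen {σ : Qb ≃ₐ[ℚ] Qb | JZero.torsionGaloisRep N m σ = 1} := by
  classical
  have := hfin
  have := Fintype.ofFinite ↥(Pic0.torsion Qb (modularFunctionFieldBar N) m)
  have h1 := flOpen_forall_mem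
    (Finset.univ : Finset ↥(Pic0.torsion Qb (modularFunctionFieldBar N) m))
    (fun x σ => JZero.torsionGaloisRep N m σ x = x) (fun x _ => trs_open N m x)
  refine h1.mono ?_
  intro σ hσ
  exact LinearMap.ext fun x => hσ x (Finset.mem_univ x)

/-- **Finite level of the torsion representation**, intermediate field form. -/
theorem tlv_level_rep (N m : ℕ) [NeZero N]
    (hfin : Finite ↥(Pic0.torsion Qb (modularFunctionFieldBar N) m)) :
    ∃ L : IntermediateField ℚ Qb, FiniteDimensional ℚ L ∧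
      ∀ σ : Qb ≃ₐ[ℚ] Qb, (∀ y ∈ L, σ y = y) → JZero.torsionGaloisRep N m σ = 1 :=
  (tlv_open N m hfin).exists_field

/-- **Finite level of the torsion points**: if `J₀(N)[m]` is finite, there is a number field `L`
such that `Gal(ℚ̄/L)` fixes every point killed by `m`. -/
theorem tlv_level (N m : ℕ) [NeZero N]
    (hfin : Finite ↥(Pic0.torsion Qb (modularFunctionFieldBar N) m)) :
    ∃ L : IntermediateField ℚ Qb, FiniteDimensional ℚ L ∧
      ∀ σ : Qb ≃ₐ[ℚ] Qb, (∀ y ∈ L, σ y = y) → ∀ x : JZero N, m • x = 0 → σ • x = x := by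
  obtain ⟨L, hL, h⟩ := tlv_level_rep N m hfin
  refine ⟨L, hL, fun σ hσ x hx => ?_⟩
  have h1 := LinearMap.congr_fun (h σ hσ)
    (⟨x, (tlv_mem_torsion N m x).mpr hx⟩ : ↥(Pic0.torsion Qb (modularFunctionFieldBar N) m))
  exact congrArg Subtype.val h1

/-! ### Eichler–Shimura at the levels `p ^ n` -/

section Levels

variable (N : ℕ) [NeZero N] {p ℓ : ℕ} (hp : p.Prime) (hℓ : ℓ.Prime) (hℓN : ¬ ℓ ∣ N)
  (hℓp : ℓ ≠ p) (n : ℕ)

include hp hℓN hℓp in
/-- **Eichler–Shimura on `J₀(N)[p ^ n]`**: `σ² - T_ℓ σ + ℓ = 0` for a Frobenius element `σ` at a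
prime `ℓ ∤ N`, `ℓ ≠ p`. -/
theorem tlv_frobenius (A : ValuationSubring Qb) (hA : A.LiesOverPrime ℓ) (σ : Qb ≃ₐ[ℚ] Qb)
    (hσ : A.IsFrobeniusAt σ ℓ) (x : JZero N) (hx : p ^ n • x = 0) :
    σ • σ • x - heckeOperatorBar N ⟨ℓ, hℓ⟩ (σ • x) + ℓ • x = 0 :=
  Fermat.Agent.S37.est_frobenius N (p ^ n) ℓ hℓ (tlv_not_dvd hp hℓ hℓN hℓp n) A hA σ hσ x hx

include hp hℓ hℓN hℓp in
/-- **Inertia at `ℓ ∤ N`, `ℓ ≠ p` acts trivially on `J₀(N)[p ^ n]`.** -/
theorem tlv_inertia (A : ValuationSubring Qb) (hA : A.LiesOverPrime ℓ) (σ : Qb ≃ₐ[ℚ] Qb)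
    (hσ : σ ∈ A.inertiaSubgroupIn ℚ) (x : JZero N) (hx : p ^ n • x = 0) : σ • x = x :=
  Fermat.Agent.S37.est_inertia N (p ^ n) ℓ hℓ (tlv_not_dvd hp hℓ hℓN hℓp n) A hA σ hσ x hx

include hp hℓN hℓp in
/-- **`T_ℓ` commutes with the Galois action on `J₀(N)[p ^ n]`** (`ℓ ∤ N`, `ℓ ≠ p`). -/
theorem tlv_hecke_galois (τ : Qb ≃ₐ[ℚ] Qb) (x : JZero N) (hx : p ^ n • x = 0) :
    heckeOperatorBar N ⟨ℓ, hℓ⟩ (τ • x) = τ • heckeOperatorBar N ⟨ℓ, hℓ⟩ x :=
  Fermat.Agent.S37.est_hecke_galois N (p ^ n) ℓ hℓ (tlv_not_dvd hp hℓ hℓN hℓp n) τ x hx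

include hp hℓN hℓp in
/-- Eichler–Shimura on `J₀(N)[p ^ n]`, in the endomorphism ring. -/
theorem tlv_rep_frobenius (A : ValuationSubring Qb) (hA : A.LiesOverPrime ℓ)
    (σ : Qb ≃ₐ[ℚ] Qb) (hσ : A.IsFrobeniusAt σ ℓ) :
    JZero.torsionGaloisRep N (p ^ n) σ * JZero.torsionGaloisRep N (p ^ n) σ
      - trsHecke N (p ^ n) ⟨ℓ, hℓ⟩ * JZero.torsionGaloisRep N (p ^ n) σ
      + (ℓ : ZMod (p ^ n)) •
        (1 : Module.End (ZMod (p ^ n)) ↥(Pic0.torsion Qb (modularFunctionFieldBar N) (p ^ n)))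
      = 0 :=
  trs_frobenius N (p ^ n) ℓ hℓ (tlv_not_dvd hp hℓ hℓN hℓp n) A hA σ hσ

include hp hℓ hℓN hℓp in
/-- Inertia at `ℓ ∤ N`, `ℓ ≠ p` acts trivially on `J₀(N)[p ^ n]`, in the endomorphism ring. -/
theorem tlv_rep_inertia (A : ValuationSubring Qb) (hA : A.LiesOverPrime ℓ) (σ : Qb ≃ₐ[ℚ] Qb)
    (hσ : σ ∈ A.inertiaSubgroupIn ℚ) : JZero.torsionGaloisRep N (p ^ n) σ = 1 :=
  trs_inertia N (p ^ n) ℓ hℓ (tlv_not_dvd hp hℓ hℓN hℓp n) A hA σ hσ

include hp hℓN hℓp in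
/-- `T_ℓ` commutes with the Galois action on `J₀(N)[p ^ n]`, in the endomorphism ring. -/
theorem tlv_rep_hecke_galois (σ : Qb ≃ₐ[ℚ] Qb) :
    trsHecke N (p ^ n) ⟨ℓ, hℓ⟩ * JZero.torsionGaloisRep N (p ^ n) σ
      = JZero.torsionGaloisRep N (p ^ n) σ * trsHecke N (p ^ n) ⟨ℓ, hℓ⟩ :=
  trs_hecke_galois N (p ^ n) ℓ hℓ (tlv_not_dvd hp hℓ hℓN hℓp n) σ

end Levels

end Fermat.Agent.S30
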