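import Fermat.Agent.S30.LatticeCyclo
import Fermat.Agent.S30.TorsLevel

/-!
# S30 preparation: from a lattice cut out of the Tate module of `J₀(N)` to S30

`latf_s30`: the conclusion of S30 from a nonzero finite free `𝒪'`-module `V` with an action `ρ`
of `Gal(ℚ̄/ℚ)` whose behaviour is controlled by the action on the torsion levels
`Jn n = J₀(N)[p ^ n]`:

* `ρ g = 1` if `g` fixes every `Jn n`;
* `ρ g ^ 2 - χ(T_ℓ) • ρ g + ℓ = 0` if `g ^ 2 - T_ℓ g + ℓ = 0` on every `Jn n`;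
* `ρ g ≡ 1` modulo `p ^ n` if `g` fixes `Jn (n + e)`.

(Eichler–Shimura at the torsion levels `tlv_frobenius` / `tlv_inertia`, the number field of a
finite torsion level `tlv_level`, and `latc_s30`.)
-/

set_option autoImplicit false

open Polynomial ModularCurve AlgebraicCurve

namespace Fermat.Agent.S30

open Fermat.Agent.S29

/-- **S30 from a lattice controlled by the torsion levels of `J₀(N)`.** -/
theorem latf_s30 (p : ℕ) [Fact p.Prime] (N : ℕ) [NeZero N] (S : Finset ℕ) (hpS : p ∈ S)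
    (𝒪' : Type) [CommRing 𝒪'] [IsDomain 𝒪'] [IsDiscreteValuationRing 𝒪']
    [IsAdicComplete (IsLocalRing.maximalIdeal 𝒪') 𝒪'] [Finite (IsLocalRing.ResidueField 𝒪')]
    [CharZero 𝒪'] (hp𝒪' : (p : 𝒪') ∈ IsLocalRing.maximalIdeal 𝒪')
    (χ : CuspForm.heckeAlgebra N 2 (↑S : Set ℕ) →+* 𝒪')
    (Jn : ℕ → AddSubgroup (JZero N)) (hJn : ∀ (n : ℕ) (y : JZero N), y ∈ Jn n ↔ p ^ n • y = 0)
    (hfin : ∀ n : ℕ,
      Finite ↥(Pic0.torsion (AlgebraicClosure ℚ) (modularFunctionFieldBar N) (p ^ n)))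
    {V : Type*} [AddCommGroup V] [Module 𝒪' V] [Module.Free 𝒪' V]
    [Module.Finite 𝒪' V] [Nontrivial V]
    (ρ : (AlgebraicClosure ℚ ≃ₐ[ℚ] AlgebraicClosure ℚ) →* Module.End 𝒪' V)
    (h1 : ∀ g : AlgebraicClosure ℚ ≃ₐ[ℚ] AlgebraicClosure ℚ,
      (∀ (n : ℕ) (y : JZero N), y ∈ Jn n → g • y = y) → ρ g = 1)
    (h2 : ∀ (g : AlgebraicClosure ℚ ≃ₐ[ℚ] AlgebraicClosure ℚ) (ℓ : ℕ) (hℓ : ℓ.Prime)
      (hℓN : ¬ ℓ ∣ N) (hℓS : ℓ ∉ (↑S : Set ℕ)),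
      (∀ (n : ℕ) (y : JZero N), y ∈ Jn n →
        g • g • y - heckeOperatorBar N ⟨ℓ, hℓ⟩ (g • y) + ℓ • y = 0) →
      ρ g * ρ g - χ (CuspForm.heckeAlgebra.T hℓ hℓN hℓS) • ρ g +
        (ℓ : 𝒪') • (1 : Module.End 𝒪' V) = 0)
    (h3 : ∃ e : ℕ, ∀ (n : ℕ) (g : AlgebraicClosure ℚ ≃ₐ[ℚ] AlgebraicClosure ℚ),
      (∀ y : JZero N, y ∈ Jn (n + e) → g • y = y) →
      ∀ w : V, ρ g w - w ∈ (Ideal.span {(p : 𝒪')} ^ n) • (⊤ : Submodule 𝒪' V)) :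
    ∃ (𝒪'' : Type) (_ : CommRing 𝒪'') (_ : IsDomain 𝒪'') (_ : IsDiscreteValuationRing 𝒪'')
      (_ : IsAdicComplete (IsLocalRing.maximalIdeal 𝒪'') 𝒪'')
      (_ : Finite (IsLocalRing.ResidueField 𝒪'')) (_ : CharZero 𝒪'')
      (_ : Algebra 𝒪' 𝒪'') (_ : Module.Finite 𝒪' 𝒪'') (_ : IsLocalHom (algebraMap 𝒪' 𝒪'')),
    Function.Injective (algebraMap 𝒪' 𝒪'') ∧
    ∃ ρ : GaloisRepAdic 𝒪'',
      (∀ (ℓ : ℕ) (hℓ : ℓ.Prime) (hℓN : ¬ ℓ ∣ N) (hℓS : ℓ ∉ (↑S : Set ℕ)),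
        ∀ A : ValuationSubring (AlgebraicClosure ℚ), A.LiesOverPrime ℓ →
          ∀ σ : AlgebraicClosure ℚ ≃ₐ[ℚ] AlgebraicClosure ℚ, A.IsFrobeniusAt σ ℓ →
            LinearMap.charpoly (ρ.ρ σ) =
              X ^ 2 - C (algebraMap 𝒪' 𝒪'' (χ (CuspForm.heckeAlgebra.T hℓ hℓN hℓS))) * X
                + C ((ℓ : 𝒪''))) ∧
      (∀ q : ℕ, q.Prime → ¬ q ∣ N → q ≠ p → ρ.IsUnramifiedAt q) := by
  have hp : p.Prime := Fact.out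
  have hℓp : ∀ ℓ : ℕ, ℓ ∉ (↑S : Set ℕ) → ℓ ≠ p := by
    rintro ℓ hℓS rfl
    exact hℓS (Finset.mem_coe.mpr hpS)
  refine latc_s30 p N S hpS 𝒪' hp𝒪' χ ρ ?_ ?_ ?_
  · intro ℓ hℓ hℓN hℓS A hA σ hσ
    refine h2 σ ℓ hℓ hℓN hℓS (fun n y hy => ?_)
    exact tlv_frobenius N hp hℓ hℓN (hℓp ℓ hℓS) n A hA σ hσ y ((hJn n y).mp hy)
  · intro q hq hqN hqp P hP σ hσ
    refine h1 σ (fun n y hy => ?_)
    exact tlv_inertia N hp hq hqN hqp n P hP σ hσ y ((hJn n y).mp hy)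
  · obtain ⟨e, he⟩ := h3
    intro n
    obtain ⟨L, hL, hfix⟩ := tlv_level N (p ^ (n + e)) (hfin (n + e))
    refine ⟨L, hL, fun σ hσ v => ?_⟩
    have h := he n σ (fun y hy => hfix σ hσ y ((hJn (n + e) y).mp hy)) v
    have hle : Ideal.span {(p : 𝒪')} ^ n ≤ IsLocalRing.maximalIdeal 𝒪' ^ n :=
      Ideal.pow_right_mono ((Ideal.span_singleton_le_iff_mem _).mpr hp𝒪') n
    exact Submodule.smul_mono_left hle h

end Fermat.Agent.S30
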