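import Mathlib
import Fermat.Prelude.Def_EllipticCurve_FrobeniusTrace
import Fermat.Prelude.Def_FLTPrelim_Ramification
import Fermat.Agent.S29.Cyclo

/-!
# S30 prep, package CYCLO-ADIC: the `p`-adic cyclotomic character of `Gal(ℚ̄/ℚ)`

* `cyaChar p : Gal(ℚ̄/ℚ) →* ℤ_[p]ˣ` (Mathlib's `cyclotomicCharacter`);
* `cya_spec` : `σ ζ = ζ ^ (χ(σ) mod p ^ n)` for `p ^ n`-th roots of unity `ζ`;
* `cya_frobenius` : `χ(σ) = ℓ` for a Frobenius element `σ` at a prime `ℓ ≠ p`;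
* `cya_inertia` : `χ = 1` on inertia at `q ≠ p`;
* `cya_congr` : `χ(σ) ≡ χ(τ)` modulo `p ^ n` if `σ` and `τ` agree on the `p ^ n`-th roots of unity.
-/

set_option autoImplicit false

namespace Fermat.Agent.S30

open Fermat.Agent.S29

local notation "Qb" => AlgebraicClosure ℚ

theorem cya_enough (p : ℕ) [Fact p.Prime] (i : ℕ) : HasEnoughRootsOfUnity Qb (p ^ i) := by
  have hp : p.Prime := Fact.out
  have : NeZero (p ^ i) := ⟨pow_ne_zero i hp.ne_zero⟩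
  infer_instance

/-- The `p`-adic cyclotomic character of `Gal(ℚ̄/ℚ)`. -/
noncomputable def cyaChar (p : ℕ) [Fact p.Prime] : (Qb ≃ₐ[ℚ] Qb) →* ℤ_[p]ˣ :=
  (cyclotomicCharacter Qb p).comp (MulSemiringAction.toRingAut (Qb ≃ₐ[ℚ] Qb) Qb)

theorem cya_spec (p : ℕ) [Fact p.Prime] (σ : Qb ≃ₐ[ℚ] Qb) (n : ℕ) (ζ : Qb)
    (hζ : ζ ^ (p ^ n) = 1) :
    σ ζ = ζ ^ (PadicInt.toZModPow n (cyaChar p σ : ℤ_[p])).val := by
  have := cya_enough p
  exact cyclotomicCharacter.spec p (MulSemiringAction.toRingAut (Qb ≃ₐ[ℚ] Qb) Qb σ) ζ hζ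

/-- The residue of a primitive `p ^ n`-th root of unity at a prime `ℓ ≠ p` has order `p ^ n`. -/
theorem cya_orderOf_residue (A : ValuationSubring Qb) {p ℓ : ℕ} (hp : p.Prime) (hℓ : ℓ.Prime)
    (hℓp : ℓ ≠ p) (hA : A.LiesOverPrime ℓ) (n : ℕ) (z : A)
    (hz : IsPrimitiveRoot (z : Qb) (p ^ n)) :
    orderOf (IsLocalRing.residue A z) = p ^ n := by
  have : Fact p.Prime := ⟨hp⟩
  have hzpow : z ^ (p ^ n) = 1 := Subtype.ext (by simpa using hz.pow_eq_one)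
  cases n with
  | zero =>
    rw [pow_zero, pow_one] at hzpow
    rw [hzpow, map_one, orderOf_one, pow_zero]
  | succ m =>
    refine orderOf_eq_prime_pow ?_ (by rw [← map_pow, hzpow, map_one])
    intro hcon
    have hw : ((z ^ (p ^ m) : A) : Qb) ^ p = 1 := by
      have : ((z ^ (p ^ m) : A) : Qb) ^ p = (z : Qb) ^ (p ^ (m + 1)) := by
        push_cast
        rw [← pow_mul, ← pow_succ]
      rw [this]
      exact hz.pow_eq_one
    have hw1 : ((z ^ (p ^ m) : A) : Qb) ≠ 1 := by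
      have : ((z ^ (p ^ m) : A) : Qb) = (z : Qb) ^ (p ^ m) := by push_cast; rfl
      rw [this]
      exact hz.pow_ne_one_of_pos_of_lt (pow_pos hp.pos m).ne'
        (Nat.pow_lt_pow_right hp.one_lt (Nat.lt_succ_self m))
    have hord := cyc_orderOf_residue A hp hℓ hℓp hA (z ^ (p ^ m)) hw hw1
    rw [map_pow, hcon, orderOf_one] at hord
    exact hp.one_lt.ne hord

/-- If `σ` acts on residues at `A` (over `ℓ ≠ p`) as the `m`-th power map, then the `p`-adic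
cyclotomic character of `σ` is `m`. -/
theorem cya_of_residue_pow (p : ℕ) [Fact p.Prime] (ℓ : ℕ) (hℓ : ℓ.Prime) (hℓp : ℓ ≠ p)
    (A : ValuationSubring Qb) (hA : A.LiesOverPrime ℓ) (σ : Qb ≃ₐ[ℚ] Qb) (m : ℕ)
    (hσ : ∀ c : A, ∃ c' : A, (c' : Qb) = σ (c : Qb) ∧
      IsLocalRing.residue A c' = IsLocalRing.residue A c ^ m) :
    ((cyaChar p σ : ℤ_[p]ˣ) : ℤ_[p]) = (m : ℤ_[p]) := by
  have hp : p.Prime := Fact.out
  rw [← PadicInt.ext_of_toZModPow]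
  intro n
  rw [map_natCast]
  have : NeZero (p ^ n) := ⟨pow_ne_zero n hp.ne_zero⟩
  obtain ⟨ζ, hζ⟩ := (cya_enough p n).exists_primitiveRoot
  have hζA : ζ ∈ A := cyc_mem_of_pow_eq_one A ζ (p ^ n) (pow_ne_zero n hp.ne_zero) hζ.pow_eq_one
  set e := (PadicInt.toZModPow n (cyaChar p σ : ℤ_[p])).val with he
  have h1 : σ ζ = ζ ^ e := cya_spec p σ n ζ hζ.pow_eq_one
  obtain ⟨c', hc', hres⟩ := hσ ⟨ζ, hζA⟩
  have h2 : c' = (⟨ζ, hζA⟩ : A) ^ e := Subtype.ext (by rw [hc', h1]; rfl)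
  rw [h2, map_pow] at hres
  have hord := cya_orderOf_residue A hp hℓ hℓp hA n ⟨ζ, hζA⟩ hζ
  have hfin : IsOfFinOrder (IsLocalRing.residue A ⟨ζ, hζA⟩) :=
    orderOf_pos_iff.mp (by rw [hord]; exact pow_pos hp.pos n)
  have h3 : e ≡ m [MOD p ^ n] := by
    rw [← hord]
    exact hfin.pow_eq_pow_iff_modEq.mp hres
  have h4 : ((e : ℕ) : ZMod (p ^ n)) = (m : ZMod (p ^ n)) :=
    (ZMod.natCast_eq_natCast_iff _ _ _).mpr h3
  rw [← h4, he, ZMod.natCast_val, ZMod.cast_id]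

/-- **The `p`-adic cyclotomic character at a Frobenius element at `ℓ ≠ p` is `ℓ`.** -/
theorem cya_frobenius (p : ℕ) [Fact p.Prime] (ℓ : ℕ) (hℓ : ℓ.Prime) (hℓp : ℓ ≠ p)
    (A : ValuationSubring Qb) (hA : A.LiesOverPrime ℓ) (σ : Qb ≃ₐ[ℚ] Qb)
    (hσ : A.IsFrobeniusAt σ ℓ) : ((cyaChar p σ : ℤ_[p]ˣ) : ℤ_[p]) = (ℓ : ℤ_[p]) :=
  cya_of_residue_pow p ℓ hℓ hℓp A hA σ ℓ (fun c => cyc_frob_residue A σ ℓ hσ c)

/-- **The `p`-adic cyclotomic character is trivial on inertia at `q ≠ p`.** -/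
theorem cya_inertia (p : ℕ) [Fact p.Prime] (q : ℕ) (hq : q.Prime) (hqp : q ≠ p)
    (A : ValuationSubring Qb) (hA : A.LiesOverPrime q) (σ : Qb ≃ₐ[ℚ] Qb)
    (hσ : σ ∈ A.inertiaSubgroupIn ℚ) : cyaChar p σ = 1 := by
  have h := cya_of_residue_pow p q hq hqp A hA σ 1 (fun c => by
    obtain ⟨c', h1, h2⟩ := cyc_inertia_residue A hσ c
    exact ⟨c', h1, by rw [h2, pow_one]⟩)
  exact Units.ext (by rw [h, Nat.cast_one, Units.val_one])

/-- Automorphisms agreeing on the `p ^ n`-th roots of unity have congruent cyclotomic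
characters modulo `p ^ n`. -/
theorem cya_congr (p : ℕ) [Fact p.Prime] (n : ℕ) (σ τ : Qb ≃ₐ[ℚ] Qb)
    (h : ∀ ζ : Qb, ζ ^ (p ^ n) = 1 → σ ζ = τ ζ) :
    PadicInt.toZModPow n (cyaChar p σ : ℤ_[p]) = PadicInt.toZModPow n (cyaChar p τ : ℤ_[p]) := by
  have hp : p.Prime := Fact.out
  have : NeZero (p ^ n) := ⟨pow_ne_zero n hp.ne_zero⟩
  obtain ⟨ζ, hζ⟩ := (cya_enough p n).exists_primitiveRoot
  have h1 := cya_spec p σ n ζ hζ.pow_eq_one
  have h2 := cya_spec p τ n ζ hζ.pow_eq_one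
  rw [h ζ hζ.pow_eq_one, h2] at h1
  exact (ZMod.val_injective _ (hζ.pow_inj (ZMod.val_lt _) (ZMod.val_lt _) h1)).symm

/-- the same, in ideal form -/
theorem cya_congr_mem (p : ℕ) [Fact p.Prime] (n : ℕ) (σ τ : Qb ≃ₐ[ℚ] Qb)
    (h : ∀ ζ : Qb, ζ ^ (p ^ n) = 1 → σ ζ = τ ζ) :
    (cyaChar p σ : ℤ_[p]) - (cyaChar p τ : ℤ_[p]) ∈ Ideal.span {(p : ℤ_[p]) ^ n} := by
  rw [← PadicInt.ker_toZModPow, RingHom.mem_ker, map_sub, cya_congr p n σ τ h, sub_self]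

/-- the same, for automorphisms agreeing on the field of `p ^ n`-th roots of unity -/
theorem cya_congr_field (p : ℕ) [Fact p.Prime] (n : ℕ) (σ τ : Qb ≃ₐ[ℚ] Qb)
    (h : ∀ x ∈ cycField (p ^ n), σ x = τ x) :
    PadicInt.toZModPow n (cyaChar p σ : ℤ_[p]) = PadicInt.toZModPow n (cyaChar p τ : ℤ_[p]) :=
  cya_congr p n σ τ (fun ζ hζ => h ζ (IntermediateField.subset_adjoin ℚ _ hζ))

theorem cya_field_finiteDimensional (p : ℕ) [Fact p.Prime] (n : ℕ) :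
    FiniteDimensional ℚ (cycField (p ^ n)) :=
  cycField_finiteDimensional (p ^ n) (pow_ne_zero n (Fact.out : p.Prime).ne_zero)

end Fermat.Agent.S30
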