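import Mathlib
import Fermat.Agent.S30.CycloAdic

/-!
# S30 prep, package ZP-ALG: `ℤ_[p]`-structure of a complete local ring of residue
characteristic `p`

* `zpaHom p O hp : ℤ_[p] →+* O` for a local ring `O`, adically complete with respect to its
  maximal ideal, with `(p : O)` in the maximal ideal;
* `zpa_congr` : congruences modulo `p ^ n` are preserved by every ring hom out of `ℤ_[p]`;
* `zpa_unique` : uniqueness of the ring hom (Hausdorff target);
* `cyaCharO p O hp : Gal(ℚ̄/ℚ) →* Oˣ`, the `O`-valued `p`-adic cyclotomic character, with its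
  values at Frobenius elements (`cyaCharO_frobenius`), on inertia (`cyaCharO_inertia`) and the
  congruence `cyaCharO_congr`.
-/

set_option autoImplicit false
set_option linter.unusedSectionVars false

namespace Fermat.Agent.S30

open Fermat.Agent.S29

local notation "Qb" => AlgebraicClosure ℚ

section ZpAlg

variable (p : ℕ) [Fact p.Prime] (O : Type*) [CommRing O] [IsLocalRing O]

theorem zpa_ringChar_dvd (hp : (p : O) ∈ IsLocalRing.maximalIdeal O) (n : ℕ) :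
    ringChar (O ⧸ IsLocalRing.maximalIdeal O ^ n) ∣ p ^ n := by
  apply ringChar.dvd
  have h1 : ((p ^ n : ℕ) : O ⧸ IsLocalRing.maximalIdeal O ^ n) =
      Ideal.Quotient.mk (IsLocalRing.maximalIdeal O ^ n) ((p : O) ^ n) := by
    push_cast
    rfl
  rw [h1, Ideal.Quotient.eq_zero_iff_mem]
  exact Ideal.pow_mem_pow hp n

/-- the ring hom `ℤ/pⁿ → O/𝔪ⁿ` -/
noncomputable def zpaLevel (hp : (p : O) ∈ IsLocalRing.maximalIdeal O) (n : ℕ) :
    ZMod (p ^ n) →+* O ⧸ IsLocalRing.maximalIdeal O ^ n :=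
  ZMod.castHom (zpa_ringChar_dvd p O hp n) (O ⧸ IsLocalRing.maximalIdeal O ^ n)

theorem zpa_compat (hp : (p : O) ∈ IsLocalRing.maximalIdeal O) {m n : ℕ} (hle : m ≤ n) :
    (Ideal.Quotient.factorPow (IsLocalRing.maximalIdeal O) hle).comp
        ((zpaLevel p O hp n).comp (PadicInt.toZModPow n)) =
      (zpaLevel p O hp m).comp (PadicInt.toZModPow m) := by
  rw [← PadicInt.zmod_cast_comp_toZModPow m n hle, ← RingHom.comp_assoc, ← RingHom.comp_assoc]
  congr 1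
  exact Subsingleton.elim _ _

variable [IsAdicComplete (IsLocalRing.maximalIdeal O) O]

/-- **ZP-ALG**: the ring hom `ℤ_[p] →+* O`. -/
noncomputable def zpaHom (hp : (p : O) ∈ IsLocalRing.maximalIdeal O) : ℤ_[p] →+* O :=
  IsAdicComplete.liftRingHom (IsLocalRing.maximalIdeal O)
    (fun n => (zpaLevel p O hp n).comp (PadicInt.toZModPow n))
    (fun hle => zpa_compat p O hp hle)

end ZpAlg

section Generic

variable {p : ℕ} [Fact p.Prime] {O : Type*} [CommRing O]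

/-- every ring hom out of `ℤ_[p]` preserves congruences modulo `p ^ n` -/
theorem zpa_congr (f : ℤ_[p] →+* O) (n : ℕ) (x y : ℤ_[p])
    (h : PadicInt.toZModPow n x = PadicInt.toZModPow n y) :
    f x - f y ∈ Ideal.span {(p : O) ^ n} := by
  have h1 : x - y ∈ Ideal.span {(p : ℤ_[p]) ^ n} := by
    rw [← PadicInt.ker_toZModPow, RingHom.mem_ker, map_sub, h, sub_self]
  obtain ⟨z, hz⟩ := Ideal.mem_span_singleton'.mp h1
  rw [← map_sub, ← hz, map_mul, map_pow, map_natCast]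
  exact Ideal.mul_mem_left _ _ (Ideal.mem_span_singleton_self _)

/-- uniqueness of the ring hom `ℤ_[p] →+* O` for a separated target -/
theorem zpa_unique [IsLocalRing O] [IsHausdorff (IsLocalRing.maximalIdeal O) O]
    (hp : (p : O) ∈ IsLocalRing.maximalIdeal O) (f g : ℤ_[p] →+* O) : f = g := by
  ext x
  rw [← sub_eq_zero]
  apply IsHausdorff.haus' (I := IsLocalRing.maximalIdeal O)
  intro n
  rw [SModEq.zero, smul_eq_mul, Ideal.mul_top]
  have h1 : x - (x.appr n : ℤ_[p]) ∈ Ideal.span {(p : ℤ_[p]) ^ n} := PadicInt.appr_spec n x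
  obtain ⟨z, hz⟩ := Ideal.mem_span_singleton'.mp h1
  have h2 : f x - g x = (p : O) ^ n * (f z - g z) := by
    have e : x = (x.appr n : ℤ_[p]) + z * (p : ℤ_[p]) ^ n := by rw [hz]; ring
    rw [e]
    simp only [map_add, map_mul, map_pow, map_natCast]
    ring
  rw [h2]
  exact Ideal.mul_mem_right _ _ (Ideal.pow_mem_pow hp n)

end Generic

section Char

variable (p : ℕ) [Fact p.Prime] (O : Type*) [CommRing O] [IsLocalRing O]
  [IsAdicComplete (IsLocalRing.maximalIdeal O) O]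

/-- The `O`-valued `p`-adic cyclotomic character. -/
noncomputable def cyaCharO (hp : (p : O) ∈ IsLocalRing.maximalIdeal O) : (Qb ≃ₐ[ℚ] Qb) →* Oˣ :=
  (Units.map ((zpaHom p O hp : ℤ_[p] →+* O) : ℤ_[p] →* O)).comp (cyaChar p)

theorem cyaCharO_apply (hp : (p : O) ∈ IsLocalRing.maximalIdeal O) (σ : Qb ≃ₐ[ℚ] Qb) :
    ((cyaCharO p O hp σ : Oˣ) : O) = zpaHom p O hp ((cyaChar p σ : ℤ_[p]ˣ) : ℤ_[p]) :=
  rfl

theorem cyaCharO_frobenius (hp : (p : O) ∈ IsLocalRing.maximalIdeal O) (ℓ : ℕ) (hℓ : ℓ.Prime)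
    (hℓp : ℓ ≠ p) (A : ValuationSubring Qb) (hA : A.LiesOverPrime ℓ) (σ : Qb ≃ₐ[ℚ] Qb)
    (hσ : A.IsFrobeniusAt σ ℓ) : ((cyaCharO p O hp σ : Oˣ) : O) = (ℓ : O) := by
  rw [cyaCharO_apply, cya_frobenius p ℓ hℓ hℓp A hA σ hσ, map_natCast]

theorem cyaCharO_inertia (hp : (p : O) ∈ IsLocalRing.maximalIdeal O) (q : ℕ) (hq : q.Prime)
    (hqp : q ≠ p) (A : ValuationSubring Qb) (hA : A.LiesOverPrime q) (σ : Qb ≃ₐ[ℚ] Qb)
    (hσ : σ ∈ A.inertiaSubgroupIn ℚ) : cyaCharO p O hp σ = 1 := by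
  rw [cyaCharO, MonoidHom.comp_apply, cya_inertia p q hq hqp A hA σ hσ, map_one]

theorem cyaCharO_congr (hp : (p : O) ∈ IsLocalRing.maximalIdeal O) (n : ℕ) (σ τ : Qb ≃ₐ[ℚ] Qb)
    (h : ∀ ζ : Qb, ζ ^ (p ^ n) = 1 → σ ζ = τ ζ) :
    ((cyaCharO p O hp σ : Oˣ) : O) - ((cyaCharO p O hp τ : Oˣ) : O) ∈
      Ideal.span {(p : O) ^ n} := by
  rw [cyaCharO_apply, cyaCharO_apply]
  exact zpa_congr _ n _ _ (cya_congr p n σ τ h)

theorem cyaCharO_congr_field (hp : (p : O) ∈ IsLocalRing.maximalIdeal O) (n : ℕ)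
    (σ τ : Qb ≃ₐ[ℚ] Qb) (h : ∀ x ∈ cycField (p ^ n), σ x = τ x) :
    ((cyaCharO p O hp σ : Oˣ) : O) - ((cyaCharO p O hp τ : Oˣ) : O) ∈
      Ideal.span {(p : O) ^ n} :=
  cyaCharO_congr p O hp n σ τ (fun ζ hζ => h ζ (IntermediateField.subset_adjoin ℚ _ hζ))

end Char

end Fermat.Agent.S30
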