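import Mathlib

/-!
# S30 prep: ring homs out of `ℤ_[p]` into a domain of characteristic zero are injective

`zpi_injective` (the hypothesis `hζ` of the abstract front end `frt_abs` for `ζ := zpaHom p 𝒪' hp`).
-/

set_option autoImplicit false

namespace Fermat.Agent.S30

/-- every ring hom from `ℤ_[p]` to a domain of characteristic zero is injective -/
theorem zpi_injective (p : ℕ) [Fact p.Prime] {O : Type*} [CommRing O] [IsDomain O] [CharZero O]
    (f : ℤ_[p] →+* O) : Function.Injective f := by
  rw [injective_iff_map_eq_zero]
  intro x hx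
  by_contra hx0
  have h := PadicInt.unitCoeff_spec hx0
  rw [h, map_mul, map_pow, map_natCast] at hx
  rcases mul_eq_zero.mp hx with h1 | h1
  · exact (IsUnit.map f (PadicInt.unitCoeff hx0).isUnit).ne_zero h1
  · exact (Nat.cast_ne_zero.mpr (Fact.out : p.Prime).ne_zero) (eq_zero_of_pow_eq_zero h1)

end Fermat.Agent.S30
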