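/-
S30 project, package ADIC-EXT (helper16): the integral closure of a complete discrete valuation
ring `𝒪` of characteristic zero with finite residue field in a finite extension `K₁` of its
fraction field is again a complete discrete valuation ring with finite residue field, finite
over `𝒪`, with fraction field `K₁`.
-/
import Mathlib
import Fermat.Prelude.Thm_IsLocalRing_isAdicComplete_of_module_finite
import Fermat.Prelude.Thm_Algebra_finite_maximalSpectrum_and_bijective_localization_of_module_finite

set_option autoImplicit false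
set_option linter.unusedSectionVars false

namespace Fermat.Agent.S30

/-- a finite algebra over a complete noetherian local ring which is a domain is a local ring -/
theorem adx_isLocalRing_of_finite (𝒪 : Type) [CommRing 𝒪] [IsLocalRing 𝒪] [IsNoetherianRing 𝒪]
    [IsAdicComplete (IsLocalRing.maximalIdeal 𝒪) 𝒪]
    (A : Type) [CommRing A] [IsDomain A] [Algebra 𝒪 A] [Module.Finite 𝒪 A] : IsLocalRing A := by
  classical
  obtain ⟨-, hbij, -, -⟩ :=
    Algebra.finite_maximalSpectrum_and_bijective_localization_of_module_finite (𝒪 := 𝒪) A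
  have hsub : Subsingleton (MaximalSpectrum A) := by
    refine ⟨fun I J => ?_⟩
    by_contra hne
    obtain ⟨x, hx⟩ := hbij.2 (Pi.single I 1)
    obtain ⟨y, hy⟩ := hbij.2 (Pi.single J 1)
    have hxy : x * y = 0 := by
      apply hbij.1
      rw [map_mul, hx, hy, map_zero]
      funext L
      by_cases hL : L = I
      · subst hL
        simp [Pi.single_eq_of_ne hne]
      · simp [Pi.single_eq_of_ne hL]
    rcases mul_eq_zero.mp hxy with h | h
    · rw [h, map_zero] at hx
      have := congrFun hx I
      simp at this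
    · rw [h, map_zero] at hy
      have := congrFun hy J
      simp at this
  exact IsLocalRing.of_singleton_maximalSpectrum

section Ext

variable (𝒪 : Type) [CommRing 𝒪] [IsDomain 𝒪] [IsDiscreteValuationRing 𝒪]
  [IsAdicComplete (IsLocalRing.maximalIdeal 𝒪) 𝒪] [CharZero 𝒪]
  (K : Type) [Field K] [Algebra 𝒪 K] [IsFractionRing 𝒪 K]
  (K₁ : Type) [Field K₁] [Algebra K K₁] [FiniteDimensional K K₁] [Algebra 𝒪 K₁]
  [IsScalarTower 𝒪 K K₁]

include 𝒪 K in
theorem adx_charZero : CharZero K₁ := by
  have h1 : CharZero K := charZero_of_injective_algebraMap (IsFractionRing.injective 𝒪 K)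
  exact charZero_of_injective_algebraMap (algebraMap K K₁).injective

include K in
theorem adx_finite : Module.Finite 𝒪 (integralClosure 𝒪 K₁) := by
  have h1 : CharZero K := charZero_of_injective_algebraMap (IsFractionRing.injective 𝒪 K)
  exact IsIntegralClosure.finite 𝒪 K K₁ (integralClosure 𝒪 K₁)

include K in
theorem adx_isDedekindDomain : IsDedekindDomain (integralClosure 𝒪 K₁) := by
  have h1 : CharZero K := charZero_of_injective_algebraMap (IsFractionRing.injective 𝒪 K)
  exact integralClosure.isDedekindDomain 𝒪 K K₁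

include K in
theorem adx_isFractionRing : IsFractionRing (integralClosure 𝒪 K₁) K₁ :=
  integralClosure.isFractionRing_of_finite_extension K K₁

include K in
theorem adx_isLocalRing : IsLocalRing (integralClosure 𝒪 K₁) := by
  have := adx_finite 𝒪 K K₁
  exact adx_isLocalRing_of_finite 𝒪 (integralClosure 𝒪 K₁)

include K in
theorem adx_injective : Function.Injective (algebraMap 𝒪 (integralClosure 𝒪 K₁)) := by
  intro a b hab
  have h1 : algebraMap 𝒪 K₁ a = algebraMap 𝒪 K₁ b := by
    have := congrArg (algebraMap (integralClosure 𝒪 K₁) K₁) hab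
    rwa [← IsScalarTower.algebraMap_apply, ← IsScalarTower.algebraMap_apply] at this
  rw [IsScalarTower.algebraMap_apply 𝒪 K K₁, IsScalarTower.algebraMap_apply 𝒪 K K₁] at h1
  exact IsFractionRing.injective 𝒪 K ((algebraMap K K₁).injective h1)

include K in
theorem adx_isLocalHom : IsLocalHom (algebraMap 𝒪 (integralClosure 𝒪 K₁)) :=
  (algebraMap_isIntegral_iff.mpr (inferInstance : Algebra.IsIntegral 𝒪 (integralClosure 𝒪 K₁))).isLocalHom
    (adx_injective 𝒪 K K₁)

include K in
theorem adx_not_isField : ¬ IsField (integralClosure 𝒪 K₁) := fun h =>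
  IsDiscreteValuationRing.not_isField 𝒪
    (isField_of_isIntegral_of_isField (adx_injective 𝒪 K K₁) h)

include K in
theorem adx_isDVR : IsDiscreteValuationRing (integralClosure 𝒪 K₁) := by
  have h1 := adx_isLocalRing 𝒪 K K₁
  have h2 := adx_isDedekindDomain 𝒪 K K₁
  exact ((IsDiscreteValuationRing.TFAE (integralClosure 𝒪 K₁) (adx_not_isField 𝒪 K K₁)).out 0 2).mpr
    h2

include K in
theorem adx_isAdicComplete (h : IsLocalRing (integralClosure 𝒪 K₁)) :
    IsAdicComplete (IsLocalRing.maximalIdeal (integralClosure 𝒪 K₁)) (integralClosure 𝒪 K₁) := by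
  have h1 := adx_finite 𝒪 K K₁
  have h2 := adx_isLocalHom 𝒪 K K₁
  exact IsLocalRing.isAdicComplete_of_module_finite (𝒪 := 𝒪)

include K in
theorem adx_finite_residueField [Finite (IsLocalRing.ResidueField 𝒪)]
    (h : IsLocalRing (integralClosure 𝒪 K₁)) :
    Finite (IsLocalRing.ResidueField (integralClosure 𝒪 K₁)) := by
  have h1 := adx_finite 𝒪 K K₁
  have h3 : Module.Finite 𝒪 (IsLocalRing.ResidueField (integralClosure 𝒪 K₁)) :=
    Module.Finite.of_surjective
      (Ideal.Quotient.mkₐ 𝒪 (IsLocalRing.maximalIdeal (integralClosure 𝒪 K₁))).toLinearMap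
      (Ideal.Quotient.mkₐ_surjective 𝒪 _)
  have h4 : Module.Finite (IsLocalRing.ResidueField 𝒪)
      (IsLocalRing.ResidueField (integralClosure 𝒪 K₁)) := inferInstance
  exact Module.finite_of_finite (IsLocalRing.ResidueField 𝒪)

end Ext

/-- **ADIC-EXT**, bundled in the literal shape of the conclusion of S30: for every finite
extension `K₁` of the fraction field `K` of `𝒪'` there is a complete discrete valuation ring
`𝒪''` of characteristic zero with finite residue field, finite and local over `𝒪'`, with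
fraction field `K₁` (namely the integral closure of `𝒪'` in `K₁`). -/
theorem adx_main (𝒪' : Type) [CommRing 𝒪'] [IsDomain 𝒪'] [IsDiscreteValuationRing 𝒪']
    [IsAdicComplete (IsLocalRing.maximalIdeal 𝒪') 𝒪'] [Finite (IsLocalRing.ResidueField 𝒪')]
    [CharZero 𝒪'] (K : Type) [Field K] [Algebra 𝒪' K] [IsFractionRing 𝒪' K]
    (K₁ : Type) [Field K₁] [Algebra K K₁] [FiniteDimensional K K₁] [Algebra 𝒪' K₁]
    [IsScalarTower 𝒪' K K₁] :
    ∃ (𝒪'' : Type) (_ : CommRing 𝒪'') (_ : IsDomain 𝒪'') (_ : IsDiscreteValuationRing 𝒪'')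
      (_ : IsAdicComplete (IsLocalRing.maximalIdeal 𝒪'') 𝒪'')
      (_ : Finite (IsLocalRing.ResidueField 𝒪'')) (_ : CharZero 𝒪'')
      (_ : Algebra 𝒪' 𝒪'') (_ : Module.Finite 𝒪' 𝒪'') (_ : IsLocalHom (algebraMap 𝒪' 𝒪''))
      (_ : Algebra 𝒪'' K₁) (_ : IsScalarTower 𝒪' 𝒪'' K₁) (_ : IsFractionRing 𝒪'' K₁),
      Function.Injective (algebraMap 𝒪' 𝒪'') := by
  have hcz : CharZero K₁ := adx_charZero 𝒪' K K₁
  have hdvr := adx_isDVR 𝒪' K K₁
  exact ⟨integralClosure 𝒪' K₁, inferInstance, inferInstance, hdvr,
    adx_isAdicComplete 𝒪' K K₁ inferInstance, adx_finite_residueField 𝒪' K K₁ inferInstance,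
    inferInstance, inferInstance, adx_finite 𝒪' K K₁, adx_isLocalHom 𝒪' K K₁, inferInstance,
    inferInstance, adx_isFractionRing 𝒪' K K₁, adx_injective 𝒪' K K₁⟩

end Fermat.Agent.S30
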