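/-
S30 project, package ADIC-EXT (helper16), complement: denominators.  Every finite set of
elements of `K₁` is carried into the integral closure `𝒪₁` of `𝒪` by multiplication with one
nonzero element of `𝒪`; bundled form `adx_main'` of `adx_main` with this extra clause.
-/
import Fermat.Agent.S30.AdicExt

set_option autoImplicit false
set_option linter.unusedSectionVars false

namespace Fermat.Agent.S30

section Frac

variable (𝒪 : Type) [CommRing 𝒪] [IsDomain 𝒪]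
  (K : Type) [Field K] [Algebra 𝒪 K] [IsFractionRing 𝒪 K]
  (K₁ : Type) [Field K₁] [Algebra K K₁] [FiniteDimensional K K₁] [Algebra 𝒪 K₁]
  [IsScalarTower 𝒪 K K₁]

include K in
/-- a common denominator in `𝒪` for finitely many elements of `K₁` -/
theorem adx_exists_smul_mem (s : Finset K₁) :
    ∃ c : 𝒪, c ≠ 0 ∧ ∀ z ∈ s, ∃ x : integralClosure 𝒪 K₁,
      algebraMap (integralClosure 𝒪 K₁) K₁ x = algebraMap 𝒪 K₁ c * z := by
  obtain ⟨c, hc, h⟩ := exists_integral_multiples 𝒪 K s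
  refine ⟨c, hc, fun z hz => ⟨⟨c • z, h z hz⟩, ?_⟩⟩
  show c • z = algebraMap 𝒪 K₁ c * z
  exact Algebra.smul_def c z

end Frac

/-- **ADIC-EXT** with denominators: `adx_main` together with the clause that finitely many
elements of `K₁` have a common denominator in `𝒪'`. -/
theorem adx_main' (𝒪' : Type) [CommRing 𝒪'] [IsDomain 𝒪'] [IsDiscreteValuationRing 𝒪']
    [IsAdicComplete (IsLocalRing.maximalIdeal 𝒪') 𝒪'] [Finite (IsLocalRing.ResidueField 𝒪')]
    [CharZero 𝒪'] (K : Type) [Field K] [Algebra 𝒪' K] [IsFractionRing 𝒪' K]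
    (K₁ : Type) [Field K₁] [Algebra K K₁] [FiniteDimensional K K₁] [Algebra 𝒪' K₁]
    [IsScalarTower 𝒪' K K₁] :
    ∃ (𝒪'' : Type) (_ : CommRing 𝒪'') (_ : IsDomain 𝒪'') (_ : IsDiscreteValuationRing 𝒪'')
      (_ : IsAdicComplete (IsLocalRing.maximalIdeal 𝒪'') 𝒪'')
      (_ : Finite (IsLocalRing.ResidueField 𝒪'')) (_ : CharZero 𝒪'')
      (_ : Algebra 𝒪' 𝒪'') (_ : Module.Finite 𝒪' 𝒪'') (_ : IsLocalHom (algebraMap 𝒪' 𝒪''))
      (_ : Algebra 𝒪'' K₁) (_ : IsScalarTower 𝒪' 𝒪'' K₁) (_ : IsFractionRing 𝒪'' K₁),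
      Function.Injective (algebraMap 𝒪' 𝒪'') ∧
      Function.Injective (algebraMap 𝒪'' K₁) ∧
      ∀ s : Finset K₁, ∃ c : 𝒪', c ≠ 0 ∧ ∀ z ∈ s, ∃ x : 𝒪'',
        algebraMap 𝒪'' K₁ x = algebraMap 𝒪' K₁ c * z := by
  have hcz : CharZero K₁ := adx_charZero 𝒪' K K₁
  have hdvr := adx_isDVR 𝒪' K K₁
  exact ⟨integralClosure 𝒪' K₁, inferInstance, inferInstance, hdvr,
    adx_isAdicComplete 𝒪' K K₁ inferInstance, adx_finite_residueField 𝒪' K K₁ inferInstance,
    inferInstance, inferInstance, adx_finite 𝒪' K K₁, adx_isLocalHom 𝒪' K K₁, inferInstance,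
    inferInstance, adx_isFractionRing 𝒪' K K₁, adx_injective 𝒪' K K₁,
    Subtype.val_injective, adx_exists_smul_mem 𝒪' K K₁⟩

end Fermat.Agent.S30
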