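import Mathlib

/-!
# S30, package ARTIN-REES (Mathlib only)

For a finitely generated additive group `X` (not necessarily commutative) and a `ℤ_[p]`-submodule
`Λ` of `X →+ ℤ_[p]`, there is a constant `e` such that every element of `Λ` whose values are all
divisible by `p ^ (n + e)` is `p ^ n` times an element of `Λ`.  The proof uses the saturation of
`Λ` inside the noetherian module `X →+ ℤ_[p]`.

Exports: `arr_noetherian`, `arr_fg`, `arr_free`, `arr_div`, `arrSat`, `arr_sat_pow`, `arr_main`,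
`arr_main_dvd`.
-/

set_option autoImplicit false

namespace Fermat.Agent.S30

/-- Evaluation at the points of a set, as a `ℤ_[p]`-linear map. -/
noncomputable def arrEval (p : ℕ) [Fact p.Prime] {X : Type*} [AddGroup X] (s : Set X) :
    (X →+ ℤ_[p]) →ₗ[ℤ_[p]] (s → ℤ_[p]) where
  toFun ψ x := ψ x
  map_add' _ _ := rfl
  map_smul' _ _ := rfl

theorem arrEval_apply (p : ℕ) [Fact p.Prime] {X : Type*} [AddGroup X] (s : Set X)
    (ψ : X →+ ℤ_[p]) (x : s) : arrEval p s ψ x = ψ x := rfl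

/-- Homomorphisms from a finitely generated group to `ℤ_[p]` form a noetherian module. -/
theorem arr_noetherian (p : ℕ) [Fact p.Prime] {X : Type*} [AddGroup X] [AddGroup.FG X] :
    IsNoetherian ℤ_[p] (X →+ ℤ_[p]) := by
  obtain ⟨s, hs, hfin⟩ := AddGroup.fg_iff.mp (inferInstance : AddGroup.FG X)
  have : Finite s := hfin.to_subtype
  refine isNoetherian_of_injective (arrEval p s) ?_
  intro ψ₁ ψ₂ h
  refine AddMonoidHom.eq_of_eqOn_dense hs ?_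
  intro x hx
  exact congrFun h ⟨x, hx⟩

/-- Every submodule of `X →+ ℤ_[p]` is finitely generated. -/
theorem arr_fg (p : ℕ) [Fact p.Prime] {X : Type*} [AddGroup X] [AddGroup.FG X]
    (Λ : Submodule ℤ_[p] (X →+ ℤ_[p])) : Module.Finite ℤ_[p] ↥Λ := by
  have := arr_noetherian p (X := X)
  infer_instance

/-- Every submodule of `X →+ ℤ_[p]` is free. -/
theorem arr_free (p : ℕ) [Fact p.Prime] {X : Type*} [AddGroup X] [AddGroup.FG X]
    (Λ : Submodule ℤ_[p] (X →+ ℤ_[p])) : Module.Free ℤ_[p] ↥Λ := by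
  have := arr_fg p Λ
  have : Module.IsTorsionFree ℤ_[p] (X →+ ℤ_[p]) := by
    refine ⟨fun c hc ψ₁ ψ₂ h => ?_⟩
    ext x
    have hx : c * ψ₁ x = c * ψ₂ x := by
      simpa using DFunLike.congr_fun h x
    exact hc.1 hx
  have : Module.IsTorsionFree ℤ_[p] ↥Λ := by
    infer_instance
  exact @Module.free_of_finite_type_torsion_free' ℤ_[p] _ ↥Λ _ _ _ _ _ _

/-- Pointwise divisibility by `p ^ k` gives a quotient homomorphism. -/
theorem arr_div (p : ℕ) [Fact p.Prime] {X : Type*} [AddGroup X] (k : ℕ) (ψ : X →+ ℤ_[p])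
    (h : ∀ x, (p : ℤ_[p]) ^ k ∣ ψ x) : ∃ φ : X →+ ℤ_[p], ψ = (p : ℤ_[p]) ^ k • φ := by
  choose c hc using h
  have hp : (p : ℤ_[p]) ^ k ≠ 0 :=
    pow_ne_zero _ (by exact_mod_cast (Fact.out : p.Prime).ne_zero)
  refine ⟨AddMonoidHom.mk' c ?_, ?_⟩
  · intro x y
    apply mul_left_cancel₀ hp
    rw [← hc, mul_add, ← hc, ← hc, map_add]
  · ext x
    simp [hc x]

/-- The kernel of `toZModPow k` consists of the multiples of `p ^ k`. -/
theorem arr_dvd_of_toZModPow (p : ℕ) [Fact p.Prime] (k : ℕ) (a : ℤ_[p])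
    (h : PadicInt.toZModPow k a = 0) : (p : ℤ_[p]) ^ k ∣ a := by
  have h' : a ∈ RingHom.ker (PadicInt.toZModPow (p := p) k) := h
  rwa [PadicInt.ker_toZModPow, Ideal.mem_span_singleton] at h'

theorem arr_toZModPow_of_dvd (p : ℕ) [Fact p.Prime] (k : ℕ) (a : ℤ_[p])
    (h : (p : ℤ_[p]) ^ k ∣ a) : PadicInt.toZModPow k a = 0 := by
  have h' : a ∈ RingHom.ker (PadicInt.toZModPow (p := p) k) := by
    rwa [PadicInt.ker_toZModPow, Ideal.mem_span_singleton]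
  exact h'

/-- The `p`-saturation of a submodule. -/
def arrSat (p : ℕ) [Fact p.Prime] {M : Type*} [AddCommGroup M] [Module ℤ_[p] M]
    (Λ : Submodule ℤ_[p] M) : Submodule ℤ_[p] M where
  carrier := {φ | ∃ k : ℕ, (p : ℤ_[p]) ^ k • φ ∈ Λ}
  add_mem' := by
    rintro a b ⟨k, hk⟩ ⟨l, hl⟩
    refine ⟨k + l, ?_⟩
    have h1 : (p : ℤ_[p]) ^ (k + l) • a = (p : ℤ_[p]) ^ l • ((p : ℤ_[p]) ^ k • a) := by
      rw [smul_smul, ← pow_add, add_comm]
    have h2 : (p : ℤ_[p]) ^ (k + l) • b = (p : ℤ_[p]) ^ k • ((p : ℤ_[p]) ^ l • b) := by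
      rw [smul_smul, ← pow_add]
    rw [smul_add, h1, h2]
    exact Λ.add_mem (Λ.smul_mem _ hk) (Λ.smul_mem _ hl)
  zero_mem' := ⟨0, by simp⟩
  smul_mem' := by
    rintro c a ⟨k, hk⟩
    exact ⟨k, by rw [smul_comm]; exact Λ.smul_mem c hk⟩

theorem arr_mem_sat (p : ℕ) [Fact p.Prime] {M : Type*} [AddCommGroup M] [Module ℤ_[p] M]
    (Λ : Submodule ℤ_[p] M) (φ : M) : φ ∈ arrSat p Λ ↔ ∃ k : ℕ, (p : ℤ_[p]) ^ k • φ ∈ Λ :=
  Iff.rfl

theorem arr_le_sat (p : ℕ) [Fact p.Prime] {M : Type*} [AddCommGroup M] [Module ℤ_[p] M]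
    (Λ : Submodule ℤ_[p] M) : Λ ≤ arrSat p Λ :=
  fun φ hφ => ⟨0, by simpa using hφ⟩

/-- In a noetherian module, a bounded power of `p` maps the saturation back into the
submodule. -/
theorem arr_sat_pow (p : ℕ) [Fact p.Prime] {M : Type*} [AddCommGroup M] [Module ℤ_[p] M]
    [IsNoetherian ℤ_[p] M] (Λ : Submodule ℤ_[p] M) :
    ∃ e : ℕ, ∀ φ ∈ arrSat p Λ, (p : ℤ_[p]) ^ e • φ ∈ Λ := by
  classical
  obtain ⟨s, hs⟩ : (arrSat p Λ).FG := IsNoetherian.noetherian (arrSat p Λ)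
  have hk : ∀ φ ∈ s, ∃ k : ℕ, (p : ℤ_[p]) ^ k • φ ∈ Λ := fun φ hφ => by
    have : φ ∈ arrSat p Λ := hs ▸ Submodule.subset_span hφ
    exact this
  choose! k hk using hk
  refine ⟨s.sup k, fun φ hφ => ?_⟩
  rw [← hs] at hφ
  induction hφ using Submodule.span_induction with
  | mem x hx =>
    have : (p : ℤ_[p]) ^ s.sup k = (p : ℤ_[p]) ^ (s.sup k - k x) * (p : ℤ_[p]) ^ k x := by
      rw [← pow_add, Nat.sub_add_cancel (Finset.le_sup hx)]
    rw [this, mul_smul]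
    exact Λ.smul_mem _ (hk x hx)
  | zero => simp
  | add x y _ _ hx hy => rw [smul_add]; exact Λ.add_mem hx hy
  | smul a x _ hx => rw [smul_comm]; exact Λ.smul_mem _ hx

/-- ARTIN-REES, divisibility form. -/
theorem arr_main_dvd (p : ℕ) [Fact p.Prime] {X : Type*} [AddGroup X] [AddGroup.FG X]
    (Λ : Submodule ℤ_[p] (X →+ ℤ_[p])) :
    ∃ e : ℕ, ∀ (n : ℕ) (ψ : X →+ ℤ_[p]), ψ ∈ Λ →
      (∀ x, (p : ℤ_[p]) ^ (n + e) ∣ ψ x) →
      ∃ ψ' ∈ Λ, ψ = (p : ℤ_[p]) ^ n • ψ' := by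
  have := arr_noetherian p (X := X)
  obtain ⟨e, he⟩ := arr_sat_pow p Λ
  refine ⟨e, fun n ψ hψ hx => ?_⟩
  obtain ⟨φ, hφ⟩ := arr_div p (n + e) ψ hx
  refine ⟨(p : ℤ_[p]) ^ e • φ, he φ ⟨n + e, hφ ▸ hψ⟩, ?_⟩
  rw [hφ, smul_smul, ← pow_add]

/-- ARTIN-REES: there is `e` such that every element of `Λ` vanishing modulo `p ^ (n + e)` is
`p ^ n` times an element of `Λ`. -/
theorem arr_main (p : ℕ) [Fact p.Prime] {X : Type*} [AddGroup X] [AddGroup.FG X]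
    (Λ : Submodule ℤ_[p] (X →+ ℤ_[p])) :
    ∃ e : ℕ, ∀ (n : ℕ) (ψ : X →+ ℤ_[p]), ψ ∈ Λ →
      (∀ x, PadicInt.toZModPow (n + e) (ψ x) = 0) →
      ∃ ψ' ∈ Λ, ψ = (p : ℤ_[p]) ^ n • ψ' := by
  obtain ⟨e, he⟩ := arr_main_dvd p Λ
  exact ⟨e, fun n ψ hψ hx => he n ψ hψ fun x => arr_dvd_of_toZModPow p (n + e) (ψ x) (hx x)⟩

end Fermat.Agent.S30
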