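import Mathlib

/-!
# S30 prep, leaf [EIG-TRANSPORT]: transport of Hecke eigenvectors from `ℂ` to any domain

Pure algebra over Mathlib.

* `egx_core`: Nakayama at an ARBITRARY prime.  A finitely generated torsion-free nontrivial
  module over a domain has a nonzero `φ`-semilinear functional, for every ring homomorphism `φ`
  to a field (the kernel need not be maximal).
* `egx_field`, `egx_main`: for `lam : T →+* ℂ`, `χ : T →+* O` (`O` a domain) with
  `ker lam ≤ ker χ`, a nonzero additive character `ψ : G →+ ℂ` of a finitely generated group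
  yields a nonzero `ψ' : G →+ O` satisfying the `χ`-image of every `T`-linear relation between
  the values of `ψ`.
* `egx_eigen`: the eigenvector form (operators of transfer shape).
-/

set_option autoImplicit false
set_option linter.style.haveILetI false

namespace Fermat.Agent.S30

/-- Step 1 of `egx_core`: for a finitely generated torsion-free nontrivial module `S` over a
domain and a prime ideal `𝔮`, some element of `S` is not killed modulo `𝔮 S` by any scalar
outside `𝔮`. -/
theorem egx_exists_nontorsion {R : Type*} [CommRing R] [IsDomain R] {S : Type*} [AddCommGroup S]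
    [Module R S] [Module.Finite R S] [Nontrivial S] [Module.IsTorsionFree R S]
    (𝔮 : Ideal R) [h𝔮 : 𝔮.IsPrime] :
    ∃ s₀ : S, ∀ u : R, u ∉ 𝔮 → u • s₀ ∉ 𝔮 • (⊤ : Submodule R S) := by
  classical
  by_contra hcon
  have hcon' : ∀ s₀ : S, ∃ u : R, u ∉ 𝔮 ∧ u • s₀ ∈ 𝔮 • (⊤ : Submodule R S) := by
    intro s₀
    by_contra h
    exact hcon ⟨s₀, fun u hu hus => h ⟨u, hu, hus⟩⟩
  choose u hu hus using hcon'
  obtain ⟨t, ht⟩ := Module.finite_def.mp (inferInstance : Module.Finite R S)
  set U : R := ∏ s ∈ t, u s with hU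
  have hUq : U ∉ 𝔮 := by
    intro h
    obtain ⟨s, -, hsq⟩ := Ideal.IsPrime.prod_mem_iff.mp h
    exact hu s hsq
  have hUS : ∀ s : S, U • s ∈ 𝔮 • (⊤ : Submodule R S) := by
    intro s
    have hs : s ∈ Submodule.span R (t : Set S) := by rw [ht]; trivial
    induction hs using Submodule.span_induction with
    | mem x hx =>
      have hx' : x ∈ t := hx
      have : U = (∏ y ∈ t.erase x, u y) * u x := (Finset.prod_erase_mul t u hx').symm
      rw [this, mul_smul]
      exact Submodule.smul_mem _ _ (hus x)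
    | zero => rw [smul_zero]; exact Submodule.zero_mem _
    | add x y _ _ hx hy => rw [smul_add]; exact Submodule.add_mem _ hx hy
    | smul c x _ hx => rw [smul_comm]; exact Submodule.smul_mem _ c hx
  obtain ⟨p, hpm, -, hpc, hp0⟩ :=
    LinearMap.exists_monic_and_natDegree_eq_and_coeff_mem_pow_and_aeval_eq_zero (R := R)
      (algebraMap R (Module.End R S) U) 𝔮 (by
        rintro _ ⟨s, rfl⟩
        simpa using hUS s)
  have h1 : Polynomial.aeval (algebraMap R (Module.End R S) U) p
      = algebraMap R (Module.End R S) (Polynomial.aeval U p) :=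
    Polynomial.aeval_algebraMap_apply _ U p
  have h2 : Polynomial.eval U p = 0 := by
    obtain ⟨s, hs⟩ := exists_ne (0 : S)
    have h3 := congrArg (fun f : Module.End R S => f s) (h1.symm.trans hp0)
    have h4 : (Polynomial.aeval U p) • s = 0 := by simpa using h3
    rcases smul_eq_zero.mp h4 with h5 | h5
    · simpa [Polynomial.aeval_def] using h5
    · exact absurd h5 hs
  have h3 : U ^ p.natDegree ∈ 𝔮 := by
    rw [Polynomial.eval_eq_sum_range, Finset.sum_range_succ, hpm.coeff_natDegree, one_mul] at h2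
    have h4 : U ^ p.natDegree = - ∑ i ∈ Finset.range p.natDegree, p.coeff i * U ^ i :=
      eq_neg_of_add_eq_zero_right h2
    rw [h4]
    refine 𝔮.neg_mem (𝔮.sum_mem fun i hi => 𝔮.mul_mem_right _ ?_)
    have hi' : i < p.natDegree := Finset.mem_range.mp hi
    exact Ideal.pow_le_self (by omega) (hpc i)
  exact hUq (h𝔮.mem_of_pow_mem _ h3)

/-- Step 2 of `egx_core`: a non-torsion element of a module over a domain `D` is detected by a
semilinear functional along any injective ring homomorphism from `D` to a field. -/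
theorem egx_functional {D : Type*} [CommRing D] [IsDomain D] {M : Type*} [AddCommGroup M]
    [Module D M] (m₀ : M) (hm₀ : ∀ d : D, d ≠ 0 → d • m₀ ≠ 0)
    {k : Type*} [Field k] (g : D →+* k) (hg : Function.Injective g) :
    ∃ Ψ : M →ₛₗ[g] k, Ψ m₀ ≠ 0 := by
  classical
  let loc := LocalizedModule.mkLinearMap (nonZeroDivisors D) M
  have hx₀ : loc m₀ ≠ 0 := by
    intro h
    obtain ⟨c, hc⟩ := (IsLocalizedModule.eq_zero_iff (nonZeroDivisors D) loc).mp h
    exact hm₀ c (nonZeroDivisors.coe_ne_zero c) hc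
  haveI : Module.Free (FractionRing D) (LocalizedModule (nonZeroDivisors D) M) :=
    Module.Free.of_divisionRing _ _
  have hex : ∃ h : Module.Dual (FractionRing D) (LocalizedModule (nonZeroDivisors D) M),
      h (loc m₀) ≠ 0 := by
    by_contra hcon
    refine hx₀ ((Module.forall_dual_apply_eq_zero_iff (FractionRing D) _).mp fun f => ?_)
    by_contra hfx
    exact hcon ⟨f, hfx⟩
  obtain ⟨h, hh⟩ := hex
  let ι : FractionRing D →+* k := IsFractionRing.lift hg
  refine ⟨{ toFun := fun m => ι (h (loc m))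
            map_add' := fun s t => by rw [map_add, map_add, map_add]
            map_smul' := fun d m => ?_ }, ?_⟩
  · have e2 : loc (d • m) = (algebraMap D (FractionRing D) d) • loc m := by
      rw [map_smul, algebraMap_smul]
    show ι (h (loc (d • m))) = g d • ι (h (loc m))
    rw [e2, map_smul, smul_eq_mul, map_mul, IsFractionRing.lift_algebraMap, smul_eq_mul]
  · intro h0
    have h2 : ι (h (loc m₀)) = 0 := h0
    exact hh (ι.injective (by rw [h2, map_zero]))

/-- **Nakayama at an arbitrary prime.**  A finitely generated, torsion-free, nontrivial module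
`S` over a domain `R` has a NONZERO `φ`-semilinear functional to `k`, for EVERY ring
homomorphism `φ : R →+* k` to a field. -/
theorem egx_core {R : Type*} [CommRing R] [IsDomain R] {S : Type*} [AddCommGroup S] [Module R S]
    [Module.Finite R S] [Nontrivial S] [Module.IsTorsionFree R S]
    {k : Type*} [Field k] (φ : R →+* k) :
    ∃ Φ : S →ₛₗ[φ] k, Φ ≠ 0 := by
  classical
  haveI hprime : (RingHom.ker φ).IsPrime := RingHom.ker_isPrime φ
  obtain ⟨s₀, hs₀⟩ := egx_exists_nontorsion (S := S) (RingHom.ker φ)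
  have hm₀ : ∀ d : R ⧸ RingHom.ker φ, d ≠ 0 →
      d • (Submodule.Quotient.mk s₀ : S ⧸ RingHom.ker φ • (⊤ : Submodule R S)) ≠ 0 := by
    intro d hd h
    obtain ⟨u, rfl⟩ := Ideal.Quotient.mk_surjective d
    have hu : u ∉ RingHom.ker φ := fun hu => hd (Ideal.Quotient.eq_zero_iff_mem.mpr hu)
    have h' : (Submodule.Quotient.mk (u • s₀) : S ⧸ RingHom.ker φ • (⊤ : Submodule R S)) = 0 := h
    exact hs₀ u hu ((Submodule.Quotient.mk_eq_zero _).mp h')
  obtain ⟨Ψ, hΨ⟩ := egx_functional
    (Submodule.Quotient.mk s₀ : S ⧸ RingHom.ker φ • (⊤ : Submodule R S)) hm₀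
    (RingHom.kerLift φ) (RingHom.kerLift_injective φ)
  refine ⟨{ toFun := fun s => Ψ (Submodule.Quotient.mk s)
            map_add' := fun s t => by rw [Submodule.Quotient.mk_add, map_add]
            map_smul' := fun r s => ?_ }, ?_⟩
  · have e1 : (Submodule.Quotient.mk (r • s) : S ⧸ RingHom.ker φ • (⊤ : Submodule R S))
        = (Ideal.Quotient.mk (RingHom.ker φ) r) •
          (Submodule.Quotient.mk s : S ⧸ RingHom.ker φ • (⊤ : Submodule R S)) := rfl
    show Ψ (Submodule.Quotient.mk (r • s)) = φ r • Ψ (Submodule.Quotient.mk s)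
    rw [e1, map_smulₛₗ, RingHom.kerLift_mk]
  · intro h0
    have h1 := congrArg (fun Φ : S →ₛₗ[φ] k => Φ s₀) h0
    exact hΨ h1

/-- The `R`-span of the values of an additive character of a finitely generated group is a
finitely generated `R`-module (`R` any subring of `ℂ`). -/
theorem egx_span_fg (R : Subring ℂ) {G : Type*} [AddGroup G] [AddGroup.FG G] (ψ : G →+ ℂ) :
    (Submodule.span R (Set.range ψ)).FG := by
  obtain ⟨T, hT, hTfin⟩ := AddGroup.fg_iff.mp (inferInstance : AddGroup.FG G)
  have hle : Submodule.span R (Set.range ψ) = Submodule.span R (ψ '' T) := by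
    apply le_antisymm
    · rw [Submodule.span_le]
      rintro _ ⟨g, rfl⟩
      have hg : g ∈ AddSubgroup.closure T := by rw [hT]; trivial
      induction hg using AddSubgroup.closure_induction with
      | mem x hx => exact Submodule.subset_span ⟨x, hx, rfl⟩
      | zero => rw [map_zero]; exact Submodule.zero_mem _
      | add x y _ _ hx hy => rw [map_add]; exact Submodule.add_mem _ hx hy
      | neg x _ hx => rw [map_neg]; exact Submodule.neg_mem _ hx
    · exact Submodule.span_mono (Set.image_subset_range _ _)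
  rw [hle]
  exact Submodule.fg_span (hTfin.image _)

/-- Transport to a FIELD: `lam : T →+* ℂ`, `χ : T →+* K` with `ker lam ≤ ker χ`, and a nonzero
additive character `ψ : G →+ ℂ` of a finitely generated group.  Then there is a nonzero
`ψ₁ : G →+ K` satisfying the `χ`-image of every `T`-linear relation (coefficients through
`lam`) between the values of `ψ`. -/
theorem egx_field.{u, v, w, x} {T : Type x} [CommRing T] (lam : T →+* ℂ)
    {K : Type v} [Field K] (χ : T →+* K) (hker : RingHom.ker lam ≤ RingHom.ker χ)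
    {G : Type u} [AddGroup G] [AddGroup.FG G] (ψ : G →+ ℂ) (hψ : ψ ≠ 0) :
    ∃ ψ₁ : G →+ K, ψ₁ ≠ 0 ∧
      ∀ (I : Type w) (s : Finset I) (b : I → T) (γ : I → G),
        ∑ i ∈ s, lam (b i) * ψ (γ i) = 0 → ∑ i ∈ s, χ (b i) * ψ₁ (γ i) = 0 := by
  classical
  -- the ring hom `φ : lam.range → K`, `lam t ↦ χ t`
  let q : T ⧸ RingHom.ker lam →+* K :=
    Ideal.Quotient.lift (RingHom.ker lam) χ (fun a ha => RingHom.mem_ker.mp (hker ha))
  let e : T ⧸ RingHom.ker lam ≃+* lam.range := RingHom.quotientKerEquivRange lam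
  let φ : lam.range →+* K := q.comp (e.symm : lam.range →+* T ⧸ RingHom.ker lam)
  have hφ : ∀ t : T, φ ⟨lam t, ⟨t, rfl⟩⟩ = χ t := by
    intro t
    have h1 : e (Ideal.Quotient.mk (RingHom.ker lam) t) = ⟨lam t, ⟨t, rfl⟩⟩ := rfl
    show q (e.symm ⟨lam t, ⟨t, rfl⟩⟩) = χ t
    rw [← h1, RingEquiv.symm_apply_apply]
    rfl
  set S : Submodule lam.range ℂ := Submodule.span lam.range (Set.range ψ) with hS
  have hfg : S.FG := egx_span_fg lam.range ψ
  have hin : ∀ g, ψ g ∈ S := fun g => Submodule.subset_span ⟨g, rfl⟩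
  have : Module.Finite lam.range S := Module.Finite.iff_fg.mpr hfg
  have : Nontrivial S := by
    obtain ⟨g, hg⟩ : ∃ g, ψ g ≠ 0 := by
      by_contra hcon
      apply hψ
      ext g
      by_contra hg
      exact hcon ⟨g, hg⟩
    exact ⟨⟨⟨ψ g, hin g⟩, 0, fun h => hg (congrArg Subtype.val h)⟩⟩
  obtain ⟨Φ, hΦ⟩ := egx_core (S := S) φ
  let ψ₁ : G →+ K :=
    { toFun := fun g => Φ ⟨ψ g, hin g⟩
      map_zero' := by
        have : (⟨ψ 0, hin 0⟩ : S) = 0 := Subtype.ext (map_zero ψ)
        rw [this, map_zero]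
      map_add' := fun g h => by
        have : (⟨ψ (g + h), hin (g + h)⟩ : S) = ⟨ψ g, hin g⟩ + ⟨ψ h, hin h⟩ :=
          Subtype.ext (map_add ψ g h)
        rw [this, map_add] }
  have hψ₁ : ∀ g, ψ₁ g = Φ ⟨ψ g, hin g⟩ := fun g => rfl
  refine ⟨ψ₁, ?_, ?_⟩
  · intro h0
    apply hΦ
    ext ⟨x, hx⟩
    induction hx using Submodule.span_induction with
    | mem x hx =>
      obtain ⟨g, rfl⟩ := hx
      have := congrArg (fun f : G →+ K => f g) h0
      simpa [hψ₁] using this
    | zero =>
      have : (⟨0, S.zero_mem⟩ : S) = 0 := rfl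
      rw [this, map_zero, map_zero]
    | add x y hx hy ihx ihy =>
      have : (⟨x + y, S.add_mem hx hy⟩ : S) = ⟨x, hx⟩ + ⟨y, hy⟩ := rfl
      rw [this, map_add, ihx, ihy]; simp
    | smul c x hx ihx =>
      have : (⟨c • x, S.smul_mem c hx⟩ : S) = c • ⟨x, hx⟩ := rfl
      rw [this, map_smulₛₗ, ihx]; simp
  · intro I s b γ hrel
    have h1 : ∑ i ∈ s, χ (b i) * ψ₁ (γ i)
        = Φ (∑ i ∈ s, (⟨lam (b i), ⟨b i, rfl⟩⟩ : lam.range) • (⟨ψ (γ i), hin (γ i)⟩ : S)) := by
      rw [map_sum]
      refine Finset.sum_congr rfl fun i _ => ?_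
      rw [map_smulₛₗ, hψ₁, smul_eq_mul, hφ]
    have h2 : (∑ i ∈ s, (⟨lam (b i), ⟨b i, rfl⟩⟩ : lam.range) • (⟨ψ (γ i), hin (γ i)⟩ : S)) = 0 := by
      apply Subtype.ext
      rw [Submodule.coe_sum]
      simpa [Subring.smul_def] using hrel
    rw [h1, h2, map_zero]

/-- **Transport of eigenvectors.**  `lam : T →+* ℂ`, `χ : T →+* O` (`O` any domain) with
`ker lam ≤ ker χ`, and a nonzero additive character `ψ : G →+ ℂ` of a finitely generated
group.  Then there is a NONZERO `ψ' : G →+ O`, vanishing wherever `ψ` vanishes, which satisfies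
the `χ`-image of every `T`-linear relation (coefficients through `lam`) between the values of
`ψ`. -/
theorem egx_main.{u, v, w, x} {T : Type x} [CommRing T] (lam : T →+* ℂ)
    {O : Type v} [CommRing O] [IsDomain O] (χ : T →+* O)
    (hker : RingHom.ker lam ≤ RingHom.ker χ)
    {G : Type u} [AddGroup G] [AddGroup.FG G] (ψ : G →+ ℂ) (hψ : ψ ≠ 0) :
    ∃ ψ' : G →+ O, ψ' ≠ 0 ∧ (∀ g, ψ g = 0 → ψ' g = 0) ∧
      ∀ (I : Type w) (s : Finset I) (b : I → T) (γ : I → G),
        ∑ i ∈ s, lam (b i) * ψ (γ i) = 0 → ∑ i ∈ s, χ (b i) * ψ' (γ i) = 0 := by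
  classical
  have hinj : Function.Injective (algebraMap O (FractionRing O)) := IsFractionRing.injective _ _
  have hker' : RingHom.ker lam ≤ RingHom.ker ((algebraMap O (FractionRing O)).comp χ) := by
    intro a ha
    have := hker ha
    rw [RingHom.mem_ker] at this ⊢
    rw [RingHom.comp_apply, this, map_zero]
  obtain ⟨ψ₁, hψ₁, hrel₁⟩ := egx_field.{u, v, max w 0, x} lam
    ((algebraMap O (FractionRing O)).comp χ) hker' ψ hψ
  -- clear denominators on a finite generating set
  obtain ⟨T0, hT0, hT0fin⟩ := AddGroup.fg_iff.mp (inferInstance : AddGroup.FG G)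
  obtain ⟨d, hd⟩ := IsLocalization.exist_integer_multiples_of_finset (nonZeroDivisors O)
    (hT0fin.toFinset.image ψ₁)
  have hd0 : algebraMap O (FractionRing O) (d : O) ≠ 0 := by
    intro h
    exact nonZeroDivisors.coe_ne_zero d (hinj (by rw [h, map_zero]))
  have hint : ∀ g : G, ∃ y : O,
      algebraMap O (FractionRing O) y = algebraMap O (FractionRing O) (d : O) * ψ₁ g := by
    intro g
    have hg : g ∈ AddSubgroup.closure T0 := by rw [hT0]; trivial
    induction hg using AddSubgroup.closure_induction with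
    | mem x hx =>
      obtain ⟨y, hy⟩ := hd (ψ₁ x) (Finset.mem_image_of_mem _ (hT0fin.mem_toFinset.mpr hx))
      exact ⟨y, by rw [hy, Algebra.smul_def]⟩
    | zero => exact ⟨0, by simp⟩
    | add x y _ _ hx hy =>
      obtain ⟨a, ha⟩ := hx
      obtain ⟨b, hb⟩ := hy
      exact ⟨a + b, by rw [map_add, ha, hb, map_add, mul_add]⟩
    | neg x _ hx =>
      obtain ⟨a, ha⟩ := hx
      exact ⟨-a, by rw [map_neg, ha, map_neg, mul_neg]⟩
  choose f hf using hint
  let ψ' : G →+ O :=
    { toFun := f
      map_zero' := hinj (by rw [hf, map_zero, mul_zero, map_zero])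
      map_add' := fun g h => hinj (by rw [hf, map_add, mul_add, map_add, hf, hf]) }
  have hψ' : ∀ g, algebraMap O (FractionRing O) (ψ' g)
      = algebraMap O (FractionRing O) (d : O) * ψ₁ g := hf
  have hrel : ∀ (I : Type w) (s : Finset I) (b : I → T) (γ : I → G),
      ∑ i ∈ s, lam (b i) * ψ (γ i) = 0 → ∑ i ∈ s, χ (b i) * ψ' (γ i) = 0 := by
    intro I s b γ h
    apply hinj
    have h1 := hrel₁ I s b γ h
    rw [map_sum, map_zero]
    calc ∑ i ∈ s, algebraMap O (FractionRing O) (χ (b i) * ψ' (γ i))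
        = ∑ i ∈ s, algebraMap O (FractionRing O) (d : O) *
            (((algebraMap O (FractionRing O)).comp χ) (b i) * ψ₁ (γ i)) := by
          refine Finset.sum_congr rfl fun i _ => ?_
          rw [map_mul, hψ', RingHom.comp_apply]
          ring
      _ = algebraMap O (FractionRing O) (d : O) *
            ∑ i ∈ s, ((algebraMap O (FractionRing O)).comp χ) (b i) * ψ₁ (γ i) := by
          rw [Finset.mul_sum]
      _ = 0 := by rw [h1, mul_zero]
  refine ⟨ψ', ?_, ?_, hrel⟩
  · intro h0
    apply hψ₁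
    ext g
    have h1 := hψ' g
    rw [h0, AddMonoidHom.zero_apply, map_zero] at h1
    rcases mul_eq_zero.mp h1.symm with h2 | h2
    · exact absurd h2 hd0
    · simpa using h2
  · intro g hg
    have := hrel PUnit {PUnit.unit} (fun _ => 1) (fun _ => g) (by simpa using hg)
    simpa using this

/-- **Transport of eigenvectors, eigenvector form.**  As `egx_main`, for operators of transfer
shape `(T_l ψ) g = ∑ j, ψ (s l j g)` with eigenvalues `lam (t l)`: the reduced character has
eigenvalues `χ (t l)`. -/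
theorem egx_eigen.{u, v, w, x, y} {T : Type x} [CommRing T] (lam : T →+* ℂ)
    {O : Type v} [CommRing O] [IsDomain O] (χ : T →+* O)
    (hker : RingHom.ker lam ≤ RingHom.ker χ)
    {G : Type u} [AddGroup G] [AddGroup.FG G] (ψ : G →+ ℂ) (hψ : ψ ≠ 0)
    {ι : Type y} {J : ι → Type w} [∀ l, Fintype (J l)] (s : ∀ l, J l → G → G) (t : ι → T)
    (hT : ∀ l g, ∑ j, ψ (s l j g) = lam (t l) * ψ g) :
    ∃ ψ' : G →+ O, ψ' ≠ 0 ∧ (∀ g, ψ g = 0 → ψ' g = 0) ∧
      ∀ l g, ∑ j, ψ' (s l j g) = χ (t l) * ψ' g := by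
  classical
  obtain ⟨ψ', hψ', hzero, hrel⟩ := egx_main.{u, v, w, x} lam χ hker ψ hψ
  refine ⟨ψ', hψ', hzero, fun l g => ?_⟩
  have := hrel (Option (J l)) Finset.univ (fun o => o.elim (-(t l)) fun _ => 1)
    (fun o => o.elim g fun j => s l j g)
    (by
      rw [Fintype.sum_option]
      simp only [Option.elim_none, Option.elim_some, map_one, one_mul, map_neg]
      rw [hT l g]
      ring)
  rw [Fintype.sum_option] at this
  simp only [Option.elim_none, Option.elim_some, map_one, one_mul, map_neg] at this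
  linear_combination this

end Fermat.Agent.S30
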