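import Fermat.Agent.S30.FrontAbs
import Fermat.Agent.S30.EigS30
import Fermat.Agent.S30.ZpAlg
import Fermat.Agent.S30.TorsLevel
import Fermat.Agent.S29.HeckeTr
import Fermat.Agent.S29.Reduce
import Fermat.Agent.S29.CompareGenMain

/-!
# S30, package FRONT-INST (instantiation half)

`fri_main`: the abstract front end `frt_abs` instantiated at `X := Additive (Gamma0 N)`,
`S := redS N`, `J := JZero N`, `G := Gal(ℚ̄/ℚ)`, `Jn n := J₀(N)[p ^ n]`, the transfer sets of the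
Hecke operators `heckeTr`, `TJ ℓ := heckeOperatorBar N ℓ`, `ζ := zpaHom`, and the eigen-homomorphism
`egx_s30` of `χ`.  In `fri_main` the comparison maps at the moduli `p ^ n` enter as hypotheses in the shape of the
CMP-GEN contract; `fri_cmg` is the instance `Φ n := cmgPhi N (p ^ n)`.
-/

set_option autoImplicit false

open ModularCurve AlgebraicCurve CongruenceSubgroup
open scoped MatrixGroups

namespace Fermat.Agent.S30

open Fermat.Agent.S29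

local notation "Qb" => AlgebraicClosure ℚ

/-- every ring homomorphism from `ℤ_[p]` to a domain of characteristic zero is injective -/
theorem fri_ringHom_injective {p : ℕ} [Fact p.Prime] {O : Type*} [CommRing O] [IsDomain O]
    [CharZero O] (f : ℤ_[p] →+* O) : Function.Injective f := by
  rw [injective_iff_map_eq_zero]
  intro x hx
  by_contra hx0
  have h1 := PadicInt.unitCoeff_spec hx0
  rw [h1, map_mul, map_pow, map_natCast] at hx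
  rcases mul_eq_zero.mp hx with h | h
  · exact ((PadicInt.unitCoeff hx0).isUnit.map f).ne_zero h
  · exact (pow_ne_zero _ (Nat.cast_ne_zero.mpr (Fact.out : p.Prime).ne_zero)) h

/-- **FRONT-INST** (instantiation of `frt_abs`), with the comparison maps at the moduli `p ^ n`
as hypotheses. -/
theorem fri_main (p : ℕ) [Fact p.Prime] (N : ℕ) [NeZero N] (S : Finset ℕ) (hpS : p ∈ S)
    (𝒪' : Type) [CommRing 𝒪'] [IsDomain 𝒪'] [IsDiscreteValuationRing 𝒪']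
    [IsAdicComplete (IsLocalRing.maximalIdeal 𝒪') 𝒪'] [CharZero 𝒪']
    (hp𝒪' : (p : 𝒪') ∈ IsLocalRing.maximalIdeal 𝒪')
    (χ : CuspForm.heckeAlgebra N 2 (↑S : Set ℕ) →+* 𝒪')
    (Φ : ∀ n : ℕ, ↥(Pic0.torsion Qb (modularFunctionFieldBar N) (p ^ n)) →+
      (Additive (Gamma0 N) →+ ZMod (p ^ n)))
    (hΦ : ∀ n, Function.Injective (Φ n))
    (hΦS : ∀ (n : ℕ) (ψ : Additive (Gamma0 N) →+ ZMod (p ^ n)),
      (∀ s ∈ redS N, ψ s = 0) → ψ ∈ Set.range (Φ n))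
    (hlev : ∀ (n : ℕ) (y : ↥(Pic0.torsion Qb (modularFunctionFieldBar N) (p ^ (n + 1))))
      (y' : ↥(Pic0.torsion Qb (modularFunctionFieldBar N) (p ^ n))),
      (y' : JZero N) = p • (y : JZero N) →
      ∀ x, Φ n y' x = ZMod.castHom (pow_dvd_pow p n.le_succ) (ZMod (p ^ n)) (Φ (n + 1) y x))
    (hΦT : ∀ (n : ℕ) (ℓ : ℕ) (hℓ : ℓ.Prime), ¬ ℓ ∣ N →
      ∀ c c' : ↥(Pic0.torsion Qb (modularFunctionFieldBar N) (p ^ n)),
      (c' : JZero N) = heckeOperatorBar N ⟨ℓ, hℓ⟩ (c : JZero N) →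
      Φ n c' = heckeTr N ℓ (ZMod (p ^ n)) (Φ n c)) :
    ∃ (V : Type) (_ : AddCommGroup V) (_ : Module 𝒪' V) (_ : Module.Free 𝒪' V)
      (_ : Module.Finite 𝒪' V) (_ : Nontrivial V)
      (ρ : (Qb ≃ₐ[ℚ] Qb) →* Module.End 𝒪' V),
      (∀ g : Qb ≃ₐ[ℚ] Qb,
        (∀ (n : ℕ) (y : JZero N), y ∈ Pic0.torsion Qb (modularFunctionFieldBar N) (p ^ n) →
          g • y = y) → ρ g = 1) ∧
      (∀ (g : Qb ≃ₐ[ℚ] Qb) (ℓ : ℕ) (hℓ : ℓ.Prime) (hℓN : ¬ ℓ ∣ N) (hℓS : ℓ ∉ (↑S : Set ℕ)),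
        (∀ (n : ℕ) (y : JZero N), y ∈ Pic0.torsion Qb (modularFunctionFieldBar N) (p ^ n) →
          g • g • y - heckeOperatorBar N ⟨ℓ, hℓ⟩ (g • y) + ℓ • y = 0) →
        ρ g * ρ g - χ (CuspForm.heckeAlgebra.T hℓ hℓN hℓS) • ρ g +
          (ℓ : 𝒪') • (1 : Module.End 𝒪' V) = 0) ∧
      ∃ e : ℕ, ∀ (n : ℕ) (g : Qb ≃ₐ[ℚ] Qb),
        (∀ y : JZero N, y ∈ Pic0.torsion Qb (modularFunctionFieldBar N) (p ^ (n + e)) →
          g • y = y) →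
        ∀ w : V, ρ g w - w ∈ (Ideal.span {(p : 𝒪')} ^ n) • (⊤ : Submodule 𝒪' V) := by
  classical
  have hp : p.Prime := Fact.out
  have : AddGroup.FG (Additive (Gamma0 N)) := egr_gamma0_fg N
  have hℓp : ∀ ℓ : ℕ, ℓ ∉ (↑S : Set ℕ) → ℓ ≠ p := by
    rintro ℓ hℓS rfl
    exact hℓS (Finset.mem_coe.mpr hpS)
  obtain ⟨v, hv, hvS, hTv⟩ := egx_s30 N S χ
  let ι : Type := {l : ℕ // l.Prime ∧ ¬ l ∣ N ∧ l ∉ (↑S : Set ℕ)}
  let K : ι → Type := fun i => Option (Fin i.1)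
  let s : ∀ i : ι, K i → Additive (Gamma0 N) → Additive (Gamma0 N) := fun i k x =>
    Additive.ofMul (heckeTrCoc i.2.1 i.2.2.1 (Additive.toMul x) k)
  have hsum : ∀ (i : ι) {A : Type} [AddCommGroup A] (ψ : Additive (Gamma0 N) →+ A)
      (x : Additive (Gamma0 N)), ∑ k : K i, ψ (s i k x) = heckeTr N i.1 A ψ x :=
    fun i A _ ψ x => (heckeTr_apply i.2.1 i.2.2.1 ψ (Additive.toMul x)).symm
  obtain ⟨V, i1, i2, i3, i4, i5, ρ, h1, h2, h3⟩ :=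
    frt_abs p (redS N) (J := JZero N) (G := Qb ≃ₐ[ℚ] Qb)
      (fun n => Pic0.torsion Qb (modularFunctionFieldBar N) (p ^ n))
      (fun n y => tlv_mem_torsion N (p ^ n) y) Φ hΦ hΦS hlev (ι := ι) (K := K) s
      (fun i ψ x y => by rw [hsum, hsum, hsum, map_add])
      (fun i => (heckeOperatorBar N ⟨i.1, i.2.1⟩).toAddMonoidHom)
      (fun i n y y' hyy' x => by
        rw [hΦT n i.1 i.2.1 i.2.2.1 y y' hyy', ← hsum])
      (fun i g n y hy => tlv_hecke_galois N hp i.2.1 i.2.2.1 (hℓp i.1 i.2.2.2) n g y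
        ((tlv_mem_torsion N (p ^ n) y).mp hy))
      (zpaHom p 𝒪' hp𝒪') (fri_ringHom_injective _)
      (fun i => χ (CuspForm.heckeAlgebra.T i.2.1 i.2.2.1 i.2.2.2)) v hv hvS
      (fun i x => hTv i.1 i.2.1 i.2.2.1 i.2.2.2 (Additive.toMul x))
  refine ⟨V, i1, i2, i3, i4, i5, ρ, h1, ?_, h3⟩
  intro g ℓ hℓ hℓN hℓS hrel
  exact h2 g ⟨ℓ, hℓ, hℓN, hℓS⟩ ℓ hrel

/-- **FRONT-INST**: the lattice `(V, ρ)` of S30, controlled by the torsion levels of `J₀(N)`. -/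
theorem fri_cmg (p : ℕ) [Fact p.Prime] (N : ℕ) [NeZero N] (S : Finset ℕ) (hpS : p ∈ S)
    (𝒪' : Type) [CommRing 𝒪'] [IsDomain 𝒪'] [IsDiscreteValuationRing 𝒪']
    [IsAdicComplete (IsLocalRing.maximalIdeal 𝒪') 𝒪'] [CharZero 𝒪']
    (hp𝒪' : (p : 𝒪') ∈ IsLocalRing.maximalIdeal 𝒪')
    (χ : CuspForm.heckeAlgebra N 2 (↑S : Set ℕ) →+* 𝒪') :
    ∃ (V : Type) (_ : AddCommGroup V) (_ : Module 𝒪' V) (_ : Module.Free 𝒪' V)
      (_ : Module.Finite 𝒪' V) (_ : Nontrivial V)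
      (ρ : (Qb ≃ₐ[ℚ] Qb) →* Module.End 𝒪' V),
      (∀ g : Qb ≃ₐ[ℚ] Qb,
        (∀ (n : ℕ) (y : JZero N), y ∈ Pic0.torsion Qb (modularFunctionFieldBar N) (p ^ n) →
          g • y = y) → ρ g = 1) ∧
      (∀ (g : Qb ≃ₐ[ℚ] Qb) (ℓ : ℕ) (hℓ : ℓ.Prime) (hℓN : ¬ ℓ ∣ N) (hℓS : ℓ ∉ (↑S : Set ℕ)),
        (∀ (n : ℕ) (y : JZero N), y ∈ Pic0.torsion Qb (modularFunctionFieldBar N) (p ^ n) →
          g • g • y - heckeOperatorBar N ⟨ℓ, hℓ⟩ (g • y) + ℓ • y = 0) →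
        ρ g * ρ g - χ (CuspForm.heckeAlgebra.T hℓ hℓN hℓS) • ρ g +
          (ℓ : 𝒪') • (1 : Module.End 𝒪' V) = 0) ∧
      ∃ e : ℕ, ∀ (n : ℕ) (g : Qb ≃ₐ[ℚ] Qb),
        (∀ y : JZero N, y ∈ Pic0.torsion Qb (modularFunctionFieldBar N) (p ^ (n + e)) →
          g • y = y) →
        ∀ w : V, ρ g w - w ∈ (Ideal.span {(p : 𝒪')} ^ n) • (⊤ : Submodule 𝒪' V) :=
  fri_main p N S hpS 𝒪' hp𝒪' χ (fun n => cmgPhi N (p ^ n)) (fun n => cmg_injective N (p ^ n))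
    (fun n => cmg_surj N (p ^ n)) (fun n y y' h x => cmg_level_pow N p n y y' h x)
    (fun n _ hℓ hℓN c c' h => cmg_hecke_rel N (p ^ n) hℓ hℓN c c' h)

end Fermat.Agent.S30
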