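import Mathlib

/-!
# S30 / S31 prep, package HOM-BC: homomorphisms from a finitely generated group into
torsion-free coefficient groups

Let `G` be a finitely generated additive group (not necessarily commutative) and `S ⊆ G`.
There are finitely many homomorphisms `hbcLam S j : G →+ ℤ` killing `S` such that for every
torsion-free abelian group `M` every homomorphism `ψ : G →+ M` killing `S` is
`ψ x = ∑ j, hbcLam S j x • c j` for a unique family `c : Fin (hbcRank S) → M`
(`hbc_existsUnique`).  In other words `Hom_S(G, M) ≃ M ^ r`, naturally in `M`.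

Proof: the universal abelian group `HbcAb S` receiving an `S`-killing homomorphism from `G` is a
finitely generated `ℤ`-module; its quotient by the torsion is free; take the dual basis.
-/

set_option autoImplicit false
set_option linter.unusedSectionVars false

namespace Fermat.Agent.S30

section HomBC

variable {G : Type*} [AddGroup G] (S : Set G)

/-- the relations: additivity, and vanishing on `S` -/
noncomputable def hbcRel : Submodule ℤ (G →₀ ℤ) :=
  Submodule.span ℤ
    ({v | ∃ x y : G, v = Finsupp.single (x + y) 1 - Finsupp.single x 1 - Finsupp.single y 1} ∪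
      {v | ∃ s ∈ S, v = Finsupp.single s 1})

/-- the universal abelian group receiving an `S`-killing homomorphism from `G` -/
abbrev HbcAb : Type _ := (G →₀ ℤ) ⧸ hbcRel S

/-- the universal homomorphism -/
noncomputable def hbcIota : G →+ HbcAb S :=
  AddMonoidHom.mk' (fun x => Submodule.Quotient.mk (Finsupp.single x 1)) (by
    intro x y
    rw [← Submodule.Quotient.mk_add, Submodule.Quotient.eq]
    apply Submodule.subset_span
    left
    exact ⟨x, y, by abel⟩)

theorem hbcIota_apply (x : G) :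
    hbcIota S x = Submodule.Quotient.mk (Finsupp.single x 1) := rfl

theorem hbcIota_kills (s : G) (hs : s ∈ S) : hbcIota S s = 0 := by
  rw [hbcIota_apply, Submodule.Quotient.mk_eq_zero]
  exact Submodule.subset_span (Or.inr ⟨s, hs, rfl⟩)

theorem hbc_span_range : Submodule.span ℤ (Set.range (hbcIota S)) = ⊤ := by
  have h1 : Submodule.span ℤ (Set.range (fun x : G => (Finsupp.single x (1 : ℤ) : G →₀ ℤ))) = ⊤ := by
    have := (Finsupp.basisSingleOne (R := ℤ) (ι := G)).span_eq
    rwa [Finsupp.coe_basisSingleOne] at this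
  have h2 : Set.range (hbcIota S) =
      (hbcRel S).mkQ '' Set.range (fun x : G => (Finsupp.single x (1 : ℤ) : G →₀ ℤ)) := by
    ext a
    constructor
    · rintro ⟨x, rfl⟩
      exact ⟨_, ⟨x, rfl⟩, rfl⟩
    · rintro ⟨_, ⟨x, rfl⟩, rfl⟩
      exact ⟨x, rfl⟩
  rw [h2, ← Submodule.map_span, h1, Submodule.map_top, Submodule.range_mkQ]

theorem hbc_lift_single {M : Type*} [AddCommGroup M] (ψ : G →+ M) (x : G) :
    Finsupp.lift M ℤ G (fun x => ψ x) (Finsupp.single x 1) = ψ x := by
  simp

/-- the universal property -/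
noncomputable def hbcLift {M : Type*} [AddCommGroup M] (ψ : G →+ M) (hψ : ∀ s ∈ S, ψ s = 0) :
    HbcAb S →ₗ[ℤ] M :=
  (hbcRel S).liftQ (Finsupp.lift M ℤ G (fun x => ψ x)) (by
    rw [hbcRel, Submodule.span_le]
    rintro v (⟨x, y, rfl⟩ | ⟨s, hs, rfl⟩)
    · rw [SetLike.mem_coe, LinearMap.mem_ker, map_sub, map_sub, hbc_lift_single, hbc_lift_single,
        hbc_lift_single, map_add]
      abel
    · rw [SetLike.mem_coe, LinearMap.mem_ker, hbc_lift_single, hψ s hs])

theorem hbcLift_iota {M : Type*} [AddCommGroup M] (ψ : G →+ M) (hψ : ∀ s ∈ S, ψ s = 0) (x : G) :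
    hbcLift S ψ hψ (hbcIota S x) = ψ x := by
  rw [hbcIota_apply, hbcLift, Submodule.liftQ_apply, hbc_lift_single]

variable [AddGroup.FG G]

theorem hbc_finite : Module.Finite ℤ (HbcAb S) := by
  obtain ⟨T, hT, hTfin⟩ := AddGroup.fg_iff.mp (inferInstance : AddGroup.FG G)
  have h1 : ∀ x : G, hbcIota S x ∈ Submodule.span ℤ (hbcIota S '' T) := by
    intro x
    have hx : x ∈ AddSubgroup.closure T := by rw [hT]; trivial
    induction hx using AddSubgroup.closure_induction with
    | mem y hy => exact Submodule.subset_span ⟨y, hy, rfl⟩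
    | zero => rw [map_zero]; exact Submodule.zero_mem _
    | add y z _ _ hy hz => rw [map_add]; exact Submodule.add_mem _ hy hz
    | neg y _ hy => rw [map_neg]; exact Submodule.neg_mem _ hy
  have h2 : Submodule.span ℤ (hbcIota S '' T) = ⊤ := by
    rw [eq_top_iff, ← hbc_span_range S, Submodule.span_le]
    rintro _ ⟨x, rfl⟩
    exact h1 x
  exact Module.finite_def.mpr (Submodule.fg_def.mpr ⟨_, hTfin.image _, h2⟩)

/-- the torsion-free quotient -/
abbrev HbcFree : Type _ := HbcAb S ⧸ Submodule.torsion ℤ (HbcAb S)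

instance hbcFree_finite : Module.Finite ℤ (HbcFree S) := by
  have := hbc_finite S
  infer_instance

/-- the rank of `Hom_S(G, ℤ)` -/
noncomputable def hbcRank : ℕ := Module.finrank ℤ (HbcFree S)

/-- a basis of the torsion-free quotient -/
noncomputable def hbcBasis : Module.Basis (Fin (hbcRank S)) ℤ (HbcFree S) :=
  Module.finBasis ℤ (HbcFree S)

/-- the projection `G → HbcFree S` -/
noncomputable def hbcProj : G →+ HbcFree S :=
  ((Submodule.torsion ℤ (HbcAb S)).mkQ : HbcAb S →+ HbcFree S).comp (hbcIota S)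

theorem hbc_span_proj : Submodule.span ℤ (Set.range (hbcProj S)) = ⊤ := by
  have h2 : Set.range (hbcProj S) =
      (Submodule.torsion ℤ (HbcAb S)).mkQ '' Set.range (hbcIota S) := by
    ext a
    constructor
    · rintro ⟨x, rfl⟩
      exact ⟨_, ⟨x, rfl⟩, rfl⟩
    · rintro ⟨_, ⟨x, rfl⟩, rfl⟩
      exact ⟨x, rfl⟩
  rw [h2, ← Submodule.map_span, hbc_span_range, Submodule.map_top, Submodule.range_mkQ]

/-- **the universal family** of `S`-killing homomorphisms `G →+ ℤ` -/
noncomputable def hbcLam (j : Fin (hbcRank S)) : G →+ ℤ :=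
  ((hbcBasis S).coord j : HbcFree S →+ ℤ).comp (hbcProj S)

theorem hbcLam_apply (j : Fin (hbcRank S)) (x : G) :
    hbcLam S j x = (hbcBasis S).repr (hbcProj S x) j := rfl

theorem hbcLam_kills (j : Fin (hbcRank S)) (s : G) (hs : s ∈ S) : hbcLam S j s = 0 := by
  have h : hbcProj S s = 0 := by
    show (Submodule.torsion ℤ (HbcAb S)).mkQ (hbcIota S s) = 0
    rw [hbcIota_kills S s hs, map_zero]
  rw [hbcLam_apply, h, map_zero]
  rfl

/-- the homomorphism on the torsion-free quotient induced by an `S`-killing homomorphism into a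
torsion-free group -/
noncomputable def hbcLiftFree {M : Type*} [AddCommGroup M] [IsAddTorsionFree M] (ψ : G →+ M)
    (hψ : ∀ s ∈ S, ψ s = 0) : HbcFree S →ₗ[ℤ] M :=
  (Submodule.torsion ℤ (HbcAb S)).liftQ (hbcLift S ψ hψ) (by
    intro a ha
    rw [LinearMap.mem_ker]
    obtain ⟨n, hn⟩ := (Submodule.mem_torsion_iff a).mp ha
    have h1 : (n : ℤ) • hbcLift S ψ hψ a = 0 := by
      rw [← map_smul]
      have : (n : ℤ) • a = 0 := hn
      rw [this, map_zero]
    have hn0 : (n : ℤ) ≠ 0 := nonZeroDivisors.coe_ne_zero n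
    exact (smul_eq_zero.mp h1).resolve_left hn0)

theorem hbcLiftFree_proj {M : Type*} [AddCommGroup M] [IsAddTorsionFree M] (ψ : G →+ M)
    (hψ : ∀ s ∈ S, ψ s = 0) (x : G) : hbcLiftFree S ψ hψ (hbcProj S x) = ψ x := by
  show (Submodule.torsion ℤ (HbcAb S)).liftQ (hbcLift S ψ hψ) _
    (Submodule.Quotient.mk (hbcIota S x)) = ψ x
  rw [Submodule.liftQ_apply, hbcLift_iota]

/-- existence of the coefficients -/
theorem hbc_exists {M : Type*} [AddCommGroup M] [IsAddTorsionFree M] (ψ : G →+ M)
    (hψ : ∀ s ∈ S, ψ s = 0) :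
    ∀ x, ψ x = ∑ j, hbcLam S j x • hbcLiftFree S ψ hψ (hbcBasis S j) := by
  intro x
  conv_lhs => rw [← hbcLiftFree_proj S ψ hψ x, ← (hbcBasis S).sum_repr (hbcProj S x)]
  rw [map_sum]
  refine Finset.sum_congr rfl (fun j _ => ?_)
  rw [map_smul]
  rfl

/-- uniqueness of the coefficients -/
theorem hbc_unique {M : Type*} [AddCommGroup M] (c c' : Fin (hbcRank S) → M)
    (h : ∀ x, ∑ j, hbcLam S j x • c j = ∑ j, hbcLam S j x • c' j) : c = c' := by
  have key : (hbcBasis S).constr ℤ c = (hbcBasis S).constr ℤ c' := by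
    apply LinearMap.ext_on (hbc_span_proj S)
    rintro _ ⟨x, rfl⟩
    rw [Module.Basis.constr_apply_fintype, Module.Basis.constr_apply_fintype]
    exact h x
  funext j
  have := congrArg (fun f => f (hbcBasis S j)) key
  simpa [Module.Basis.constr_basis] using this

/-- **HOM-BC**: every `S`-killing homomorphism from `G` into a torsion-free abelian group is a
unique combination of the universal family `hbcLam S`. -/
theorem hbc_existsUnique {M : Type*} [AddCommGroup M] [IsAddTorsionFree M] (ψ : G →+ M)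
    (hψ : ∀ s ∈ S, ψ s = 0) :
    ∃! c : Fin (hbcRank S) → M, ∀ x, ψ x = ∑ j, hbcLam S j x • c j := by
  refine ⟨fun j => hbcLiftFree S ψ hψ (hbcBasis S j), hbc_exists S ψ hψ, fun c' hc' => ?_⟩
  apply hbc_unique S
  intro x
  rw [← hc' x, ← hbc_exists S ψ hψ x]

/-- HOM-BC in existential form (one universe of coefficient groups at a time). -/
theorem hbc_main.{v} :
    ∃ (r : ℕ) (lam : Fin r → (G →+ ℤ)), (∀ j, ∀ s ∈ S, lam j s = 0) ∧
      ∀ (M : Type v) [AddCommGroup M] [IsAddTorsionFree M] (ψ : G →+ M),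
        (∀ s ∈ S, ψ s = 0) → ∃! c : Fin r → M, ∀ x, ψ x = ∑ j, lam j x • c j :=
  ⟨hbcRank S, hbcLam S, hbcLam_kills S, fun _ _ _ ψ hψ => hbc_existsUnique S ψ hψ⟩

/-- HOM-BC for ring-valued homomorphisms (e.g. a field of characteristic zero, `ℤ_[p]`, a
domain of characteristic zero): coefficients times integer-valued homomorphisms. -/
theorem hbc_ring {K : Type*} [Ring K] [IsAddTorsionFree K] (ψ : G →+ K)
    (hψ : ∀ s ∈ S, ψ s = 0) :
    ∃! c : Fin (hbcRank S) → K, ∀ x, ψ x = ∑ j, (hbcLam S j x : K) * c j := by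
  obtain ⟨c, hc, huniq⟩ := hbc_existsUnique S ψ hψ
  refine ⟨c, fun x => ?_, fun c' hc' => huniq c' (fun x => ?_)⟩
  · rw [hc x]
    exact Finset.sum_congr rfl (fun j _ => zsmul_eq_mul _ _)
  · rw [hc' x]
    exact Finset.sum_congr rfl (fun j _ => (zsmul_eq_mul _ _).symm)

/-- the integer-valued `S`-killing homomorphisms are the integer combinations of `hbcLam S` -/
theorem hbc_int (l : G →+ ℤ) (hl : ∀ s ∈ S, l s = 0) :
    ∃! c : Fin (hbcRank S) → ℤ, ∀ x, l x = ∑ j, c j * hbcLam S j x := by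
  obtain ⟨c, hc, huniq⟩ := hbc_existsUnique S l hl
  refine ⟨c, fun x => ?_, fun c' hc' => huniq c' (fun x => ?_)⟩
  · rw [hc x]
    exact Finset.sum_congr rfl (fun j _ => by rw [smul_eq_mul, mul_comm])
  · rw [hc' x]
    exact Finset.sum_congr rfl (fun j _ => by rw [smul_eq_mul, mul_comm])

/-- the combination `x ↦ ∑ j, lam j x • c j` as a homomorphism -/
noncomputable def hbcComb {M : Type*} [AddCommGroup M] (c : Fin (hbcRank S) → M) : G →+ M :=
  ∑ j, (zmultiplesHom M (c j)).comp (hbcLam S j)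

theorem hbcComb_apply {M : Type*} [AddCommGroup M] (c : Fin (hbcRank S) → M) (x : G) :
    hbcComb S c x = ∑ j, hbcLam S j x • c j := by
  rw [hbcComb, AddMonoidHom.finsetSum_apply]
  rfl

theorem hbcComb_kills {M : Type*} [AddCommGroup M] (c : Fin (hbcRank S) → M) (s : G)
    (hs : s ∈ S) : hbcComb S c s = 0 := by
  rw [hbcComb_apply]
  exact Finset.sum_eq_zero (fun j _ => by rw [hbcLam_kills S j s hs, zero_smul])

theorem hbc_eq_comb {M : Type*} [AddCommGroup M] [IsAddTorsionFree M] (ψ : G →+ M)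
    (hψ : ∀ s ∈ S, ψ s = 0) : ∃ c : Fin (hbcRank S) → M, ψ = hbcComb S c := by
  obtain ⟨c, hc, -⟩ := hbc_existsUnique S ψ hψ
  exact ⟨c, AddMonoidHom.ext (fun x => by rw [hc x, hbcComb_apply])⟩

/-- **Naturality.**  A family of operators on `Hom(G, -)` which is natural in the coefficient
group (for the homomorphisms `ℤ →+ M`, `n ↦ n • c`) acts on a combination through its action on
the integer-valued homomorphisms. -/
theorem hbc_natural {M : Type*} [AddCommGroup M] (TZ : (G →+ ℤ) →+ (G →+ ℤ))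
    (TM : (G →+ M) →+ (G →+ M))
    (hnat : ∀ (c : M) (l : G →+ ℤ),
      TM ((zmultiplesHom M c).comp l) = (zmultiplesHom M c).comp (TZ l))
    (c : Fin (hbcRank S) → M) (x : G) :
    TM (hbcComb S c) x = ∑ j, TZ (hbcLam S j) x • c j := by
  rw [hbcComb, map_sum, AddMonoidHom.finsetSum_apply]
  refine Finset.sum_congr rfl (fun j _ => ?_)
  rw [hnat]
  rfl

/-- If an integer-valued operator identity `TZ l = n • TZ' l` holds on the universal family,
then `TM ψ = n • TM' ψ` for every `S`-killing `ψ` with torsion-free coefficients. -/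
theorem hbc_transfer {M : Type*} [AddCommGroup M] [IsAddTorsionFree M]
    (TZ TZ' : (G →+ ℤ) →+ (G →+ ℤ)) (TM TM' : (G →+ M) →+ (G →+ M))
    (hnat : ∀ (c : M) (l : G →+ ℤ),
      TM ((zmultiplesHom M c).comp l) = (zmultiplesHom M c).comp (TZ l))
    (hnat' : ∀ (c : M) (l : G →+ ℤ),
      TM' ((zmultiplesHom M c).comp l) = (zmultiplesHom M c).comp (TZ' l))
    (n : ℤ) (h : ∀ j, TZ (hbcLam S j) = n • TZ' (hbcLam S j))
    (ψ : G →+ M) (hψ : ∀ s ∈ S, ψ s = 0) : TM ψ = n • TM' ψ := by
  obtain ⟨c, rfl⟩ := hbc_eq_comb S ψ hψ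
  ext x
  rw [hbc_natural S TZ TM hnat c x, AddMonoidHom.smul_apply, hbc_natural S TZ' TM' hnat' c x,
    Finset.smul_sum]
  refine Finset.sum_congr rfl (fun j _ => ?_)
  rw [h j, AddMonoidHom.smul_apply, smul_assoc]

end HomBC

end Fermat.Agent.S30
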