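import Mathlib
import Fermat.Agent.S29.LinAlg

/-!
# S30 preparation, package LINALG-STRUCT: the structured form of the linear-algebra trick

`las_main`: if every element `g` of a group acts on a nonzero finite-dimensional space `V` over
an algebraically closed field through a root of `X^2 - a(g) X + ε(g)` (`ε` a character), then
EITHER there is a common eigenvector (with a character `ψ`), OR there are two linearly
independent vectors spanning a stable plane on which `g` acts through a matrix `M g` with
characteristic polynomial `X^2 - a(g) X + ε(g)`.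

This is the content of `Fermat.Agent.S29.s29la_main`, keeping track of WHERE the representation
lives inside `V` (needed to descend it to a finite extension of the base field).
-/

set_option autoImplicit false

namespace Fermat.Agent.S30

open Polynomial Fermat.Agent.S29

section

variable {k : Type*} [Field k] {G : Type*} [Group G] {V : Type*} [AddCommGroup V] [Module k V]

/-- a stable line gives a common eigenvector and a character -/
theorem las_of_finrank_one (ρ : G →* Module.End k V) (U : Submodule k V)
    (hU : ∀ g, ∀ x ∈ U, ρ g x ∈ U) (h1 : Module.finrank k U = 1) :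
    ∃ (ψ : G →* kˣ) (w : V), w ≠ 0 ∧ ∀ g, ρ g w = ((ψ g : kˣ) : k) • w := by
  obtain ⟨w0, hw0, hspan⟩ := finrank_eq_one_iff'.mp h1
  set w : V := (w0 : V) with hw
  have hwne : w ≠ 0 := fun h => hw0 (Subtype.ext h)
  have hex : ∀ g, ∃ c : k, ρ g w = c • w := by
    intro g
    obtain ⟨c, hc⟩ := hspan ⟨ρ g w, hU g w w0.2⟩
    exact ⟨c, by simpa [hw] using (congrArg Subtype.val hc).symm⟩
  choose c hc using hex
  have hinv : ∀ g, ρ g⁻¹ (ρ g w) = w := by
    intro g
    rw [← Module.End.mul_apply, ← map_mul, inv_mul_cancel, map_one, Module.End.one_apply]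
  have hc0 : ∀ g, c g ≠ 0 := by
    intro g h0
    have h2 := hinv g
    rw [hc g, h0, zero_smul, map_zero] at h2
    exact hwne h2.symm
  have hmul : ∀ g h, c (g * h) = c g * c h := by
    intro g h
    have h2 : ρ (g * h) w = (c g * c h) • w := by
      rw [map_mul, Module.End.mul_apply, hc h, map_smul, hc g, smul_smul, mul_comm]
    rw [hc (g * h)] at h2
    have h3 : (c (g * h) - c g * c h) • w = 0 := by rw [sub_smul, h2, sub_self]
    rcases smul_eq_zero.1 h3 with h4 | h4
    · exact sub_eq_zero.mp h4
    · exact absurd h4 hwne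
  have hone : c 1 = 1 := by
    have h2 := hc 1
    rw [map_one, Module.End.one_apply] at h2
    have h3 : (c 1 - 1) • w = 0 := by rw [sub_smul, one_smul, ← h2, sub_self]
    rcases smul_eq_zero.1 h3 with h4 | h4
    · exact sub_eq_zero.mp h4
    · exact absurd h4 hwne
  refine ⟨{ toFun := fun g => Units.mk0 (c g) (hc0 g)
            map_one' := Units.ext hone
            map_mul' := fun g h => Units.ext (hmul g h) }, w, hwne, fun g => ?_⟩
  exact hc g

/-- **Structured form of the linear-algebra trick.** -/
theorem las_main [IsAlgClosed k] [FiniteDimensional k V] [Nontrivial V]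
    (ρ : G →* Module.End k V) (ε : G →* kˣ) (a : G → k)
    (hrel : ∀ g, ρ g * ρ g - a g • ρ g + ((ε g : kˣ) : k) • (1 : Module.End k V) = 0) :
    (∃ (ψ : G →* kˣ) (w : V), w ≠ 0 ∧ ∀ g, ρ g w = ((ψ g : kˣ) : k) • w) ∨
    (∃ (w : Fin 2 → V) (M : G →* Matrix (Fin 2) (Fin 2) k), LinearIndependent k w ∧
      (∀ g j, ρ g (w j) = ∑ i, M g i j • w i) ∧
      ∀ g, (M g).charpoly = X ^ 2 - C (a g) * X + C ((ε g : kˣ) : k)) := by
  have hvec : ∀ g v, ρ g (ρ g v) - a g • ρ g v + ((ε g : kˣ) : k) • v = 0 := by
    intro g v
    have := LinearMap.congr_fun (hrel g) v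
    simpa using this
  obtain ⟨U, hU0, hUinv, hUmin⟩ := s29la_exists_min ρ
  have hnt : Nontrivial U := (Submodule.nontrivial_iff_ne_bot).2 hU0
  have hrelU : ∀ g (v : U), s29laRes ρ U hUinv g (s29laRes ρ U hUinv g v) -
      a g • s29laRes ρ U hUinv g v + ((ε g : kˣ) : k) • v = 0 := by
    intro g v
    apply Subtype.ext
    simpa [s29laRes_coe] using hvec g (v : V)
  have hirr := s29laRes_irr ρ U hUinv hUmin
  have hpos : 0 < Module.finrank k U := Module.finrank_pos
  by_cases hs : ∀ g, ∃ c : k, s29laRes ρ U hUinv g = c • (1 : Module.End k U)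
  · left
    have h1 : Module.finrank k U = 1 := by
      have := s29la_finrank_le_one (s29laRes ρ U hUinv) hirr hs
      omega
    exact las_of_finrank_one ρ U hUinv h1
  · push Not at hs
    obtain ⟨g₀, hg₀⟩ := hs
    obtain ⟨α, hα⟩ : ∃ α : k, α * α - a g₀ * α + ((ε g₀ : kˣ) : k) = 0 := by
      have hdeg : (C (1 : k) * X ^ 2 + C (-a g₀) * X + C ((ε g₀ : kˣ) : k) : k[X]).degree ≠ 0 := by
        rw [Polynomial.degree_quadratic one_ne_zero]
        norm_num
      obtain ⟨α, hα⟩ := IsAlgClosed.exists_root _ hdeg
      refine ⟨α, ?_⟩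
      have h := hα
      simp only [IsRoot, eval_add, eval_mul, eval_C, eval_pow, eval_X] at h
      linear_combination h
    have h2 : Module.finrank k U ≤ 2 :=
      s29la_finrank_le_two (s29laRes ρ U hUinv) ε a hrelU hirr g₀ α (a g₀ - α) (by ring)
        (by linear_combination -hα) hg₀
    rcases Nat.lt_or_ge (Module.finrank k U) 2 with h | h
    · left
      exact las_of_finrank_one ρ U hUinv (by omega)
    · right
      have h2' : Module.finrank k U = 2 := by omega
      let b := Module.finBasisOfFinrankEq k U h2'
      refine ⟨fun i => (b i : V), s29laMat b (s29laRes ρ U hUinv), ?_, ?_, ?_⟩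
      · exact b.linearIndependent.map' U.subtype (Submodule.ker_subtype U)
      · intro g j
        have h3 : s29laRes ρ U hUinv g (b j) =
            ∑ i, s29laMat b (s29laRes ρ U hUinv) g i j • b i := by
          conv_lhs => rw [← b.sum_repr (s29laRes ρ U hUinv g (b j))]
          refine Finset.sum_congr rfl (fun i _ => ?_)
          rw [s29laMat_apply, LinearMap.toMatrix_apply]
        have h4 := congrArg (Subtype.val) h3
        rw [s29laRes_coe] at h4
        rw [h4]
        simp
      · intro g
        refine s29la_matrix_charpoly (s29laMat b (s29laRes ρ U hUinv)) ε a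
          (fun g => s29laMat_rel b (s29laRes ρ U hUinv) g _ _ (hrelU g)) g₀ ?_ g
        intro c hc
        apply hg₀ c
        apply (LinearMap.toMatrix b b).injective
        rw [map_smul, LinearMap.toMatrix_one]
        exact hc

end

end Fermat.Agent.S30
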