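import Mathlib

/-!
# S30 preparation, package QUAD-LIM: limits of quadratic relations

`qlm_main`: `V` a nonzero finite free module over an `I`-adically complete ring `R`, `g` a
surjective endomorphism of `V`, `e : R`.  If for every `n` there is `b_n : R` with
`(g^2 - b_n g + e) V ⊆ I^n V`, then there is `b : R` with `g^2 - b g + e = 0`.
(The `b_n` form a Cauchy sequence because `g` is surjective and `V` is free and nonzero.)

`qlm_unique`: such a `b` is unique.
-/

set_option autoImplicit false

namespace Fermat.Agent.S30

section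

variable {R : Type*} [CommRing R] {V : Type*} [AddCommGroup V] [Module R V]

/-- coordinates of an element of `J • ⊤` lie in `J` -/
theorem qlm_repr_mem {ι : Type*} (b : Module.Basis ι R V) (J : Ideal R) {x : V}
    (hx : x ∈ J • (⊤ : Submodule R V)) (i : ι) : b.repr x i ∈ J := by
  refine Submodule.smul_induction_on (p := fun x => b.repr x i ∈ J) hx ?_ ?_
  · intro r hr v _
    rw [map_smul, Finsupp.smul_apply, smul_eq_mul]
    exact J.mul_mem_right _ hr
  · intro x y hx hy
    rw [map_add, Finsupp.add_apply]
    exact J.add_mem hx hy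

/-- a scalar mapping a nonzero free module into `J • ⊤` lies in `J` -/
theorem qlm_scalar_mem {ι : Type*} [Nonempty ι] (b : Module.Basis ι R V) (J : Ideal R) (c : R)
    (h : ∀ v : V, c • v ∈ J • (⊤ : Submodule R V)) : c ∈ J := by
  obtain ⟨i⟩ := (inferInstance : Nonempty ι)
  have h1 := qlm_repr_mem b J (h (b i)) i
  rw [map_smul, Finsupp.smul_apply, b.repr_self, Finsupp.single_eq_same, smul_eq_mul,
    mul_one] at h1
  exact h1

/-- uniqueness of the middle coefficient of a quadratic relation -/
theorem qlm_unique [Module.Free R V] [Nontrivial V] (g : Module.End R V)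
    (hg : Function.Surjective g) (e b b' : R)
    (h : g * g - b • g + e • (1 : Module.End R V) = 0)
    (h' : g * g - b' • g + e • (1 : Module.End R V) = 0) : b = b' := by
  let B := Module.Free.chooseBasis R V
  have hne : Nonempty (Module.Free.ChooseBasisIndex R V) := B.index_nonempty
  have h1 : ∀ v : V, (b - b') • v ∈ (⊥ : Ideal R) • (⊤ : Submodule R V) := by
    intro v
    obtain ⟨u, rfl⟩ := hg v
    have e1 := LinearMap.congr_fun h u
    have e2 := LinearMap.congr_fun h' u
    simp only [LinearMap.add_apply, LinearMap.sub_apply, Module.End.mul_apply,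
      LinearMap.smul_apply, Module.End.one_apply, LinearMap.zero_apply] at e1 e2
    have e3 : (b - b') • g u = 0 := by
      rw [sub_smul]
      linear_combination (norm := module) e2 - e1
    rw [e3]
    exact Submodule.zero_mem _
  have h2 := qlm_scalar_mem B ⊥ (b - b') h1
  exact sub_eq_zero.mp ((Ideal.mem_bot).mp h2)

/-- **Limit of quadratic relations.** -/
theorem qlm_main (I : Ideal R) [IsAdicComplete I R] [Module.Free R V] [Module.Finite R V]
    [Nontrivial V] (g : Module.End R V) (hg : Function.Surjective g) (e : R)
    (h : ∀ n : ℕ, ∃ b : R, ∀ v : V,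
      g (g v) - b • g v + e • v ∈ (I ^ n) • (⊤ : Submodule R V)) :
    ∃ b : R, g * g - b • g + e • (1 : Module.End R V) = 0 := by
  let B := Module.Free.chooseBasis R V
  have hne : Nonempty (Module.Free.ChooseBasisIndex R V) := B.index_nonempty
  choose bn hbn using h
  -- the sequence is Cauchy
  have hcauchy : ∀ {m n : ℕ}, m ≤ n → bn n - bn m ∈ I ^ m := by
    intro m n hmn
    apply qlm_scalar_mem B (I ^ m) (bn n - bn m)
    intro v
    obtain ⟨u, rfl⟩ := hg v
    have h1 := hbn m u
    have h2 : g (g u) - bn n • g u + e • u ∈ (I ^ m) • (⊤ : Submodule R V) :=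
      Submodule.smul_mono_left (Ideal.pow_le_pow_right hmn) (hbn n u)
    have h3 := Submodule.sub_mem _ h1 h2
    have e3 : g (g u) - bn m • g u + e • u - (g (g u) - bn n • g u + e • u) =
        (bn n - bn m) • g u := by
      rw [sub_smul]
      abel
    rwa [e3] at h3
  -- the limit
  have hprec : ∃ b : R, ∀ n, bn n - b ∈ I ^ n := by
    have hp : IsPrecomplete I R := inferInstance
    obtain ⟨b, hb⟩ := hp.prec' bn (by
      intro m n hmn
      rw [SModEq.sub_mem, smul_eq_mul, Ideal.mul_top]
      have := (I ^ m).neg_mem (hcauchy hmn)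
      rwa [neg_sub] at this)
    refine ⟨b, fun n => ?_⟩
    have := hb n
    rwa [SModEq.sub_mem, smul_eq_mul, Ideal.mul_top] at this
  obtain ⟨b, hb⟩ := hprec
  refine ⟨b, LinearMap.ext fun v => ?_⟩
  simp only [LinearMap.add_apply, LinearMap.sub_apply, Module.End.mul_apply,
    LinearMap.smul_apply, Module.End.one_apply, LinearMap.zero_apply]
  -- every coordinate lies in all powers of `I`
  have hmem : ∀ n, g (g v) - b • g v + e • v ∈ (I ^ n) • (⊤ : Submodule R V) := by
    intro n
    have h1 := hbn n v
    have h2 : (bn n - b) • g v ∈ (I ^ n) • (⊤ : Submodule R V) :=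
      Submodule.smul_mem_smul (hb n) Submodule.mem_top
    have e3 : g (g v) - b • g v + e • v = (g (g v) - bn n • g v + e • v) + (bn n - b) • g v := by
      rw [sub_smul]
      abel
    rw [e3]
    exact Submodule.add_mem _ h1 h2
  have hhaus : IsHausdorff I R := inferInstance
  apply B.repr.injective
  ext i
  rw [map_zero, Finsupp.zero_apply]
  apply hhaus.haus'
  intro n
  rw [SModEq.zero, smul_eq_mul, Ideal.mul_top]
  exact qlm_repr_mem B (I ^ n) (hmem n) i

end

end Fermat.Agent.S30
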