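import Mathlib
import Fermat.Agent.S30.LinAlgStruct
import Fermat.Agent.S30.QuadLim
import Fermat.Agent.S30.AdicExt
import Fermat.Prelude.Def_CuspForm_HeckeGaloisRepDatum

/-!
# S30 preparation, package LATTICE: from quadratic relations to a rank-two lattice

Input: a complete discrete valuation ring `𝒪'` of characteristic zero with finite residue field
(the hypotheses of S30), a group `G` acting on a nonzero finite free `𝒪'`-module `V₀`
(in matrix form: `A : G →* Matrix (Fin r) (Fin r) 𝒪'`), a character `ε : G →* 𝒪'ˣ` and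
`b : G → 𝒪'` with `A g ^ 2 - b g • A g + ε g = 0` for every `g`.

Output (`lat_matrix`, `lat_main`): a finite extension `𝒪''` of `𝒪'` with the full instance list
of the conclusion of S30 and a representation `M : G →* Matrix (Fin 2) (Fin 2) 𝒪''` with
`charpoly (M g) = X^2 - b g X + ε g`, trivial where `A` and `ε` are trivial, and congruent to
`1` modulo `𝔪''^n` where `A` and `ε` are congruent to `1` modulo `𝔪'^n`.

Route: `las_main` over the algebraic closure `Ω` of `Frac 𝒪'` gives a common eigenvector or a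
stable plane; its coordinates generate a finite extension `K₁`; `𝒪''` is the integral closure of
`𝒪'` in `K₁` (`adx_main`), a valuation ring, so the eigenvector / the plane has a primitive basis
`U` over `𝒪''` with a left inverse `E` (pivoting), and `g ↦ E * A g * U` is the representation on
the lattice (`latRep`).
-/

set_option autoImplicit false
set_option linter.unusedSectionVars false

namespace Fermat.Agent.S30

open Polynomial

section Core

variable {R S Ω : Type*} [CommRing R] [CommRing S] [Field Ω] [Algebra R S]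
  {G : Type*} [Group G] {ι : Type*} [Fintype ι] [DecidableEq ι] {m : ℕ}

/-- the key identities for a family `U` of vectors over `S` with a left inverse `E`, whose span
over a field `Ω ⊇ S` is stable under `A g` -/
theorem lat_key (A : G →* Matrix ι ι R) (U : Matrix ι (Fin m) S) (E : Matrix (Fin m) ι S)
    (hE : E * U = 1) (f : S →+* Ω) (hf : Function.Injective f) (U₀ : Matrix ι (Fin m) Ω)
    (Q : Matrix (Fin m) (Fin m) Ω) (hU : U.map f = U₀ * Q) (g : G)
    (Mg : Matrix (Fin m) (Fin m) Ω)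
    (hM : (A g).map (f.comp (algebraMap R S)) * U₀ = U₀ * Mg) :
    (A g).map (algebraMap R S) * U = U * (E * (A g).map (algebraMap R S) * U) ∧
      (E * (A g).map (algebraMap R S) * U).map f = (E.map f * U₀) * Mg * Q ∧
      (E.map f * U₀) * Q = 1 ∧ Q * (E.map f * U₀) = 1 := by
  have hAΩ : ((A g).map (algebraMap R S)).map f = (A g).map (f.comp (algebraMap R S)) := by
    rw [Matrix.map_map]
    rfl
  have h1 : (E.map f * U₀) * Q = 1 := by
    rw [Matrix.mul_assoc, ← hU, ← Matrix.map_mul, hE, Matrix.map_one _ (map_zero f) (map_one f)]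
  have h2 : Q * (E.map f * U₀) = 1 := mul_eq_one_comm.mp h1
  have h3 : (E * (A g).map (algebraMap R S) * U).map f = (E.map f * U₀) * Mg * Q := by
    rw [Matrix.map_mul, Matrix.map_mul, hAΩ, hU, Matrix.mul_assoc (E.map f), ← Matrix.mul_assoc _ U₀ Q,
      hM, ← Matrix.mul_assoc, ← Matrix.mul_assoc]
  refine ⟨?_, h3, h1, h2⟩
  apply Matrix.map_injective hf
  show ((A g).map (algebraMap R S) * U).map f = (U * (E * (A g).map (algebraMap R S) * U)).map f
  rw [Matrix.map_mul, Matrix.map_mul, h3, hAΩ, hU, ← Matrix.mul_assoc, hM]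
  calc U₀ * Mg * Q = U₀ * (Q * (E.map f * U₀)) * Mg * Q := by rw [h2, Matrix.mul_one]
    _ = U₀ * Q * (E.map f * U₀ * Mg * Q) := by simp only [Matrix.mul_assoc]

/-- the representation on the lattice spanned by `U` -/
def latRep (A : G →* Matrix ι ι R) (U : Matrix ι (Fin m) S) (E : Matrix (Fin m) ι S)
    (hE : E * U = 1)
    (hkey : ∀ g, (A g).map (algebraMap R S) * U = U * (E * (A g).map (algebraMap R S) * U)) :
    G →* Matrix (Fin m) (Fin m) S where
  toFun g := E * (A g).map (algebraMap R S) * U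
  map_one' := by
    rw [map_one, Matrix.map_one _ (map_zero _) (map_one _), Matrix.mul_one, hE]
  map_mul' g h := by
    rw [map_mul, Matrix.map_mul, Matrix.mul_assoc E, Matrix.mul_assoc _ _ U, hkey h,
      ← Matrix.mul_assoc _ U, ← Matrix.mul_assoc E, ← Matrix.mul_assoc E]

theorem latRep_apply (A : G →* Matrix ι ι R) (U : Matrix ι (Fin m) S) (E : Matrix (Fin m) ι S)
    (hE : E * U = 1)
    (hkey : ∀ g, (A g).map (algebraMap R S) * U = U * (E * (A g).map (algebraMap R S) * U))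
    (g : G) : latRep A U E hE hkey g = E * (A g).map (algebraMap R S) * U := rfl

/-- quadratic relations pass to the lattice representation -/
theorem latRep_rel (A : G →* Matrix ι ι R) (U : Matrix ι (Fin m) S) (E : Matrix (Fin m) ι S)
    (hE : E * U = 1)
    (hkey : ∀ g, (A g).map (algebraMap R S) * U = U * (E * (A g).map (algebraMap R S) * U))
    (g : G) (b e : R) (hrel : A g * A g - b • A g + e • (1 : Matrix ι ι R) = 0) :
    latRep A U E hE hkey g * latRep A U E hE hkey g - algebraMap R S b • latRep A U E hE hkey g +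
      algebraMap R S e • (1 : Matrix (Fin m) (Fin m) S) = 0 := by
  set L := latRep A U E hE hkey g with hL
  set AS := (A g).map (algebraMap R S) with hAS
  have hk : AS * U = U * L := hkey g
  have h1 : AS * AS - algebraMap R S b • AS + algebraMap R S e • (1 : Matrix ι ι S) = 0 := by
    have h2 : (A g * A g - b • A g + e • (1 : Matrix ι ι R)).map (algebraMap R S) =
        (0 : Matrix ι ι R).map (algebraMap R S) := by rw [hrel]
    rw [Matrix.map_add _ (map_add _), Matrix.map_sub _ (map_sub _), Matrix.map_mul,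
      Matrix.map_smul' _ _ _ (map_mul _), Matrix.map_smul' _ _ _ (map_mul _),
      Matrix.map_one _ (map_zero _) (map_one _), Matrix.map_zero _ (map_zero _)] at h2
    exact h2
  have h3 : U * (L * L - algebraMap R S b • L + algebraMap R S e • (1 : Matrix (Fin m) (Fin m) S)) =
      (AS * AS - algebraMap R S b • AS + algebraMap R S e • (1 : Matrix ι ι S)) * U := by
    rw [Matrix.mul_add, Matrix.mul_sub, Matrix.add_mul, Matrix.sub_mul, ← Matrix.mul_assoc, ← hk,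
      Matrix.mul_assoc, ← hk, Matrix.mul_smul, ← hk, Matrix.smul_mul, Matrix.mul_smul,
      Matrix.smul_mul, Matrix.mul_one, Matrix.one_mul, Matrix.mul_assoc]
  rw [h1, Matrix.zero_mul] at h3
  have h4 := congrArg (fun X => E * X) h3
  simp only [Matrix.mul_zero] at h4
  rwa [← Matrix.mul_assoc, hE, Matrix.one_mul] at h4

/-- congruences pass to the lattice representation -/
theorem latRep_sub_one_mem (A : G →* Matrix ι ι R) (U : Matrix ι (Fin m) S)
    (E : Matrix (Fin m) ι S) (hE : E * U = 1)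
    (hkey : ∀ g, (A g).map (algebraMap R S) * U = U * (E * (A g).map (algebraMap R S) * U))
    (g : G) (J : Ideal R) (hJ : ∀ i j, (A g - 1) i j ∈ J) (i j : Fin m) :
    (latRep A U E hE hkey g - 1) i j ∈ J.map (algebraMap R S) := by
  have h1 : latRep A U E hE hkey g - 1 = E * (A g - 1).map (algebraMap R S) * U := by
    rw [latRep_apply, Matrix.map_sub _ (map_sub _), Matrix.map_one _ (map_zero _) (map_one _),
      Matrix.mul_sub, Matrix.sub_mul, Matrix.mul_one, hE]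
  rw [h1, Matrix.mul_apply]
  refine Ideal.sum_mem _ (fun l _ => ?_)
  refine Ideal.mul_mem_right _ _ ?_
  rw [Matrix.mul_apply]
  refine Ideal.sum_mem _ (fun k _ => ?_)
  refine Ideal.mul_mem_left _ _ ?_
  rw [Matrix.map_apply]
  exact Ideal.mem_map_of_mem _ (hJ k l)

end Core

section Pivot

/-- primitive scaling of a nonzero vector over the fraction field of a valuation ring -/
theorem lat_pivot_val {S K₁ : Type*} [CommRing S] [IsDomain S] [ValuationRing S] [Field K₁]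
    [Algebra S K₁] [IsFractionRing S K₁] {ι : Type*} [Fintype ι] (x : ι → K₁) (hx : x ≠ 0) :
    ∃ (c : K₁) (i0 : ι) (u : ι → S), c ≠ 0 ∧ (∀ i, algebraMap S K₁ (u i) = c * x i) ∧
      u i0 = 1 := by
  classical
  obtain ⟨i1, hi1⟩ : ∃ i, x i ≠ 0 := by
    by_contra h
    push Not at h
    exact hx (funext h)
  set v := ValuationRing.valuation S K₁ with hv
  obtain ⟨i0, -, hmax⟩ := Finset.exists_max_image Finset.univ (fun i => v (x i))
    ⟨i1, Finset.mem_univ _⟩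
  have hi0 : x i0 ≠ 0 := by
    intro h0
    have h1 := hmax i1 (Finset.mem_univ _)
    simp only [h0, map_zero] at h1
    exact hi1 ((map_eq_zero v).mp (le_antisymm h1 zero_le))
  have hv0 : v (x i0) ≠ 0 := (map_ne_zero v).mpr hi0
  have hint : ∀ i, ∃ a : S, algebraMap S K₁ a = (x i0)⁻¹ * x i := by
    intro i
    rw [← ValuationRing.mem_integer_iff, Valuation.mem_integer_iff, map_mul, map_inv₀]
    rw [inv_mul_le_iff₀ (lt_of_le_of_ne zero_le (Ne.symm hv0)), mul_one]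
    exact hmax i (Finset.mem_univ _)
  choose u hu using hint
  refine ⟨(x i0)⁻¹, i0, u, inv_ne_zero hi0, hu, ?_⟩
  apply IsFractionRing.injective S K₁
  rw [hu, map_one, inv_mul_cancel₀ hi0]

variable {S K Ω : Type*} [CommRing S] [Field K] [Field Ω] [Algebra K Ω]

/-- one vector: a primitive multiple with a left inverse -/
theorem lat_pivot1 (f : S →+* Ω) (K₁ : IntermediateField K Ω) {r : ℕ}
    (hpiv : ∀ x : Fin r → Ω, (∀ i, x i ∈ K₁) → x ≠ 0 →
      ∃ (c : Ω) (i0 : Fin r) (u : Fin r → S), c ≠ 0 ∧ c ∈ K₁ ∧ (∀ i, f (u i) = c * x i) ∧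
        u i0 = 1)
    (X : Matrix (Fin r) (Fin 1) Ω) (hX : ∀ i j, X i j ∈ K₁) (h1 : (fun i => X i 0) ≠ 0) :
    ∃ (U : Matrix (Fin r) (Fin 1) S) (E : Matrix (Fin 1) (Fin r) S)
      (P : Matrix (Fin 1) (Fin 1) Ω), E * U = 1 ∧ U.map f = X * P := by
  obtain ⟨c, i0, u, -, -, hu, hu0⟩ := hpiv (fun i => X i 0) (fun i => hX i 0) h1
  refine ⟨Matrix.of fun i _ => u i, Matrix.of fun _ i => if i = i0 then 1 else 0,
    Matrix.of fun _ _ => c, ?_, ?_⟩
  · ext a b
    have ha : a = 0 := Subsingleton.elim _ _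
    have hb : b = 0 := Subsingleton.elim _ _
    subst ha hb
    simp [Matrix.mul_apply, hu0]
  · ext i b
    have hb : b = 0 := Subsingleton.elim _ _
    subst hb
    simp [Matrix.mul_apply, hu i, mul_comm]

/-- two independent vectors: a primitive pair spanning the same plane, with a left inverse -/
theorem lat_pivot2 (f : S →+* Ω) (hf : Function.Injective f) (K₁ : IntermediateField K Ω)
    {r : ℕ}
    (hpiv : ∀ x : Fin r → Ω, (∀ i, x i ∈ K₁) → x ≠ 0 →
      ∃ (c : Ω) (i0 : Fin r) (u : Fin r → S), c ≠ 0 ∧ c ∈ K₁ ∧ (∀ i, f (u i) = c * x i) ∧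
        u i0 = 1)
    (X : Matrix (Fin r) (Fin 2) Ω) (hX : ∀ i j, X i j ∈ K₁) (h1 : (fun i => X i 0) ≠ 0)
    (h2 : ∀ t : Ω, (fun i => X i 1) ≠ t • (fun i => X i 0)) :
    ∃ (U : Matrix (Fin r) (Fin 2) S) (E : Matrix (Fin 2) (Fin r) S)
      (P : Matrix (Fin 2) (Fin 2) Ω), E * U = 1 ∧ U.map f = X * P := by
  obtain ⟨c₁, i1, u₁, -, hc₁, hu₁, hu₁1⟩ := hpiv (fun i => X i 0) (fun i => hX i 0) h1
  set t : Ω := X i1 1 * c₁ with ht
  have htK : t ∈ K₁ := K₁.mul_mem (hX i1 1) hc₁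
  have hc1x : c₁ * X i1 0 = 1 := by rw [← hu₁ i1, hu₁1, map_one]
  have hy0 : (fun i => X i 1 - t * X i 0) ≠ 0 := by
    intro h0
    apply h2 t
    funext i
    have := congrFun h0 i
    simp only [Pi.zero_apply, sub_eq_zero] at this
    simpa using this
  obtain ⟨c₂, i2, u₂, -, -, hu₂, hu₂2⟩ := hpiv (fun i => X i 1 - t * X i 0)
    (fun i => K₁.sub_mem (hX i 1) (K₁.mul_mem htK (hX i 0))) hy0
  have hu₂1 : u₂ i1 = 0 := by
    apply hf
    rw [hu₂ i1, map_zero, ht, mul_assoc, hc1x, mul_one, sub_self, mul_zero]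
  refine ⟨Matrix.of fun i j => if j = 0 then u₁ i else u₂ i,
    Matrix.of fun j i => if j = 0 then (if i = i1 then 1 else 0)
      else ((if i = i2 then 1 else 0) - u₁ i2 * (if i = i1 then 1 else 0)),
    !![c₁, -(c₂ * t); 0, c₂], ?_, ?_⟩
  · ext a b
    fin_cases a <;> fin_cases b <;>
      simp [Matrix.mul_apply, Finset.sum_ite_eq', Finset.sum_sub_distrib, sub_mul,
        hu₁1, hu₂1, hu₂2]
  · ext i b
    fin_cases b
    · simp [Matrix.mul_apply, Fin.sum_univ_two, hu₁ i, mul_comm]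
    · simp [Matrix.mul_apply, Fin.sum_univ_two, hu₂ i]
      ring

end Pivot

section Ring

variable (𝒪' : Type) [CommRing 𝒪'] [IsDomain 𝒪'] [IsDiscreteValuationRing 𝒪']
    [IsAdicComplete (IsLocalRing.maximalIdeal 𝒪') 𝒪'] [Finite (IsLocalRing.ResidueField 𝒪')]
    [CharZero 𝒪']

/-- the ring of integers of a finite extension of the fraction field, inside the algebraic
closure, with the pivoting property -/
theorem lat_ring (K₁ : IntermediateField (FractionRing 𝒪') (AlgebraicClosure (FractionRing 𝒪')))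
    [FiniteDimensional (FractionRing 𝒪') K₁] :
    ∃ (𝒪'' : Type) (_ : CommRing 𝒪'') (_ : IsDomain 𝒪'') (_ : IsDiscreteValuationRing 𝒪'')
      (_ : IsAdicComplete (IsLocalRing.maximalIdeal 𝒪'') 𝒪'')
      (_ : Finite (IsLocalRing.ResidueField 𝒪'')) (_ : CharZero 𝒪'')
      (_ : Algebra 𝒪' 𝒪'') (_ : Module.Finite 𝒪' 𝒪'') (_ : IsLocalHom (algebraMap 𝒪' 𝒪''))
      (f : 𝒪'' →+* AlgebraicClosure (FractionRing 𝒪')),
      Function.Injective (algebraMap 𝒪' 𝒪'') ∧ Function.Injective f ∧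
      f.comp (algebraMap 𝒪' 𝒪'') = algebraMap 𝒪' (AlgebraicClosure (FractionRing 𝒪')) ∧
      ∀ (r : ℕ) (x : Fin r → AlgebraicClosure (FractionRing 𝒪')), (∀ i, x i ∈ K₁) → x ≠ 0 →
        ∃ (c : AlgebraicClosure (FractionRing 𝒪')) (i0 : Fin r) (u : Fin r → 𝒪''),
          c ≠ 0 ∧ c ∈ K₁ ∧ (∀ i, f (u i) = c * x i) ∧ u i0 = 1 := by
  have hst1 : IsScalarTower 𝒪' (FractionRing 𝒪') K₁ :=
    IsScalarTower.of_algebraMap_eq (fun x => Subtype.ext
      (IsScalarTower.algebraMap_apply 𝒪' (FractionRing 𝒪') (AlgebraicClosure (FractionRing 𝒪')) x))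
  have hst2 : IsScalarTower 𝒪' K₁ (AlgebraicClosure (FractionRing 𝒪')) :=
    IsScalarTower.of_algebraMap_eq (fun x => rfl)
  obtain ⟨𝒪'', i1, i2, i3, i4, i5, i6, i7, i8, i9, i10, i11, i12, hinj⟩ :=
    adx_main 𝒪' (FractionRing 𝒪') K₁
  set f : 𝒪'' →+* AlgebraicClosure (FractionRing 𝒪') :=
    (algebraMap K₁ (AlgebraicClosure (FractionRing 𝒪'))).comp (algebraMap 𝒪'' K₁) with hf
  refine ⟨𝒪'', i1, i2, i3, i4, i5, i6, i7, i8, i9, f, hinj, ?_, ?_, ?_⟩
  · exact (algebraMap K₁ (AlgebraicClosure (FractionRing 𝒪'))).injective.comp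
      (IsFractionRing.injective 𝒪'' K₁)
  · ext x
    rw [hf, RingHom.comp_apply, RingHom.comp_apply, ← IsScalarTower.algebraMap_apply 𝒪' 𝒪'' K₁,
      ← IsScalarTower.algebraMap_apply 𝒪' K₁ (AlgebraicClosure (FractionRing 𝒪'))]
  · intro r x hx hx0
    have hx0' : (fun i => (⟨x i, hx i⟩ : K₁)) ≠ 0 := by
      intro h0
      apply hx0
      funext i
      have := congrFun h0 i
      exact congrArg Subtype.val this
    obtain ⟨c, i0, u, hc, hu, hu0⟩ := lat_pivot_val (S := 𝒪'') (K₁ := K₁)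
      (fun i => (⟨x i, hx i⟩ : K₁)) hx0'
    refine ⟨(c : AlgebraicClosure (FractionRing 𝒪')), i0, u, ?_, c.2, fun i => ?_, hu0⟩
    · intro h0
      exact hc (Subtype.ext h0)
    · rw [hf, RingHom.comp_apply, hu i]
      rfl

end Ring

section Diag

variable {S : Type*} [CommRing S] {G : Type*} [Group G]

/-- the diagonal representation `χ ⊕ e χ⁻¹` -/
def latDiag (χ e : G →* S) : G →* Matrix (Fin 2) (Fin 2) S where
  toFun g := !![χ g, 0; 0, e g * χ g⁻¹]
  map_one' := by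
    simp [Matrix.one_fin_two]
  map_mul' g h := by
    rw [Matrix.mul_fin_two]
    simp only [mul_zero, zero_mul, add_zero, zero_add, map_mul, mul_inv_rev]
    congr 1
    ext i j
    fin_cases i <;> fin_cases j <;> simp
    ring

theorem latDiag_apply (χ e : G →* S) (g : G) :
    latDiag χ e g = !![χ g, 0; 0, e g * χ g⁻¹] := rfl

theorem latDiag_charpoly [Nontrivial S] (χ e : G →* S) (a : G → S)
    (hrel : ∀ g, χ g * χ g - a g * χ g + e g = 0) (g : G) :
    (latDiag χ e g).charpoly = X ^ 2 - C (a g) * X + C (e g) := by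
  have h1 : χ g * χ g⁻¹ = 1 := by rw [← map_mul, mul_inv_cancel, map_one]
  rw [Matrix.charpoly_fin_two, latDiag_apply, Matrix.trace_fin_two_of, Matrix.det_fin_two_of]
  have e1 : χ g + e g * χ g⁻¹ = a g := by
    have h2 := hrel g
    linear_combination χ g⁻¹ * h2 + (a g - χ g) * h1
  have e2 : χ g * (e g * χ g⁻¹) - 0 * 0 = e g := by
    linear_combination e g * h1
  rw [e1, e2]

theorem latDiag_eq_one (χ e : G →* S) (g : G) (h1 : χ g = 1) (h2 : χ g⁻¹ = 1) (h3 : e g = 1) :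
    latDiag χ e g = 1 := by
  rw [latDiag_apply, h1, h2, h3, Matrix.one_fin_two, mul_one]

theorem latDiag_sub_one_mem (χ e : G →* S) (g : G) (J : Ideal S) (h1 : χ g - 1 ∈ J)
    (h2 : χ g⁻¹ - 1 ∈ J) (h3 : e g - 1 ∈ J) (i j : Fin 2) : (latDiag χ e g - 1) i j ∈ J := by
  have h4 : e g * χ g⁻¹ - 1 ∈ J := by
    have e4 : e g * χ g⁻¹ - 1 = e g * (χ g⁻¹ - 1) + (e g - 1) := by ring
    rw [e4]
    exact J.add_mem (J.mul_mem_left _ h2) h3
  rw [latDiag_apply, Matrix.one_fin_two]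
  fin_cases i <;> fin_cases j <;> simp <;> assumption

/-- congruence to `1` passes to inverses -/
theorem lat_inv_sub_one_mem {R : Type*} [CommRing R] {ι : Type*} [Fintype ι] [DecidableEq ι]
    (A : G →* Matrix ι ι R) (J : Ideal R) (g : G) (h : ∀ i j, (A g - 1) i j ∈ J) (i j : ι) :
    (A g⁻¹ - 1) i j ∈ J := by
  have h1 : A g⁻¹ * A g = 1 := by rw [← map_mul, inv_mul_cancel, map_one]
  have h2 : A g⁻¹ - 1 = -(A g⁻¹ * (A g - 1)) := by
    rw [Matrix.mul_sub, h1, Matrix.mul_one, neg_sub]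
  rw [h2, Matrix.neg_apply, Matrix.mul_apply]
  refine J.neg_mem (Ideal.sum_mem _ (fun k _ => ?_))
  exact J.mul_mem_left _ (h k j)

end Diag

section Main

variable (𝒪' : Type) [CommRing 𝒪'] [IsDomain 𝒪'] [IsDiscreteValuationRing 𝒪']
    [IsAdicComplete (IsLocalRing.maximalIdeal 𝒪') 𝒪'] [Finite (IsLocalRing.ResidueField 𝒪')]
    [CharZero 𝒪']

/-- powers of the maximal ideal map into powers of the maximal ideal along a local homomorphism -/
theorem lat_map_pow_le {𝒪'' : Type} [CommRing 𝒪''] [IsLocalRing 𝒪''] [Algebra 𝒪' 𝒪'']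
    [IsLocalHom (algebraMap 𝒪' 𝒪'')] (n : ℕ) :
    (IsLocalRing.maximalIdeal 𝒪' ^ n).map (algebraMap 𝒪' 𝒪'') ≤
      IsLocalRing.maximalIdeal 𝒪'' ^ n := by
  rw [Ideal.map_pow]
  exact Ideal.pow_right_mono (Ideal.map_le_iff_le_comap.mpr fun a ha =>
    Ideal.mem_comap.mpr (map_nonunit (algebraMap 𝒪' 𝒪'') a ha)) n

/-- **The lattice theorem, matrix form.** -/
theorem lat_matrix {G : Type*} [Group G] {r : ℕ} (hr : 0 < r)
    (A : G →* Matrix (Fin r) (Fin r) 𝒪') (ε : G →* 𝒪'ˣ) (b : G → 𝒪')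
    (hrel : ∀ g, A g * A g - b g • A g +
      ((ε g : 𝒪'ˣ) : 𝒪') • (1 : Matrix (Fin r) (Fin r) 𝒪') = 0) :
    ∃ (𝒪'' : Type) (_ : CommRing 𝒪'') (_ : IsDomain 𝒪'') (_ : IsDiscreteValuationRing 𝒪'')
      (_ : IsAdicComplete (IsLocalRing.maximalIdeal 𝒪'') 𝒪'')
      (_ : Finite (IsLocalRing.ResidueField 𝒪'')) (_ : CharZero 𝒪'')
      (_ : Algebra 𝒪' 𝒪'') (_ : Module.Finite 𝒪' 𝒪'') (_ : IsLocalHom (algebraMap 𝒪' 𝒪'')),
      Function.Injective (algebraMap 𝒪' 𝒪'') ∧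
      ∃ M : G →* Matrix (Fin 2) (Fin 2) 𝒪'',
        (∀ g, (M g).charpoly = X ^ 2 - C (algebraMap 𝒪' 𝒪'' (b g)) * X +
          C (algebraMap 𝒪' 𝒪'' ((ε g : 𝒪'ˣ) : 𝒪'))) ∧
        (∀ g, A g = 1 → ε g = 1 → M g = 1) ∧
        (∀ (n : ℕ) (g : G), (∀ i j, (A g - 1) i j ∈ IsLocalRing.maximalIdeal 𝒪' ^ n) →
          ((ε g : 𝒪'ˣ) : 𝒪') - 1 ∈ IsLocalRing.maximalIdeal 𝒪' ^ n →
          ∀ i j, (M g - 1) i j ∈ IsLocalRing.maximalIdeal 𝒪'' ^ n) := by
  classical
  set Ω := AlgebraicClosure (FractionRing 𝒪') with hΩ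
  set φ : 𝒪' →+* Ω := algebraMap 𝒪' Ω with hφ
  have hφinj : Function.Injective φ := by
    rw [hφ, IsScalarTower.algebraMap_eq 𝒪' (FractionRing 𝒪') Ω]
    exact (algebraMap (FractionRing 𝒪') Ω).injective.comp (IsFractionRing.injective 𝒪' _)
  -- the representation over `Ω`
  let ρΩ : G →* Module.End Ω (Fin r → Ω) :=
    { toFun := fun g => Matrix.toLin' ((A g).map φ)
      map_one' := by
        rw [map_one, Matrix.map_one _ (map_zero φ) (map_one φ), Matrix.toLin'_one]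
        rfl
      map_mul' := fun g h => by
        rw [map_mul, Matrix.map_mul, Matrix.toLin'_mul]
        rfl }
  have hρΩ : ∀ g, ρΩ g = Matrix.toLin' ((A g).map φ) := fun g => rfl
  let εΩ : G →* Ωˣ := (Units.map (φ : 𝒪' →* Ω)).comp ε
  have hεΩ : ∀ g, ((εΩ g : Ωˣ) : Ω) = φ ((ε g : 𝒪'ˣ) : 𝒪') := fun g => rfl
  have hrelΩ : ∀ g, ρΩ g * ρΩ g - φ (b g) • ρΩ g +
      ((εΩ g : Ωˣ) : Ω) • (1 : Module.End Ω (Fin r → Ω)) = 0 := by
    intro g
    have h2 : (A g * A g - b g • A g + ((ε g : 𝒪'ˣ) : 𝒪') • (1 : Matrix (Fin r) (Fin r) 𝒪')).map φ =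
        (0 : Matrix (Fin r) (Fin r) 𝒪').map φ := by rw [hrel g]
    rw [Matrix.map_add _ (map_add _), Matrix.map_sub _ (map_sub _), Matrix.map_mul,
      Matrix.map_smul' _ _ _ (map_mul _), Matrix.map_smul' _ _ _ (map_mul _),
      Matrix.map_one _ (map_zero _) (map_one _), Matrix.map_zero _ (map_zero _)] at h2
    have h3 := congrArg Matrix.toLin' h2
    rw [map_add, map_sub, Matrix.toLin'_mul, map_smul, map_smul, Matrix.toLin'_one, map_zero]
      at h3
    rw [hρΩ, hεΩ]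
    exact h3
  have : Nonempty (Fin r) := ⟨⟨0, hr⟩⟩
  rcases las_main ρΩ εΩ (fun g => φ (b g)) hrelΩ with ⟨ψ, w, hw0, hw⟩ | ⟨w, M, hli, hw, hch⟩
  · -- a common eigenvector
    set U₀ : Matrix (Fin r) (Fin 1) Ω := Matrix.of fun i _ => w i with hU₀
    set Mψ : G → Matrix (Fin 1) (Fin 1) Ω := fun g => Matrix.of fun _ _ => ((ψ g : Ωˣ) : Ω)
      with hMψ
    have hM : ∀ g, (A g).map φ * U₀ = U₀ * Mψ g := by
      intro g
      ext i j
      have h1 := congrFun (hw g) i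
      rw [hρΩ, Matrix.toLin'_apply] at h1
      simp only [Matrix.mulVec, dotProduct, Pi.smul_apply, smul_eq_mul] at h1
      simp only [Matrix.mul_apply, hU₀, hMψ, Matrix.of_apply, Fin.sum_univ_one]
      rw [h1, mul_comm]
    set K₁ : IntermediateField (FractionRing 𝒪') Ω :=
      IntermediateField.adjoin (FractionRing 𝒪') (Set.range w) with hK₁
    have : FiniteDimensional (FractionRing 𝒪') K₁ :=
      IntermediateField.finiteDimensional_adjoin (fun x _ => Algebra.IsIntegral.isIntegral x)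
    have hX : ∀ i j, U₀ i j ∈ K₁ := fun i j =>
      IntermediateField.subset_adjoin _ _ ⟨i, rfl⟩
    obtain ⟨𝒪'', i1, i2, i3, i4, i5, i6, i7, i8, i9, f, hinj, hf, hcomp, hpiv⟩ := lat_ring 𝒪' K₁
    have h1 : (fun i => U₀ i 0) ≠ 0 := fun h0 => hw0 (funext fun i => congrFun h0 i)
    obtain ⟨U, E, P, hE, hU⟩ := lat_pivot1 f K₁ (hpiv r) U₀ hX h1
    have hkeyall := fun g => lat_key A U E hE f hf U₀ P hU g (Mψ g)
      (by rw [hcomp]; exact hM g)
    set L := latRep A U E hE (fun g => (hkeyall g).1) with hL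
    let χ : G →* 𝒪'' :=
      { toFun := fun g => L g 0 0
        map_one' := by rw [map_one, Matrix.one_apply_eq]
        map_mul' := fun g h => by rw [map_mul, Matrix.mul_apply, Fin.sum_univ_one] }
    have hχ : ∀ g, χ g = L g 0 0 := fun g => rfl
    let e : G →* 𝒪'' := ((algebraMap 𝒪' 𝒪'' : 𝒪' →* 𝒪'').comp (Units.coeHom 𝒪')).comp ε
    have he : ∀ g, e g = algebraMap 𝒪' 𝒪'' ((ε g : 𝒪'ˣ) : 𝒪') := fun g => rfl
    have hχrel : ∀ g, χ g * χ g - algebraMap 𝒪' 𝒪'' (b g) * χ g + e g = 0 := by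
      intro g
      have h3 := latRep_rel A U E hE (fun g => (hkeyall g).1) g (b g) (ε g) (hrel g)
      have h4 := congrFun (congrFun h3 0) 0
      rw [Matrix.add_apply, Matrix.sub_apply, Matrix.mul_apply, Fin.sum_univ_one,
        Matrix.smul_apply, Matrix.smul_apply, Matrix.one_apply_eq, smul_eq_mul, smul_eq_mul,
        mul_one, Matrix.zero_apply] at h4
      rw [hχ, he]
      exact h4
    have hone : ∀ g, A g = 1 → χ g = 1 := by
      intro g hg
      rw [hχ, hL, latRep_apply, hg, Matrix.map_one _ (map_zero _) (map_one _), Matrix.mul_one, hE,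
        Matrix.one_apply_eq]
    have hmem : ∀ (n : ℕ) (g : G), (∀ i j, (A g - 1) i j ∈ IsLocalRing.maximalIdeal 𝒪' ^ n) →
        χ g - 1 ∈ IsLocalRing.maximalIdeal 𝒪'' ^ n := by
      intro n g hA
      have h3 := lat_map_pow_le 𝒪' n
        (latRep_sub_one_mem A U E hE (fun g => (hkeyall g).1) g _ hA 0 0)
      rw [Matrix.sub_apply, Matrix.one_apply_eq] at h3
      exact h3
    refine ⟨𝒪'', i1, i2, i3, i4, i5, i6, i7, i8, i9, hinj, latDiag χ e, ?_, ?_, ?_⟩
    · intro g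
      rw [← he]
      exact latDiag_charpoly χ e _ hχrel g
    · intro g hg hε
      have hg' : A g⁻¹ = 1 := by
        have h3 : A g⁻¹ * A g = 1 := by rw [← map_mul, inv_mul_cancel, map_one]
        rwa [hg, Matrix.mul_one] at h3
      refine latDiag_eq_one χ e g (hone g hg) (hone g⁻¹ hg') ?_
      rw [he, hε, Units.val_one, map_one]
    · intro n g hA hε i j
      refine latDiag_sub_one_mem χ e g _ (hmem n g hA)
        (hmem n g⁻¹ (lat_inv_sub_one_mem A _ g hA)) ?_ i j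
      rw [he, ← map_one (algebraMap 𝒪' 𝒪''), ← map_sub]
      exact lat_map_pow_le 𝒪' n (Ideal.mem_map_of_mem _ hε)
  · -- a stable plane
    set U₀ : Matrix (Fin r) (Fin 2) Ω := Matrix.of fun i j => w j i with hU₀
    have hM : ∀ g, (A g).map φ * U₀ = U₀ * M g := by
      intro g
      ext i j
      have h1 := congrFun (hw g j) i
      rw [hρΩ, Matrix.toLin'_apply] at h1
      simp only [Matrix.mulVec, dotProduct, Finset.sum_apply, Pi.smul_apply, smul_eq_mul] at h1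
      rw [Matrix.mul_apply, Matrix.mul_apply]
      simp only [hU₀, Matrix.of_apply]
      rw [h1]
      exact Finset.sum_congr rfl (fun l _ => mul_comm _ _)
    set K₁ : IntermediateField (FractionRing 𝒪') Ω :=
      IntermediateField.adjoin (FractionRing 𝒪')
        (Set.range fun p : Fin r × Fin 2 => w p.2 p.1) with hK₁
    have : FiniteDimensional (FractionRing 𝒪') K₁ :=
      IntermediateField.finiteDimensional_adjoin (fun x _ => Algebra.IsIntegral.isIntegral x)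
    have hX : ∀ i j, U₀ i j ∈ K₁ := fun i j =>
      IntermediateField.subset_adjoin _ _ ⟨(i, j), rfl⟩
    obtain ⟨𝒪'', i1, i2, i3, i4, i5, i6, i7, i8, i9, f, hinj, hf, hcomp, hpiv⟩ := lat_ring 𝒪' K₁
    have hcomp' : ∀ x, f (algebraMap 𝒪' 𝒪'' x) = φ x := fun x => by
      rw [← RingHom.comp_apply, hcomp]
    have h1 : (fun i => U₀ i 0) ≠ 0 := by
      have h3 := hli.ne_zero 0
      intro h0
      apply h3
      funext i
      exact congrFun h0 i
    have h2 : ∀ t : Ω, (fun i => U₀ i 1) ≠ t • (fun i => U₀ i 0) := by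
      intro t h0
      have h3 : w 1 = t • w 0 := by
        funext i
        exact congrFun h0 i
      have h4 := Fintype.linearIndependent_iff.mp hli ![t, -1] (by
        rw [Fin.sum_univ_two]
        simp [h3]) 1
      simp at h4
    obtain ⟨U, E, P, hE, hU⟩ := lat_pivot2 f hf K₁ (hpiv r) U₀ hX h1 h2
    have hkeyall := fun g => lat_key A U E hE f hf U₀ P hU g (M g) (by rw [hcomp]; exact hM g)
    refine ⟨𝒪'', i1, i2, i3, i4, i5, i6, i7, i8, i9, hinj,
      latRep A U E hE (fun g => (hkeyall g).1), ?_, ?_, ?_⟩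
    · intro g
      obtain ⟨-, h3, h4, h5⟩ := hkeyall g
      apply Polynomial.map_injective f hf
      rw [← Matrix.charpoly_map, latRep_apply, h3, Matrix.mul_assoc, Matrix.charpoly_mul_comm,
        Matrix.mul_assoc, h5, Matrix.mul_one, hch g]
      simp [hcomp', hεΩ]
    · intro g hg _
      rw [latRep_apply, hg, Matrix.map_one _ (map_zero _) (map_one _), Matrix.mul_one, hE]
    · intro n g hA _ i j
      exact lat_map_pow_le 𝒪' n
        (latRep_sub_one_mem A U E hE (fun g => (hkeyall g).1) g _ hA i j)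

/-- **The lattice theorem.** A group acting on a nonzero finite free `𝒪'`-module through roots
of quadratics `X^2 - b(g) X + ε(g)` has a rank-two representation over a finite extension `𝒪''`
of `𝒪'` with these characteristic polynomials, trivial where the action and `ε` are trivial,
and as close to `1` as the action and `ε` are. -/
theorem lat_main {V₀ : Type*} [AddCommGroup V₀] [Module 𝒪' V₀] [Module.Free 𝒪' V₀]
    [Module.Finite 𝒪' V₀] [Nontrivial V₀] {G : Type*} [Group G]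
    (ρ₀ : G →* Module.End 𝒪' V₀) (ε : G →* 𝒪'ˣ) (b : G → 𝒪')
    (hrel : ∀ g, ρ₀ g * ρ₀ g - b g • ρ₀ g +
      ((ε g : 𝒪'ˣ) : 𝒪') • (1 : Module.End 𝒪' V₀) = 0) :
    ∃ (𝒪'' : Type) (_ : CommRing 𝒪'') (_ : IsDomain 𝒪'') (_ : IsDiscreteValuationRing 𝒪'')
      (_ : IsAdicComplete (IsLocalRing.maximalIdeal 𝒪'') 𝒪'')
      (_ : Finite (IsLocalRing.ResidueField 𝒪'')) (_ : CharZero 𝒪'')
      (_ : Algebra 𝒪' 𝒪'') (_ : Module.Finite 𝒪' 𝒪'') (_ : IsLocalHom (algebraMap 𝒪' 𝒪'')),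
      Function.Injective (algebraMap 𝒪' 𝒪'') ∧
      ∃ M : G →* Matrix (Fin 2) (Fin 2) 𝒪'',
        (∀ g, (M g).charpoly = X ^ 2 - C (algebraMap 𝒪' 𝒪'' (b g)) * X +
          C (algebraMap 𝒪' 𝒪'' ((ε g : 𝒪'ˣ) : 𝒪'))) ∧
        (∀ g, ρ₀ g = 1 → ε g = 1 → M g = 1) ∧
        (∀ (n : ℕ) (g : G),
          (∀ v, ρ₀ g v - v ∈ (IsLocalRing.maximalIdeal 𝒪' ^ n) • (⊤ : Submodule 𝒪' V₀)) →
          ((ε g : 𝒪'ˣ) : 𝒪') - 1 ∈ IsLocalRing.maximalIdeal 𝒪' ^ n →
          ∀ i j, (M g - 1) i j ∈ IsLocalRing.maximalIdeal 𝒪'' ^ n) := by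
  classical
  set B := Module.finBasis 𝒪' V₀ with hB
  have hr : 0 < Module.finrank 𝒪' V₀ := by
    have h1 : Nonempty (Fin (Module.finrank 𝒪' V₀)) := B.index_nonempty
    exact Fin.pos_iff_nonempty.mpr h1
  let A : G →* Matrix (Fin (Module.finrank 𝒪' V₀)) (Fin (Module.finrank 𝒪' V₀)) 𝒪' :=
    { toFun := fun g => LinearMap.toMatrix B B (ρ₀ g)
      map_one' := by rw [map_one]; exact LinearMap.toMatrix_one B
      map_mul' := fun g h => by rw [map_mul]; exact LinearMap.toMatrix_mul B _ _ }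
  have hA : ∀ g, A g = LinearMap.toMatrix B B (ρ₀ g) := fun g => rfl
  have hrelA : ∀ g, A g * A g - b g • A g + ((ε g : 𝒪'ˣ) : 𝒪') •
      (1 : Matrix (Fin (Module.finrank 𝒪' V₀)) (Fin (Module.finrank 𝒪' V₀)) 𝒪') = 0 := by
    intro g
    have h2 := congrArg (LinearMap.toMatrix B B) (hrel g)
    rw [map_add, map_sub, map_smul, map_smul, LinearMap.toMatrix_mul, LinearMap.toMatrix_one,
      map_zero] at h2
    rw [hA]
    exact h2
  obtain ⟨𝒪'', i1, i2, i3, i4, i5, i6, i7, i8, i9, hinj, M, hM1, hM2, hM3⟩ :=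
    lat_matrix 𝒪' hr A ε b hrelA
  refine ⟨𝒪'', i1, i2, i3, i4, i5, i6, i7, i8, i9, hinj, M, hM1, ?_, ?_⟩
  · intro g hg hε
    refine hM2 g ?_ hε
    rw [hA, hg]
    exact LinearMap.toMatrix_one B
  · intro n g hg hε
    refine hM3 n g ?_ hε
    intro i j
    have h1 := qlm_repr_mem B (IsLocalRing.maximalIdeal 𝒪' ^ n) (hg (B j)) i
    rw [map_sub, Finsupp.sub_apply, B.repr_self, Finsupp.single_apply] at h1
    rw [Matrix.sub_apply, hA, LinearMap.toMatrix_apply, Matrix.one_apply]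
    have e1 : (if j = i then (1 : 𝒪') else 0) = if i = j then 1 else 0 := by
      by_cases h : i = j
      · rw [if_pos h, if_pos h.symm]
      · rw [if_neg h, if_neg (fun h' => h h'.symm)]
    rw [← e1]
    exact h1

/-- an element of `Fin 2 → R` with coordinates in `J` lies in `J • ⊤` -/
theorem lat_mem_smul_top {R : Type*} [CommRing R] (J : Ideal R) (x : Fin 2 → R)
    (hx : ∀ i, x i ∈ J) : x ∈ J • (⊤ : Submodule R (Fin 2 → R)) := by
  have h1 : x = ∑ i, x i • (Pi.single i (1 : R) : Fin 2 → R) := by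
    funext j
    simp [Finset.sum_apply, Pi.single_apply]
  rw [h1]
  exact Submodule.sum_mem _ (fun i _ => Submodule.smul_mem_smul (hx i) Submodule.mem_top)

/-- **The lattice theorem for Galois representations**: a `GaloisRepAdic` over a finite extension
`𝒪''` of `𝒪'` from a continuous action on a nonzero finite free `𝒪'`-module by roots of
quadratics `X^2 - b(σ) X + ε(σ)`. -/
theorem lat_galoisRepAdic {V₀ : Type*} [AddCommGroup V₀] [Module 𝒪' V₀] [Module.Free 𝒪' V₀]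
    [Module.Finite 𝒪' V₀] [Nontrivial V₀]
    (ρ₀ : (AlgebraicClosure ℚ ≃ₐ[ℚ] AlgebraicClosure ℚ) →* Module.End 𝒪' V₀)
    (ε : (AlgebraicClosure ℚ ≃ₐ[ℚ] AlgebraicClosure ℚ) →* 𝒪'ˣ)
    (b : (AlgebraicClosure ℚ ≃ₐ[ℚ] AlgebraicClosure ℚ) → 𝒪')
    (hrel : ∀ σ, ρ₀ σ * ρ₀ σ - b σ • ρ₀ σ +
      ((ε σ : 𝒪'ˣ) : 𝒪') • (1 : Module.End 𝒪' V₀) = 0)
    (hcont : ∀ n : ℕ, ∃ L : IntermediateField ℚ (AlgebraicClosure ℚ), FiniteDimensional ℚ L ∧
      ∀ σ : AlgebraicClosure ℚ ≃ₐ[ℚ] AlgebraicClosure ℚ, (∀ x ∈ L, σ x = x) →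
        (∀ v, ρ₀ σ v - v ∈ (IsLocalRing.maximalIdeal 𝒪' ^ n) • (⊤ : Submodule 𝒪' V₀)) ∧
        ((ε σ : 𝒪'ˣ) : 𝒪') - 1 ∈ IsLocalRing.maximalIdeal 𝒪' ^ n) :
    ∃ (𝒪'' : Type) (_ : CommRing 𝒪'') (_ : IsDomain 𝒪'') (_ : IsDiscreteValuationRing 𝒪'')
      (_ : IsAdicComplete (IsLocalRing.maximalIdeal 𝒪'') 𝒪'')
      (_ : Finite (IsLocalRing.ResidueField 𝒪'')) (_ : CharZero 𝒪'')
      (_ : Algebra 𝒪' 𝒪'') (_ : Module.Finite 𝒪' 𝒪'') (_ : IsLocalHom (algebraMap 𝒪' 𝒪'')),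
      Function.Injective (algebraMap 𝒪' 𝒪'') ∧
      ∃ ρ : GaloisRepAdic 𝒪'',
        (∀ σ, LinearMap.charpoly (ρ.ρ σ) = X ^ 2 - C (algebraMap 𝒪' 𝒪'' (b σ)) * X +
          C (algebraMap 𝒪' 𝒪'' ((ε σ : 𝒪'ˣ) : 𝒪'))) ∧
        (∀ σ, ρ₀ σ = 1 → ε σ = 1 → ρ.ρ σ = 1) := by
  obtain ⟨𝒪'', i1, i2, i3, i4, i5, i6, i7, i8, i9, hinj, M, hM1, hM2, hM3⟩ :=
    lat_main 𝒪' ρ₀ ε b hrel
  have h1 : ∀ σ, M σ = 1 → Matrix.toLin' (M σ) = (1 : Module.End 𝒪'' (Fin 2 → 𝒪'')) := by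
    intro σ hσ
    rw [hσ, Matrix.toLin'_one]
    rfl
  refine ⟨𝒪'', i1, i2, i3, i4, i5, i6, i7, i8, i9, hinj,
    { V := Fin 2 → 𝒪''
      finrank_eq := by simp
      ρ := { toFun := fun σ => Matrix.toLin' (M σ)
             map_one' := h1 1 (map_one M)
             map_mul' := fun σ τ => by
               rw [map_mul, Matrix.toLin'_mul]
               rfl }
      isAdicContinuous := by
        intro n
        obtain ⟨L, hL, hL1⟩ := hcont n
        refine ⟨L, hL, fun σ hσ v => ?_⟩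
        obtain ⟨h2, h3⟩ := hL1 σ hσ
        have h4 := hM3 n σ h2 h3
        apply lat_mem_smul_top
        intro i
        show (Matrix.toLin' (M σ) v - v) i ∈ _
        have e1 : (Matrix.toLin' (M σ) v - v) i = ∑ j, (M σ - 1) i j * v j := by
          rw [Pi.sub_apply, Matrix.toLin'_apply, Matrix.mulVec, dotProduct]
          simp only [Matrix.sub_apply, sub_mul, Finset.sum_sub_distrib, Matrix.one_apply,
            ite_mul, one_mul, zero_mul, Finset.sum_ite_eq, Finset.mem_univ, if_true]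
        rw [e1]
        exact Ideal.sum_mem _ (fun j _ => Ideal.mul_mem_right _ _ (h4 i j)) }, ?_, ?_⟩
  · intro σ
    show (Matrix.toLin' (M σ)).charpoly = _
    rw [Matrix.charpoly_toLin', hM1 σ]
  · intro σ hσ hε
    exact h1 σ (hM2 σ hσ hε)

end Main

section S30

/-- **S30 from a Galois lattice with quadratic relations.**  The conclusion of S30 for
`χ : heckeAlgebra N 2 S →+* 𝒪'` follows from: a nonzero finite free `𝒪'`-module `V₀` with a
continuous action `ρ₀` of the absolute Galois group and a continuous character `ε` such that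
every `σ` satisfies some quadratic `X^2 - b X + ε(σ)` on `V₀`, Frobenius elements at
`ℓ ∉ S`, `ℓ ∤ N` satisfy `X^2 - χ(T_ℓ) X + ℓ` with `ε = ℓ`, and inertia at `q ∤ N`, `q ≠ p`
acts trivially with `ε = 1`. -/
theorem lat_s30 (p : ℕ) (N : ℕ) [NeZero N] (S : Finset ℕ)
    (𝒪' : Type) [CommRing 𝒪'] [IsDomain 𝒪'] [IsDiscreteValuationRing 𝒪']
    [IsAdicComplete (IsLocalRing.maximalIdeal 𝒪') 𝒪'] [Finite (IsLocalRing.ResidueField 𝒪')]
    [CharZero 𝒪']
    (χ : CuspForm.heckeAlgebra N 2 (↑S : Set ℕ) →+* 𝒪')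
    {V₀ : Type*} [AddCommGroup V₀] [Module 𝒪' V₀] [Module.Free 𝒪' V₀]
    [Module.Finite 𝒪' V₀] [Nontrivial V₀]
    (ρ₀ : (AlgebraicClosure ℚ ≃ₐ[ℚ] AlgebraicClosure ℚ) →* Module.End 𝒪' V₀)
    (ε : (AlgebraicClosure ℚ ≃ₐ[ℚ] AlgebraicClosure ℚ) →* 𝒪'ˣ)
    (hquad : ∀ σ, ∃ b : 𝒪', ρ₀ σ * ρ₀ σ - b • ρ₀ σ +
      ((ε σ : 𝒪'ˣ) : 𝒪') • (1 : Module.End 𝒪' V₀) = 0)
    (hfrob : ∀ (ℓ : ℕ) (hℓ : ℓ.Prime) (hℓN : ¬ ℓ ∣ N) (hℓS : ℓ ∉ (↑S : Set ℕ)),
      ∀ A : ValuationSubring (AlgebraicClosure ℚ), A.LiesOverPrime ℓ →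
        ∀ σ : AlgebraicClosure ℚ ≃ₐ[ℚ] AlgebraicClosure ℚ, A.IsFrobeniusAt σ ℓ →
          ρ₀ σ * ρ₀ σ - χ (CuspForm.heckeAlgebra.T hℓ hℓN hℓS) • ρ₀ σ +
            (ℓ : 𝒪') • (1 : Module.End 𝒪' V₀) = 0 ∧ ((ε σ : 𝒪'ˣ) : 𝒪') = (ℓ : 𝒪'))
    (hinert : ∀ q : ℕ, q.Prime → ¬ q ∣ N → q ≠ p →
      ∀ P : ValuationSubring (AlgebraicClosure ℚ), P.LiesOverPrime q →
        ∀ σ ∈ P.inertiaSubgroupIn ℚ, ρ₀ σ = 1 ∧ ε σ = 1)
    (hcont : ∀ n : ℕ, ∃ L : IntermediateField ℚ (AlgebraicClosure ℚ), FiniteDimensional ℚ L ∧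
      ∀ σ : AlgebraicClosure ℚ ≃ₐ[ℚ] AlgebraicClosure ℚ, (∀ x ∈ L, σ x = x) →
        (∀ v, ρ₀ σ v - v ∈ (IsLocalRing.maximalIdeal 𝒪' ^ n) • (⊤ : Submodule 𝒪' V₀)) ∧
        ((ε σ : 𝒪'ˣ) : 𝒪') - 1 ∈ IsLocalRing.maximalIdeal 𝒪' ^ n) :
    ∃ (𝒪'' : Type) (_ : CommRing 𝒪'') (_ : IsDomain 𝒪'') (_ : IsDiscreteValuationRing 𝒪'')
      (_ : IsAdicComplete (IsLocalRing.maximalIdeal 𝒪'') 𝒪'')
      (_ : Finite (IsLocalRing.ResidueField 𝒪'')) (_ : CharZero 𝒪'')
      (_ : Algebra 𝒪' 𝒪'') (_ : Module.Finite 𝒪' 𝒪'') (_ : IsLocalHom (algebraMap 𝒪' 𝒪'')),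
    Function.Injective (algebraMap 𝒪' 𝒪'') ∧
    ∃ ρ : GaloisRepAdic 𝒪'',
      (∀ (ℓ : ℕ) (hℓ : ℓ.Prime) (hℓN : ¬ ℓ ∣ N) (hℓS : ℓ ∉ (↑S : Set ℕ)),
        ∀ A : ValuationSubring (AlgebraicClosure ℚ), A.LiesOverPrime ℓ →
          ∀ σ : AlgebraicClosure ℚ ≃ₐ[ℚ] AlgebraicClosure ℚ, A.IsFrobeniusAt σ ℓ →
            LinearMap.charpoly (ρ.ρ σ) =
              X ^ 2 - C (algebraMap 𝒪' 𝒪'' (χ (CuspForm.heckeAlgebra.T hℓ hℓN hℓS))) * X
                + C ((ℓ : 𝒪''))) ∧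
      (∀ q : ℕ, q.Prime → ¬ q ∣ N → q ≠ p → ρ.IsUnramifiedAt q) := by
  choose b hb using hquad
  obtain ⟨𝒪'', i1, i2, i3, i4, i5, i6, i7, i8, i9, hinj, ρ, hρ1, hρ2⟩ :=
    lat_galoisRepAdic 𝒪' ρ₀ ε b hb hcont
  refine ⟨𝒪'', i1, i2, i3, i4, i5, i6, i7, i8, i9, hinj, ρ, ?_, ?_⟩
  · intro ℓ hℓ hℓN hℓS A hA σ hσ
    obtain ⟨h1, h2⟩ := hfrob ℓ hℓ hℓN hℓS A hA σ hσ
    have hsurj : Function.Surjective (ρ₀ σ) := by
      intro v
      refine ⟨ρ₀ σ⁻¹ v, ?_⟩
      rw [← Module.End.mul_apply, ← map_mul, mul_inv_cancel, map_one, Module.End.one_apply]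
    have h3 : b σ = χ (CuspForm.heckeAlgebra.T hℓ hℓN hℓS) := by
      refine qlm_unique (ρ₀ σ) hsurj ((ε σ : 𝒪'ˣ) : 𝒪') _ _ (hb σ) ?_
      rw [h2]
      exact h1
    rw [hρ1 σ, h3, h2, map_natCast]
  · intro q hq hqN hqp P hP σ hσ
    obtain ⟨h1, h2⟩ := hinert q hq hqN hqp P hP σ hσ
    exact hρ2 σ h1 h2

end S30

end Fermat.Agent.S30
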