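import Fermat.Agent.S29.FrobDens
import Fermat.Agent.S29.QuadPow
import Fermat.Agent.S30.QuadLim

/-!
# S30 preparation, package QUADALL: a quadratic relation for every Galois element

`qal_main`: `R` a complete local ring, `V` a nonzero finite free `R`-module, `ρ` a representation
of `Gal(ℚ̄/ℚ)` on `V` and `ε` a character with values in `Rˣ`, both adically continuous.  If
`ρ τ ^ 2 - c ℓ • ρ τ + ℓ = 0` and `ε τ = ℓ` for every Frobenius lift `τ` at every prime `ℓ`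
outside a finite set `S`, then there is a function `b` on the Galois group with
`ρ g ^ 2 - b g • ρ g + ε g = 0` for EVERY `g`, and `b τ = c ℓ` at the Frobenius lifts.

(Frobenius density `fd_main` + powers of a quadratic relation `qpw_pow` + the limit statement
`qlm_main` and its uniqueness part `qlm_unique`.)
-/

set_option autoImplicit false

namespace Fermat.Agent.S30

open Fermat.Agent.S29

local notation "Qb" => AlgebraicClosure ℚ

section approx

variable {R : Type*} [CommRing R] {V : Type*} [AddCommGroup V] [Module R V]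

/-- an endomorphism maps `J • ⊤` into itself -/
theorem qal_map_mem (J : Ideal R) (f : Module.End R V) {x : V}
    (hx : x ∈ J • (⊤ : Submodule R V)) : f x ∈ J • (⊤ : Submodule R V) := by
  refine Submodule.smul_induction_on hx ?_ ?_
  · intro r hr n _
    rw [map_smul]
    exact Submodule.smul_mem_smul hr Submodule.mem_top
  · intro x y hx hy
    rw [map_add]
    exact Submodule.add_mem _ hx hy

/-- A quadratic relation for `M * U` with constant term `e * u`, where `U ≡ 1` and `u ≡ 1`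
modulo `J`, gives the quadratic relation for `M` with constant term `e` modulo `J`. -/
theorem qal_approx (J : Ideal R) (M U : Module.End R V) (a e u : R)
    (hU : ∀ v, U v - v ∈ J • (⊤ : Submodule R V)) (hu : u - 1 ∈ J)
    (h : (M * U) * (M * U) - a • (M * U) + (e * u) • (1 : Module.End R V) = 0) (v : V) :
    M (M v) - a • M v + e • v ∈ J • (⊤ : Submodule R V) := by
  have h0 := LinearMap.congr_fun h v
  simp only [LinearMap.add_apply, LinearMap.sub_apply, Module.End.mul_apply,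
    LinearMap.smul_apply, Module.End.one_apply, LinearMap.zero_apply] at h0
  have e1 : M (M v) - a • M v + e • v =
      - (M (U (M (U v)) - M (U v))) - M (M (U v - v)) + a • M (U v - v)
        - e • ((u - 1) • v) := by
    simp only [map_sub, smul_sub, sub_smul, one_smul]
    linear_combination (norm := module) h0
  rw [e1]
  refine Submodule.sub_mem _ (Submodule.add_mem _ (Submodule.sub_mem _
    (Submodule.neg_mem _ ?_) ?_) ?_) ?_
  · exact qal_map_mem J M (hU _)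
  · exact qal_map_mem J M (qal_map_mem J M (hU _))
  · exact Submodule.smul_mem _ _ (qal_map_mem J M (hU _))
  · exact Submodule.smul_mem _ _ (Submodule.smul_mem_smul hu Submodule.mem_top)

end approx

/-- **A quadratic relation for every Galois element.** -/
theorem qal_main {R : Type*} [CommRing R] [IsLocalRing R]
    [IsAdicComplete (IsLocalRing.maximalIdeal R) R]
    {V : Type*} [AddCommGroup V] [Module R V] [Module.Free R V] [Module.Finite R V]
    [Nontrivial V]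
    (ρ : (Qb ≃ₐ[ℚ] Qb) →* Module.End R V) (ε : (Qb ≃ₐ[ℚ] Qb) →* Rˣ) (S : Finset ℕ)
    (c : ℕ → R)
    (hρ : ∀ n : ℕ, ∃ L : IntermediateField ℚ Qb, FiniteDimensional ℚ L ∧
      ∀ σ : Qb ≃ₐ[ℚ] Qb, (∀ x ∈ L, σ x = x) →
        ∀ v : V, ρ σ v - v ∈ (IsLocalRing.maximalIdeal R ^ n) • (⊤ : Submodule R V))
    (hε : ∀ n : ℕ, ∃ L : IntermediateField ℚ Qb, FiniteDimensional ℚ L ∧
      ∀ σ : Qb ≃ₐ[ℚ] Qb, (∀ x ∈ L, σ x = x) →
        ((ε σ : Rˣ) : R) - 1 ∈ IsLocalRing.maximalIdeal R ^ n)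
    (hF : ∀ ℓ : ℕ, ℓ.Prime → ℓ ∉ S → ∀ A : ValuationSubring Qb, A.LiesOverPrime ℓ →
      ∀ τ : Qb ≃ₐ[ℚ] Qb, A.IsFrobeniusAt τ ℓ →
        ρ τ * ρ τ - c ℓ • ρ τ + (ℓ : R) • (1 : Module.End R V) = 0 ∧
          ((ε τ : Rˣ) : R) = (ℓ : R)) :
    ∃ b : (Qb ≃ₐ[ℚ] Qb) → R,
      (∀ g : Qb ≃ₐ[ℚ] Qb,
        ρ g * ρ g - b g • ρ g + ((ε g : Rˣ) : R) • (1 : Module.End R V) = 0) ∧
      ∀ ℓ : ℕ, ℓ.Prime → ℓ ∉ S → ∀ A : ValuationSubring Qb, A.LiesOverPrime ℓ →
        ∀ τ : Qb ≃ₐ[ℚ] Qb, A.IsFrobeniusAt τ ℓ → b τ = c ℓ := by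
  have hsurj : ∀ g : Qb ≃ₐ[ℚ] Qb, Function.Surjective (ρ g) := by
    intro g v
    refine ⟨ρ g⁻¹ v, ?_⟩
    have h1 : ρ g * ρ g⁻¹ = 1 := by rw [← map_mul, mul_inv_cancel, map_one]
    exact LinearMap.congr_fun h1 v
  have key : ∀ g : Qb ≃ₐ[ℚ] Qb, ∃ b : R,
      ρ g * ρ g - b • ρ g + ((ε g : Rˣ) : R) • (1 : Module.End R V) = 0 := by
    intro g
    refine qlm_main (IsLocalRing.maximalIdeal R) (ρ g) (hsurj g) _ ?_
    intro n
    obtain ⟨L1, hL1, h1⟩ := hρ n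
    obtain ⟨L2, hL2, h2⟩ := hε n
    have : FiniteDimensional ℚ (L1 ⊔ L2 : IntermediateField ℚ Qb) :=
      IntermediateField.finiteDimensional_sup L1 L2
    obtain ⟨ℓ, hℓ, hℓS, A, hA, τ, hτ, m, hm⟩ := fd_main (L1 ⊔ L2) S g
    obtain ⟨hq, hετ⟩ := hF ℓ hℓ hℓS A hA τ hτ
    obtain ⟨a', ha'⟩ := qpw_pow (ρ τ) (c ℓ) (ℓ : R) hq m
    have hfix : ∀ x ∈ (L1 ⊔ L2 : IntermediateField ℚ Qb), (g⁻¹ * τ ^ m) x = x := by
      intro x hx
      rw [AlgEquiv.mul_apply, hm x hx]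
      have h3 : (g⁻¹ * g) x = x := by rw [inv_mul_cancel]; rfl
      exact h3
    have hτm : τ ^ m = g * (g⁻¹ * τ ^ m) := by rw [mul_inv_cancel_left]
    refine ⟨a', fun v => ?_⟩
    refine qal_approx (IsLocalRing.maximalIdeal R ^ n) (ρ g) (ρ (g⁻¹ * τ ^ m)) a'
      ((ε g : Rˣ) : R) ((ε (g⁻¹ * τ ^ m) : Rˣ) : R)
      (h1 _ fun x hx => hfix x ((le_sup_left : L1 ≤ L1 ⊔ L2) hx))
      (h2 _ fun x hx => hfix x ((le_sup_right : L2 ≤ L1 ⊔ L2) hx)) ?_ v
    have e1 : ρ g * ρ (g⁻¹ * τ ^ m) = ρ τ ^ m := by rw [← map_mul, ← hτm, map_pow]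
    have e2 : ((ε g : Rˣ) : R) * ((ε (g⁻¹ * τ ^ m) : Rˣ) : R) = (ℓ : R) ^ m := by
      rw [← Units.val_mul, ← map_mul, ← hτm, map_pow, Units.val_pow_eq_pow_val, hετ]
    rw [e1, e2]
    exact ha'
  choose b hb using key
  refine ⟨b, hb, ?_⟩
  intro ℓ hℓ hℓS A hA τ hτ
  obtain ⟨hq, hετ⟩ := hF ℓ hℓ hℓS A hA τ hτ
  have h1 := hb τ
  rw [hετ] at h1
  exact qlm_unique (ρ τ) (hsurj τ) (ℓ : R) (b τ) (c ℓ) h1 hq

end Fermat.Agent.S30
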