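import Fermat.Agent.S30.Lattice
import Fermat.Agent.S30.QuadAll
import Fermat.Agent.S30.ZpAlg

/-!
# S30 preparation: the back end in its final form

`latc_s30`: the conclusion of S30 from a Galois lattice `(V₀, ρ₀)` over `𝒪'` satisfying only

* the Eichler–Shimura relation `ρ₀ σ ^ 2 - χ(T_ℓ) • ρ₀ σ + ℓ = 0` at Frobenius lifts `σ` at the
  primes `ℓ ∉ S`, `ℓ ∤ N`;
* triviality on inertia at the primes `q ∤ N`, `q ≠ p`;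
* adic continuity.

(The determinant character is the `𝒪'`-valued `p`-adic cyclotomic character `cyaCharO`; the
quadratic relation at every Galois element comes from `qal_main`; the rank two lattice over a
finite extension from `lat_s30`.)
-/

set_option autoImplicit false

open Polynomial

namespace Fermat.Agent.S30

open Fermat.Agent.S29

/-- the `𝒪'`-valued cyclotomic character is adically continuous -/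
theorem latc_cyclo_cont (p : ℕ) [Fact p.Prime] (O : Type*) [CommRing O] [IsLocalRing O]
    [IsAdicComplete (IsLocalRing.maximalIdeal O) O]
    (hp : (p : O) ∈ IsLocalRing.maximalIdeal O) (n : ℕ) :
    ∃ L : IntermediateField ℚ (AlgebraicClosure ℚ), FiniteDimensional ℚ L ∧
      ∀ σ : AlgebraicClosure ℚ ≃ₐ[ℚ] AlgebraicClosure ℚ, (∀ x ∈ L, σ x = x) →
        ((cyaCharO p O hp σ : Oˣ) : O) - 1 ∈ IsLocalRing.maximalIdeal O ^ n := by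
  refine ⟨cycField (p ^ n), cya_field_finiteDimensional p n, fun σ hσ => ?_⟩
  have h := cyaCharO_congr_field p O hp n σ 1 (fun x hx => by rw [hσ x hx]; rfl)
  rw [map_one, Units.val_one] at h
  exact ((Ideal.span_singleton_le_iff_mem _).mpr (Ideal.pow_mem_pow hp n)) h

/-- **S30 from a Galois lattice with Eichler–Shimura relations.** -/
theorem latc_s30 (p : ℕ) [Fact p.Prime] (N : ℕ) [NeZero N] (S : Finset ℕ) (hpS : p ∈ S)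
    (𝒪' : Type) [CommRing 𝒪'] [IsDomain 𝒪'] [IsDiscreteValuationRing 𝒪']
    [IsAdicComplete (IsLocalRing.maximalIdeal 𝒪') 𝒪'] [Finite (IsLocalRing.ResidueField 𝒪')]
    [CharZero 𝒪'] (hp𝒪' : (p : 𝒪') ∈ IsLocalRing.maximalIdeal 𝒪')
    (χ : CuspForm.heckeAlgebra N 2 (↑S : Set ℕ) →+* 𝒪')
    {V₀ : Type*} [AddCommGroup V₀] [Module 𝒪' V₀] [Module.Free 𝒪' V₀]
    [Module.Finite 𝒪' V₀] [Nontrivial V₀]
    (ρ₀ : (AlgebraicClosure ℚ ≃ₐ[ℚ] AlgebraicClosure ℚ) →* Module.End 𝒪' V₀)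
    (hfrob : ∀ (ℓ : ℕ) (hℓ : ℓ.Prime) (hℓN : ¬ ℓ ∣ N) (hℓS : ℓ ∉ (↑S : Set ℕ)),
      ∀ A : ValuationSubring (AlgebraicClosure ℚ), A.LiesOverPrime ℓ →
        ∀ σ : AlgebraicClosure ℚ ≃ₐ[ℚ] AlgebraicClosure ℚ, A.IsFrobeniusAt σ ℓ →
          ρ₀ σ * ρ₀ σ - χ (CuspForm.heckeAlgebra.T hℓ hℓN hℓS) • ρ₀ σ +
            (ℓ : 𝒪') • (1 : Module.End 𝒪' V₀) = 0)
    (hinert : ∀ q : ℕ, q.Prime → ¬ q ∣ N → q ≠ p →
      ∀ P : ValuationSubring (AlgebraicClosure ℚ), P.LiesOverPrime q →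
        ∀ σ ∈ P.inertiaSubgroupIn ℚ, ρ₀ σ = 1)
    (hcont : ∀ n : ℕ, ∃ L : IntermediateField ℚ (AlgebraicClosure ℚ), FiniteDimensional ℚ L ∧
      ∀ σ : AlgebraicClosure ℚ ≃ₐ[ℚ] AlgebraicClosure ℚ, (∀ x ∈ L, σ x = x) →
        ∀ v, ρ₀ σ v - v ∈ (IsLocalRing.maximalIdeal 𝒪' ^ n) • (⊤ : Submodule 𝒪' V₀)) :
    ∃ (𝒪'' : Type) (_ : CommRing 𝒪'') (_ : IsDomain 𝒪'') (_ : IsDiscreteValuationRing 𝒪'')
      (_ : IsAdicComplete (IsLocalRing.maximalIdeal 𝒪'') 𝒪'')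
      (_ : Finite (IsLocalRing.ResidueField 𝒪'')) (_ : CharZero 𝒪'')
      (_ : Algebra 𝒪' 𝒪'') (_ : Module.Finite 𝒪' 𝒪'') (_ : IsLocalHom (algebraMap 𝒪' 𝒪'')),
    Function.Injective (algebraMap 𝒪' 𝒪'') ∧
    ∃ ρ : GaloisRepAdic 𝒪'',
      (∀ (ℓ : ℕ) (hℓ : ℓ.Prime) (hℓN : ¬ ℓ ∣ N) (hℓS : ℓ ∉ (↑S : Set ℕ)),
        ∀ A : ValuationSubring (AlgebraicClosure ℚ), A.LiesOverPrime ℓ →
          ∀ σ : AlgebraicClosure ℚ ≃ₐ[ℚ] AlgebraicClosure ℚ, A.IsFrobeniusAt σ ℓ →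
            LinearMap.charpoly (ρ.ρ σ) =
              X ^ 2 - C (algebraMap 𝒪' 𝒪'' (χ (CuspForm.heckeAlgebra.T hℓ hℓN hℓS))) * X
                + C ((ℓ : 𝒪''))) ∧
      (∀ q : ℕ, q.Prime → ¬ q ∣ N → q ≠ p → ρ.IsUnramifiedAt q) := by
  classical
  have hℓp : ∀ ℓ : ℕ, ℓ ∉ (↑S : Set ℕ) → ℓ ≠ p := by
    rintro ℓ hℓS rfl
    exact hℓS (Finset.mem_coe.mpr hpS)
  have hεcont := latc_cyclo_cont p 𝒪' hp𝒪'
  let c : ℕ → 𝒪' := fun ℓ =>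
    if h : ℓ.Prime ∧ ¬ ℓ ∣ N ∧ ℓ ∉ (↑S : Set ℕ) then
      χ (CuspForm.heckeAlgebra.T h.1 h.2.1 h.2.2) else 0
  have hF : ∀ ℓ : ℕ, ℓ.Prime → ℓ ∉ S ∪ N.primeFactors →
      ∀ A : ValuationSubring (AlgebraicClosure ℚ), A.LiesOverPrime ℓ →
      ∀ τ : AlgebraicClosure ℚ ≃ₐ[ℚ] AlgebraicClosure ℚ, A.IsFrobeniusAt τ ℓ →
        ρ₀ τ * ρ₀ τ - c ℓ • ρ₀ τ + (ℓ : 𝒪') • (1 : Module.End 𝒪' V₀) = 0 ∧
          ((cyaCharO p 𝒪' hp𝒪' τ : 𝒪'ˣ) : 𝒪') = (ℓ : 𝒪') := by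
    intro ℓ hℓ hℓS' A hA τ hτ
    rw [Finset.mem_union, not_or] at hℓS'
    have hℓS : ℓ ∉ (↑S : Set ℕ) := fun h => hℓS'.1 (Finset.mem_coe.mp h)
    have hℓN : ¬ ℓ ∣ N := fun h =>
      hℓS'.2 (Nat.mem_primeFactors.mpr ⟨hℓ, h, NeZero.ne N⟩)
    have hc : c ℓ = χ (CuspForm.heckeAlgebra.T hℓ hℓN hℓS) := dif_pos ⟨hℓ, hℓN, hℓS⟩
    rw [hc]
    exact ⟨hfrob ℓ hℓ hℓN hℓS A hA τ hτ,
      cyaCharO_frobenius p 𝒪' hp𝒪' ℓ hℓ (hℓp ℓ hℓS) A hA τ hτ⟩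
  obtain ⟨b, hb, -⟩ := qal_main ρ₀ (cyaCharO p 𝒪' hp𝒪') (S ∪ N.primeFactors) c hcont hεcont hF
  refine lat_s30 p N S 𝒪' χ ρ₀ (cyaCharO p 𝒪' hp𝒪') (fun σ => ⟨b σ, hb σ⟩) ?_ ?_ ?_
  · intro ℓ hℓ hℓN hℓS A hA σ hσ
    exact ⟨hfrob ℓ hℓ hℓN hℓS A hA σ hσ,
      cyaCharO_frobenius p 𝒪' hp𝒪' ℓ hℓ (hℓp ℓ hℓS) A hA σ hσ⟩
  · intro q hq hqN hqp P hP σ hσ
    exact ⟨hinert q hq hqN hqp P hP σ hσ, cyaCharO_inertia p 𝒪' hp𝒪' q hq hqp P hP σ hσ⟩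
  · intro n
    obtain ⟨L1, hL1, h1⟩ := hcont n
    obtain ⟨L2, hL2, h2⟩ := hεcont n
    have hfd : FiniteDimensional ℚ (L1 ⊔ L2 : IntermediateField ℚ (AlgebraicClosure ℚ)) :=
      IntermediateField.finiteDimensional_sup L1 L2
    exact ⟨L1 ⊔ L2, hfd, fun σ hσ =>
      ⟨h1 σ (fun x hx => hσ x ((le_sup_left : L1 ≤ L1 ⊔ L2) hx)),
        h2 σ (fun x hx => hσ x ((le_sup_right : L2 ≤ L1 ⊔ L2) hx))⟩⟩

end Fermat.Agent.S30
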