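/-
S30 project, package TATE, part 4 (helper16): the statement `tate_core` of the front-end
skeleton, verbatim (section D), obtained from `TateRange.lean`.
-/
import Mathlib
import Fermat.Agent.S30.TateRange

set_option autoImplicit false

namespace Fermat.Agent.S30

/-- **The Tate module of a system of levels** (skeleton statement D). -/
theorem tate_core (p : ℕ) [Fact p.Prime] {X : Type*} [AddGroup X]
    {J : Type*} [AddCommGroup J] {G : Type*} [Group G] [DistribMulAction G J]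
    (Jn : ℕ → AddSubgroup J) (hJn : ∀ (n : ℕ) (y : J), y ∈ Jn n ↔ p ^ n • y = 0)
    (Φ : ∀ n : ℕ, ↥(Jn n) →+ (X →+ ZMod (p ^ n)))
    (hΦ : ∀ n, Function.Injective (Φ n))
    (hlev : ∀ (n : ℕ) (y : Jn (n + 1)) (y' : Jn n), (y' : J) = p • (y : J) →
      ∀ x, Φ n y' x = ZMod.castHom (pow_dvd_pow p n.le_succ) (ZMod (p ^ n)) (Φ (n + 1) y x)) :
    ∃ (Λ : Submodule ℤ_[p] (X →+ ℤ_[p])) (ρ : G →* Module.End ℤ_[p] Λ)
      (c : ∀ n : ℕ, ↥Λ →+ ↥(Jn n)),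
      (∀ (n : ℕ) (ψ : Λ) (x : X),
        Φ n (c n ψ) x = PadicInt.toZModPow n ((ψ : X →+ ℤ_[p]) x)) ∧
      (∀ (n : ℕ) (g : G) (ψ : Λ), ((c n (ρ g ψ) : Jn n) : J) = g • ((c n ψ : Jn n) : J)) ∧
      (∀ ψ : X →+ ℤ_[p],
        (∀ n : ℕ, ∃ y : Jn n, ∀ x, Φ n y x = PadicInt.toZModPow n (ψ x)) → ψ ∈ Λ) := by
  obtain ⟨ρ, hρ⟩ := tater_main (G := G) Jn Φ hJn hΦ hlev
  exact ⟨taterLam Jn Φ, ρ, taterLevel Jn Φ hΦ,
    fun n ψ x => taterLevel_spec Jn Φ hΦ n ψ x,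
    fun n g ψ => taterLevel_act Jn Φ hJn hΦ ρ hρ g ψ n,
    fun ψ h => h⟩

/-- The same with `Λ = taterLam Jn Φ` explicit, and the converse membership. -/
theorem tate_core' (p : ℕ) [Fact p.Prime] {X : Type*} [AddGroup X]
    {J : Type*} [AddCommGroup J] {G : Type*} [Group G] [DistribMulAction G J]
    (Jn : ℕ → AddSubgroup J) (hJn : ∀ (n : ℕ) (y : J), y ∈ Jn n ↔ p ^ n • y = 0)
    (Φ : ∀ n : ℕ, ↥(Jn n) →+ (X →+ ZMod (p ^ n)))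
    (hΦ : ∀ n, Function.Injective (Φ n))
    (hlev : ∀ (n : ℕ) (y : Jn (n + 1)) (y' : Jn n), (y' : J) = p • (y : J) →
      ∀ x, Φ n y' x = ZMod.castHom (pow_dvd_pow p n.le_succ) (ZMod (p ^ n)) (Φ (n + 1) y x)) :
    ∃ (ρ : G →* Module.End ℤ_[p] (taterLam Jn Φ)),
      TaterSpec Jn Φ (fun g ψ => ρ g ψ) ∧
      (∀ (n : ℕ) (ψ : taterLam Jn Φ) (x : X),
        Φ n (taterLevel Jn Φ hΦ n ψ) x = PadicInt.toZModPow n ((ψ : X →+ ℤ_[p]) x)) ∧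
      (∀ (n : ℕ) (g : G) (ψ : taterLam Jn Φ),
        ((taterLevel Jn Φ hΦ n (ρ g ψ) : Jn n) : J) =
          g • ((taterLevel Jn Φ hΦ n ψ : Jn n) : J)) := by
  obtain ⟨ρ, hρ⟩ := tater_main (G := G) Jn Φ hJn hΦ hlev
  exact ⟨ρ, hρ, fun n ψ x => taterLevel_spec Jn Φ hΦ n ψ x,
    fun n g ψ => taterLevel_act Jn Φ hJn hΦ ρ hρ g ψ n⟩

end Fermat.Agent.S30
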