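import Fermat.Agent.S30.TorsLevel

/-!
# S30, package TORS-LEVEL: the contract shapes of ruling S30-C2 (3)

`tlv_field` and `tlv_mem_iff` are the literal statements asked for by the S30 front-end glue
(`frt_abs` / `frt_main`); both are restatements of `tlv_level` and `tlv_mem_torsion`
(`S30/TorsLevel.lean`).
-/

set_option autoImplicit false

open ModularCurve AlgebraicCurve

namespace Fermat.Agent.S30

local notation "Qb" => AlgebraicClosure ℚ

/-- **Finite level of `J₀(N)[m]`**, membership form: if `J₀(N)[m]` is finite there is a number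
field `L` such that `Gal(ℚ̄/L)` fixes every point of `J₀(N)[m]`. -/
theorem tlv_field (N : ℕ) [NeZero N] (m : ℕ) (_hm : m ≠ 0)
    (hfin : Finite ↥(Pic0.torsion Qb (modularFunctionFieldBar N) m)) :
    ∃ L : IntermediateField ℚ Qb, FiniteDimensional ℚ L ∧
      ∀ σ : Qb ≃ₐ[ℚ] Qb, (∀ x ∈ L, σ x = x) →
        ∀ y : JZero N, y ∈ Pic0.torsion Qb (modularFunctionFieldBar N) m → σ • y = y := by
  obtain ⟨L, hL, h⟩ := tlv_level N m hfin
  exact ⟨L, hL, fun σ hσ y hy => h σ hσ y ((tlv_mem_torsion N m y).mp hy)⟩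

/-- Membership in the `p ^ n`-torsion of `J₀(N)`, with a natural number multiple. -/
theorem tlv_mem_iff (N p n : ℕ) (y : JZero N) :
    y ∈ Pic0.torsion Qb (modularFunctionFieldBar N) (p ^ n) ↔ p ^ n • y = 0 :=
  tlv_mem_torsion N (p ^ n) y

/-- The levels are increasing: `J₀(N)[p ^ n] ≤ J₀(N)[p ^ (n + 1)]`. -/
theorem tlv_mono (N p n : ℕ) (y : JZero N)
    (hy : y ∈ Pic0.torsion Qb (modularFunctionFieldBar N) (p ^ n)) :
    y ∈ Pic0.torsion Qb (modularFunctionFieldBar N) (p ^ (n + 1)) := by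
  rw [tlv_mem_iff] at hy ⊢
  rw [pow_succ, mul_nsmul, hy, nsmul_zero]

/-- Multiplication by `p` maps `J₀(N)[p ^ (n + 1)]` into `J₀(N)[p ^ n]`. -/
theorem tlv_p_smul_mem (N p n : ℕ) (y : JZero N)
    (hy : y ∈ Pic0.torsion Qb (modularFunctionFieldBar N) (p ^ (n + 1))) :
    p • y ∈ Pic0.torsion Qb (modularFunctionFieldBar N) (p ^ n) := by
  rw [tlv_mem_iff] at hy ⊢
  rw [← mul_nsmul, mul_comm p (p ^ n), ← pow_succ]
  exact hy

end Fermat.Agent.S30
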